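import Mathlib
import Fermat.Prelude.Def_FLTPrelim_Ramification

/-!
# Elementary facts on the inertia subgroup of a valuation subring
-/

set_option autoImplicit false

namespace Fermat.Agent.S05

open scoped Pointwise

variable {K L : Type*} [Field K] [Field L] [Algebra K L] {A : ValuationSubring L}

lemma mem_of_mem_inertia {σ : L ≃ₐ[K] L} (hσ : σ ∈ A.inertiaSubgroupIn K) {x : L} (hx : x ∈ A) :
    σ x ∈ A := by
  obtain ⟨τ, _, rfl⟩ := Subgroup.mem_map.mp hσ
  have h1 : (τ : L ≃ₐ[K] L) • A = A := MulAction.mem_stabilizer_iff.mp τ.2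
  have h2 := ValuationSubring.smul_mem_pointwise_smul (τ : L ≃ₐ[K] L) x A hx
  rw [h1] at h2
  exact h2

lemma sub_mem_nonunits_of_mem_inertia {σ : L ≃ₐ[K] L} (hσ : σ ∈ A.inertiaSubgroupIn K) {x : L}
    (hx : x ∈ A) : σ x - x ∈ A.nonunits := by
  obtain ⟨τ, hτ, rfl⟩ := Subgroup.mem_map.mp hσ
  have h1 : MulSemiringAction.toRingAut (A.decompositionSubgroup K)
      (IsLocalRing.ResidueField A) τ = 1 := MonoidHom.mem_ker.mp hτ
  have h2 : τ • IsLocalRing.residue A ⟨x, hx⟩ = IsLocalRing.residue A ⟨x, hx⟩ := by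
    have := congrArg (fun f : RingAut (IsLocalRing.ResidueField A) =>
      f (IsLocalRing.residue A ⟨x, hx⟩)) h1
    simpa using this
  rw [← IsLocalRing.ResidueField.residue_smul, ← sub_eq_zero, ← map_sub,
    IsLocalRing.residue_eq_zero_iff] at h2
  have h3 := (ValuationSubring.mem_nonunits_iff_exists_mem_maximalIdeal).mpr
    ⟨(τ • (⟨x, hx⟩ : A) - ⟨x, hx⟩ : A).2, h2⟩
  exact h3

end Fermat.Agent.S05
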