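import Fermat.Agent.S05.ValSub

/-!
# Valuations on algebraic extensions of `ℚ` above a prime `q`
-/

set_option autoImplicit false
set_option linter.unusedSectionVars false

universe u v

namespace Fermat.Agent.S05

variable {K : Type u} [Field K] [CharZero K] {Γ₀ : Type v} [LinearOrderedCommGroupWithZero Γ₀]
  {v : Valuation K Γ₀} {q : ℕ}

section
variable (hint : ∀ n : ℤ, v (n : K) ≤ 1) (hq : q.Prime) (hvq : v (q : K) < 1)
include hint hq hvq

lemma v_int_eq_one {n : ℤ} (hn : ¬ (q : ℤ) ∣ n) : v (n : K) = 1 := by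
  refine le_antisymm (hint n) (not_lt.mp fun hlt => ?_)
  obtain ⟨a, b, hab⟩ := ((Nat.prime_iff_prime_int.mp hq).coprime_iff_not_dvd).mpr hn
  have h1 : (a : K) * (q : K) + (b : K) * (n : K) = 1 := by exact_mod_cast congrArg (Int.cast : ℤ → K) hab
  have h2 : v ((a : K) * (q : K)) < 1 := by
    rw [map_mul]
    exact lt_of_le_of_lt (mul_le_of_le_one_left' (hint a)) hvq
  have h3 : v ((b : K) * (n : K)) < 1 := by
    rw [map_mul]
    exact lt_of_le_of_lt (mul_le_of_le_one_left' (hint b)) hlt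
  have h4 := v.map_add_lt h2 h3
  rw [h1, map_one] at h4
  exact lt_irrefl _ h4

lemma v_nat_eq_pow {n : ℕ} (hn : n ≠ 0) : ∃ j : ℕ, v (n : K) = v (q : K) ^ j := by
  obtain ⟨e, m, hm, rfl⟩ := Nat.exists_eq_pow_mul_and_not_dvd hn q hq.ne_one
  refine ⟨e, ?_⟩
  have h1 : v ((m : ℤ) : K) = 1 :=
    v_int_eq_one hint hq hvq (by exact_mod_cast hm)
  push_cast at h1 ⊢
  rw [map_mul, map_pow, h1, mul_one]

lemma v_rat_eq_zpow {r : ℚ} (hr : r ≠ 0) : ∃ j : ℤ, v (r : K) = v (q : K) ^ j := by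
  have hnum : r.num.natAbs ≠ 0 := by simpa using hr
  obtain ⟨a, ha⟩ := v_nat_eq_pow hint hq hvq hnum
  obtain ⟨b, hb⟩ := v_nat_eq_pow hint hq hvq r.den_ne_zero
  have hq0 : v (q : K) ≠ 0 := (Valuation.ne_zero_iff v).mpr (by exact_mod_cast hq.ne_zero)
  refine ⟨a - b, ?_⟩
  have h1 : v ((r.num : ℤ) : K) = v ((r.num.natAbs : ℕ) : K) := by
    rcases Int.natAbs_eq r.num with h | h
    · conv_lhs => rw [h]
      simp
    · conv_lhs => rw [h]
      simp
  rw [Rat.cast_def, map_div₀, h1, ha, hb, zpow_sub₀ hq0, zpow_natCast, zpow_natCast]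

/-- The value group is torsion over `v(q)^ℤ`. -/
lemma exists_IsW [Algebra ℚ K] [Algebra.IsAlgebraic ℚ K] {x : K} (hx : x ≠ 0) :
    ∃ r, IsW v (v (q : K)) x r := by
  obtain ⟨f, hf0, hfx⟩ := Algebra.IsAlgebraic.isAlgebraic (R := ℚ) x
  have hq0 : v (q : K) ≠ 0 := (Valuation.ne_zero_iff v).mpr (by exact_mod_cast hq.ne_zero)
  have hvx : v x ≠ 0 := (Valuation.ne_zero_iff v).mpr hx
  set T : ℕ → K := fun i => algebraMap ℚ K (f.coeff i) * x ^ i with hT
  have hsum : ∑ i ∈ f.support, T i = 0 := by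
    rw [← hfx, Polynomial.aeval_def, Polynomial.eval₂_eq_sum, Polynomial.sum_def]
  have hTne : ∀ i ∈ f.support, T i ≠ 0 := by
    intro i hi
    refine mul_ne_zero ?_ (pow_ne_zero _ hx)
    rw [Ne, map_eq_zero]
    exact Polynomial.mem_support_iff.mp hi
  have hpair : ∃ i ∈ f.support, ∃ j ∈ f.support, i < j ∧ v (T i) = v (T j) := by
    by_contra hcon
    have hne : ∀ i ∈ f.support, ∀ j ∈ f.support, i ≠ j → v (T i) ≠ v (T j) := by
      intro i hi j hj hij he
      rcases lt_or_gt_of_ne hij with h | h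
      · exact hcon ⟨i, hi, j, hj, h, he⟩
      · exact hcon ⟨j, hj, i, hi, h, he.symm⟩
    have hsupp : f.support.Nonempty := Polynomial.support_nonempty.mpr hf0
    obtain ⟨i0, hi0, hmax⟩ := Finset.exists_max_image f.support (fun i => v (T i)) hsupp
    have hlt : v (∑ i ∈ f.support.erase i0, T i) < v (T i0) := by
      apply Valuation.map_sum_lt v ((Valuation.ne_zero_iff v).mpr (hTne i0 hi0))
      intro i hi
      have hi' := Finset.mem_of_mem_erase hi
      exact lt_of_le_of_ne (hmax i hi') (hne i hi' i0 hi0 (Finset.ne_of_mem_erase hi))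
    have := Valuation.map_add_eq_of_lt_left v hlt
    rw [Finset.add_sum_erase _ _ hi0, hsum, map_zero] at this
    exact (Valuation.ne_zero_iff v).mpr (hTne i0 hi0) this.symm
  obtain ⟨i, hi, j, hj, hij, he⟩ := hpair
  obtain ⟨a, ha⟩ := v_rat_eq_zpow hint hq hvq (Polynomial.mem_support_iff.mp hi)
  obtain ⟨b, hb⟩ := v_rat_eq_zpow hint hq hvq (Polynomial.mem_support_iff.mp hj)
  simp only [hT, map_mul, map_pow, eq_ratCast, ha, hb] at he
  refine ⟨((a - b : ℤ) : ℚ) / ((j - i : ℕ) : ℚ), j - i, by omega, a - b, ?_, rfl⟩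
  have hji : j = i + (j - i) := by omega
  rw [hji, pow_add, ← mul_assoc, mul_comm (v (q : K) ^ b), mul_assoc] at he
  have h2 : v (q : K) ^ a = v (q : K) ^ b * v x ^ (j - i) := by
    have h3 : v x ^ i ≠ 0 := pow_ne_zero _ hvx
    apply mul_left_cancel₀ h3
    rw [mul_comm]
    exact he
  rw [zpow_sub₀ hq0, h2, mul_div_cancel_left₀ _ (zpow_ne_zero _ hq0)]

end

end Fermat.Agent.S05
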