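import Fermat.Agent.S05.Inertia
import Fermat.Agent.S05.RatVal
import Fermat.Agent.S05.InertiaFacts
import Fermat.Prelude.Def_FLTPrelim_FreyPackage
import Fermat.Prelude.Def_FLTPrelim_GaloisRep
import Fermat.Prelude.Def_FLTPrelim_Ramification

/-!
# The Frey curve: inertia at odd primes `q ≠ p` acts trivially on the `p`-torsion
-/

set_option autoImplicit false
set_option linter.unusedSectionVars false

namespace Fermat.Agent.S05

open WeierstrassCurve WeierstrassCurve.Affine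

local notation "Qbar" => AlgebraicClosure ℚ

attribute [local instance 100000] AlgebraicClosure.instAlgebra

section valuation

variable (A : ValuationSubring Qbar) {q : ℕ} (hq : q.Prime) (hA : A.LiesOverPrime q)

lemma val_int_le_one (n : ℤ) : A.valuation (n : Qbar) ≤ 1 :=
  (A.valuation_le_one_iff _).mpr (intCast_mem A n)

lemma val_q_pos (hq : q.Prime) : 0 < A.valuation (q : Qbar) :=
  zero_lt_iff.mpr ((Valuation.ne_zero_iff _).mpr (Nat.cast_ne_zero.mpr hq.ne_zero))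

/-- The rational valued valuation attached to a valuation subring above `q`. -/
noncomputable def qvalA : QVal Qbar :=
  qvalOf A.valuation (A.valuation (q : Qbar)) (val_q_pos A hq) hA
    (fun _ hx => exists_IsW (val_int_le_one A) hq hA hx)

lemma qvalA_GE_iff {x : Qbar} : (qvalA A hq hA).GE 0 x ↔ x ∈ A :=
  (qvalOf_GE_iff _ _ _).trans (A.valuation_le_one_iff x)

lemma qvalA_GT_iff {x : Qbar} : (qvalA A hq hA).GT 0 x ↔ x ∈ A.nonunits :=
  qvalOf_GT_iff _ _ _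

lemma qvalA_EQ_int {n : ℤ} (hn : ¬ (q : ℤ) ∣ n) : (qvalA A hq hA).EQ 0 (n : Qbar) :=
  (qvalOf_EQ_iff _ _ _).mpr (v_int_eq_one (val_int_le_one A) hq hA hn)

lemma qvalA_pos_int {n : ℤ} (hn0 : n ≠ 0) (hn : (q : ℤ) ∣ n) : 0 < (qvalA A hq hA).w (n : Qbar) := by
  have h1 : (qvalA A hq hA).GT 0 (n : Qbar) := by
    rw [qvalA_GT_iff, ValuationSubring.mem_nonunits_iff]
    obtain ⟨m, rfl⟩ := hn
    push_cast
    rw [map_mul]
    exact lt_of_le_of_lt (mul_le_of_le_one_right' (val_int_le_one A m)) hA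
  exact h1.lt_w (by exact_mod_cast hn0)

variable {A} {σ : Qbar ≃ₐ[ℚ] Qbar} (hσ : σ ∈ A.inertiaSubgroupIn ℚ)
include hσ

lemma val_eq_one_of_inertia {u : Qbar} (hu : A.valuation u = 1) : A.valuation (σ u) = 1 := by
  have h1 : u ∈ A := (A.valuation_le_one_iff u).mp hu.le
  have h2 : u⁻¹ ∈ A := (A.valuation_le_one_iff _).mp (by rw [map_inv₀, hu, inv_one])
  have h3 := (A.valuation_le_one_iff _).mpr (mem_of_mem_inertia hσ h1)
  have h4 := (A.valuation_le_one_iff _).mpr (mem_of_mem_inertia hσ h2)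
  rw [map_inv₀, map_inv₀] at h4
  refine le_antisymm h3 ?_
  by_contra hc
  rw [not_le] at hc
  have h0 : A.valuation (σ u) ≠ 0 := by
    intro h0
    rw [Valuation.zero_iff, map_eq_zero] at h0
    rw [h0, map_zero] at hu
    exact zero_ne_one hu
  have := (one_lt_inv₀ (zero_lt_iff.mpr h0)).mpr hc
  exact absurd h4 (not_le.mpr this)

lemma qvalA_w_inertia {x : Qbar} (hx : x ≠ 0) :
    (qvalA A hq hA).w (σ x) = (qvalA A hq hA).w x := by
  have H : ∀ y : Qbar, y ≠ 0 → ∃ r, IsW A.valuation (A.valuation (q : Qbar)) y r :=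
    fun _ hy => exists_IsW (val_int_le_one A) hq hA hy
  have hσx : σ x ≠ 0 := (map_ne_zero σ).mpr hx
  have hq0 : (q : Qbar) ≠ 0 := Nat.cast_ne_zero.mpr hq.ne_zero
  have hπ0 : A.valuation (q : Qbar) ≠ 0 := (Valuation.ne_zero_iff _).mpr hq0
  obtain ⟨k, hk, j, hj, hr⟩ := wOf_spec (H x hx)
  refine (wOf_spec (H (σ x) hσx)).unique (val_q_pos A hq) hA ⟨k, hk, j, ?_, hr⟩
  have hu : A.valuation (x ^ k * ((q : Qbar) ^ j)⁻¹) = 1 := by
    rw [map_mul, map_pow, map_inv₀, map_zpow₀, hj, mul_inv_cancel₀ (zpow_ne_zero _ hπ0)]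
  have hu' := val_eq_one_of_inertia hσ hu
  rw [map_mul, map_pow, map_inv₀, map_zpow₀, map_natCast, map_mul, map_pow, map_inv₀,
    map_zpow₀] at hu'
  exact eq_of_mul_inv_eq_one hu'

lemma qvalA_GT_inertia {x : Qbar} (hx : (qvalA A hq hA).GE 0 x) :
    (qvalA A hq hA).GT 0 (σ x - x) :=
  (qvalA_GT_iff A hq hA).mpr
    (sub_mem_nonunits_of_mem_inertia hσ ((qvalA_GE_iff A hq hA).mp hx))

end valuation

/-- The discriminant in terms of the two-torsion. -/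
lemma TwoTors.Δ_eq {K : Type*} [Field K] [CharZero K] {W : Affine K} {e1 e2 e3 : K}
    (h : TwoTors W e1 e2 e3) :
    W.Δ = 16 * (e1 - e2) ^ 2 * (e1 - e3) ^ 2 * (e2 - e3) ^ 2 := by
  have h8 := W.b_relation
  have h4 : (4 : K) ≠ 0 := by norm_num
  apply mul_left_cancel₀ h4
  rw [WeierstrassCurve.Δ]
  have : 4 * (-W.b₂ ^ 2 * W.b₈ - 8 * W.b₄ ^ 3 - 27 * W.b₆ ^ 2 + 9 * W.b₂ * W.b₄ * W.b₆) =
      -W.b₂ ^ 2 * (W.b₂ * W.b₆ - W.b₄ ^ 2) - 32 * W.b₄ ^ 3 - 108 * W.b₆ ^ 2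
        + 36 * W.b₂ * W.b₄ * W.b₆ := by
    linear_combination (-W.b₂ ^ 2) * h8
  rw [this, h.hb2, h.hb4, h.hb6]
  ring

section frey

variable (P : FreyPackage)

lemma frey_a₁ : (P.freyCurve⁄Qbar).a₁ = 1 := by
  simp [FreyPackage.freyCurve]

lemma frey_a₂ : (P.freyCurve⁄Qbar).a₂ = ((P.b : Qbar) ^ P.p - 1 - (P.a : Qbar) ^ P.p) / 4 := by
  simp [FreyPackage.freyCurve]

lemma frey_a₃ : (P.freyCurve⁄Qbar).a₃ = 0 := by
  simp [FreyPackage.freyCurve]

lemma frey_a₄ : (P.freyCurve⁄Qbar).a₄ = -((P.a : Qbar) ^ P.p) * ((P.b : Qbar) ^ P.p) / 16 := by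
  simp [FreyPackage.freyCurve]

lemma frey_a₆ : (P.freyCurve⁄Qbar).a₆ = 0 := by
  simp [FreyPackage.freyCurve]

lemma frey_twoTors :
    TwoTors (P.freyCurve⁄Qbar) 0 ((P.a : Qbar) ^ P.p / 4) (-((P.b : Qbar) ^ P.p) / 4) := by
  refine ⟨?_, ?_, ?_⟩
  · rw [WeierstrassCurve.b₂, frey_a₁, frey_a₂]; ring
  · rw [WeierstrassCurve.b₄, frey_a₁, frey_a₃, frey_a₄]; ring
  · rw [WeierstrassCurve.b₆, frey_a₃, frey_a₆]; ring

lemma frey_FLT : (P.a : Qbar) ^ P.p + (P.b : Qbar) ^ P.p = (P.c : Qbar) ^ P.p := by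
  exact_mod_cast congrArg (Int.cast : ℤ → Qbar) P.hFLT

end frey

section main

variable (P : FreyPackage) {q : ℕ} (hq : q.Prime) (hq2 : q ≠ 2) (hqp : q ≠ P.p)
  (A : ValuationSubring Qbar) (hA : A.LiesOverPrime q) {σ : Qbar ≃ₐ[ℚ] Qbar}
  (hσ : σ ∈ A.inertiaSubgroupIn ℚ)

lemma not_dvd_of_gcd_eq_one (hq : q.Prime) {x y : ℤ} (h : gcd x y = 1) (hx : (q : ℤ) ∣ x) :
    ¬ (q : ℤ) ∣ y := by
  intro hy
  have h1 := dvd_gcd hx hy
  rw [h] at h1
  have h2 : (q : ℤ) ∣ ((1 : ℕ) : ℤ) := by simpa using h1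
  have h3 : q ∣ 1 := Int.natCast_dvd_natCast.mp h2
  exact hq.one_lt.ne' (Nat.dvd_one.mp h3)

include hq2 in
lemma qvalA_two : (qvalA A hq hA).EQ 0 (2 : Qbar) := by
  have h : ¬ (q : ℤ) ∣ ((2 : ℕ) : ℤ) := by
    intro h
    exact hq2 ((Nat.prime_dvd_prime_iff_eq hq Nat.prime_two).mp (Int.natCast_dvd_natCast.mp h))
  simpa using qvalA_EQ_int A hq hA h

include hqp in
lemma qvalA_p : (qvalA A hq hA).EQ 0 (P.p : Qbar) := by
  have h : ¬ (q : ℤ) ∣ ((P.p : ℕ) : ℤ) := by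
    intro h
    exact hqp ((Nat.prime_dvd_prime_iff_eq hq P.pp).mp (Int.natCast_dvd_natCast.mp h))
  simpa using qvalA_EQ_int A hq hA h

lemma qvalA_pow_unit {n : ℤ} (hn : ¬ (q : ℤ) ∣ n) (k : ℕ) :
    (qvalA A hq hA).EQ 0 ((n : Qbar) ^ k) := by
  simpa using (qvalA_EQ_int A hq hA hn).pow k

include hq2 hσ in
/-- The context attached to the Frey curve and an element of the inertia group. -/
lemma frey_ctx {e1 e2 e3 : Qbar} (tt : TwoTors (P.freyCurve⁄Qbar) e1 e2 e3)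
    (he1 : (qvalA A hq hA).GE 0 e1) (he2 : (qvalA A hq hA).GE 0 e2)
    (he3 : (qvalA A hq hA).GE 0 e3) (σe1 : σ e1 = e1) :
    Ctx (qvalA A hq hA) (P.freyCurve⁄Qbar) e1 e2 e3 σ.toAlgHom.toRingHom
      (Point.map (W' := P.freyCurve) σ.toAlgHom) where
  tt := tt
  a1 := by rw [frey_a₁]; exact QVal.EQ.one.ge'
  a2 := by
    rw [frey_a₂]
    have E4 := four_EQ (qvalA_two hq hq2 A hA)
    simpa using ((((QVal.GE.intCast P.b).pow P.p).sub QVal.EQ.one.ge').sub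
      ((QVal.GE.intCast P.a).pow P.p)).div E4
  a3 := by rw [frey_a₃]; exact QVal.GE.zero _
  a4 := by
    rw [frey_a₄]
    have E4 := four_EQ (qvalA_two hq hq2 A hA)
    have E16 : (qvalA A hq hA).EQ 0 (16 : Qbar) := by
      have : (16 : Qbar) = 4 * 4 := by norm_num
      rw [this]; simpa using E4.mul E4
    simpa using ((((QVal.GE.intCast P.a).pow P.p).neg).mul ((QVal.GE.intCast P.b).pow P.p)).div E16
  a6 := by rw [frey_a₆]; exact QVal.GE.zero _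
  he1 := he1
  he2 := he2
  he3 := he3
  two := qvalA_two hq hq2 A hA
  σw := fun x hx => qvalA_w_inertia hq hA hσ hx
  σm := fun x hx => qvalA_GT_inertia hq hA hσ hx
  σe1 := σe1
  Φsome := fun x y h => ⟨_, Point.map_some _ h⟩

include hq hA hq2 hqp hσ in
/-- Inertia at `q ∉ {2, p}` acts trivially on the `p`-torsion of the Frey curve. -/
theorem frey_inertia_fixed (S : (P.freyCurve⁄Qbar).Point) (hS : P.p • S = 0) :
    Point.map (W' := P.freyCurve) σ.toAlgHom S = S := by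
  set V := qvalA A hq hA with hV
  have E2 : V.EQ 0 (2 : Qbar) := qvalA_two hq hq2 A hA
  have E4 : V.EQ 0 (4 : Qbar) := four_EQ E2
  have Ep : V.EQ 0 (P.p : Qbar) := qvalA_p P hq hqp A hA
  have hp2 : P.p ≠ 2 := by have := P.hp5; omega
  have GA : V.GE 0 ((P.a : Qbar) ^ P.p / 4) := by
    simpa using ((QVal.GE.intCast (V := V) P.a).pow P.p).div E4
  have GB : V.GE 0 (-((P.b : Qbar) ^ P.p) / 4) := by
    simpa using (((QVal.GE.intCast (V := V) P.b).pow P.p).neg).div E4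
  have G0 : V.GE 0 (0 : Qbar) := QVal.GE.zero _
  have σA : σ ((P.a : Qbar) ^ P.p / 4) = (P.a : Qbar) ^ P.p / 4 := by
    rw [map_div₀, map_pow, map_intCast, map_ofNat]
  have σB : σ (-((P.b : Qbar) ^ P.p) / 4) = -((P.b : Qbar) ^ P.p) / 4 := by
    rw [map_div₀, map_neg, map_pow, map_intCast, map_ofNat]
  have σ0 : σ (0 : Qbar) = 0 := map_zero σ
  have σa1 : σ (P.freyCurve⁄Qbar).a₁ = (P.freyCurve⁄Qbar).a₁ := by rw [frey_a₁]; simp
  have σa3 : σ (P.freyCurve⁄Qbar).a₃ = (P.freyCurve⁄Qbar).a₃ := by rw [frey_a₃]; simp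
  have hsqrt : ∀ x : Qbar, ∃ y, y ^ 2 = x := fun x =>
    IsAlgClosed.exists_pow_nat_eq x (by norm_num)
  have tt := frey_twoTors P
  have hFLT := frey_FLT P
  have ha0 : (P.a : Qbar) ≠ 0 := by exact_mod_cast P.ha0
  have hb0 : (P.b : Qbar) ≠ 0 := by exact_mod_cast P.hb0
  have hc0 : (P.c : Qbar) ≠ 0 := by exact_mod_cast P.hc0
  have hΔ : (P.freyCurve⁄Qbar).Δ ≠ 0 := by
    rw [tt.Δ_eq]
    have h1 : (0 : Qbar) - (P.a : Qbar) ^ P.p / 4 ≠ 0 := by
      simpa using pow_ne_zero P.p ha0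
    have h2 : (0 : Qbar) - -((P.b : Qbar) ^ P.p) / 4 ≠ 0 := by
      simpa using pow_ne_zero P.p hb0
    have h3 : (P.a : Qbar) ^ P.p / 4 - -((P.b : Qbar) ^ P.p) / 4 ≠ 0 := by
      have : (P.a : Qbar) ^ P.p / 4 - -((P.b : Qbar) ^ P.p) / 4 = (P.c : Qbar) ^ P.p / 4 := by
        rw [← hFLT]; ring
      rw [this]
      simpa using pow_ne_zero P.p hc0
    exact mul_ne_zero (mul_ne_zero (mul_ne_zero (by norm_num) (pow_ne_zero 2 h1))
      (pow_ne_zero 2 h2)) (pow_ne_zero 2 h3)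
  have hppos : (0 : ℚ) < P.p := by exact_mod_cast P.hppos
  by_cases ha : (q : ℤ) ∣ P.a
  · -- `q ∣ a`
    have hb : ¬ (q : ℤ) ∣ P.b := not_dvd_of_gcd_eq_one hq P.hgcdab ha
    have hw : 0 < V.w (P.a : Qbar) := qvalA_pos_int A hq hA P.ha0 ha
    have C := frey_ctx P hq hq2 A hA hσ tt G0 GA GB σ0
    have h12 : V.EQ (P.p * V.w (P.a : Qbar)) (0 - (P.a : Qbar) ^ P.p / 4) := by
      have := (((QVal.EQ.mk' (V := V) ha0).pow P.p).div E4).neg
      simpa using this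
    have h13 : V.EQ 0 (0 - -((P.b : Qbar) ^ P.p) / 4) := by
      have := ((qvalA_pow_unit hq A hA hb P.p).div E4)
      have e : (0 : Qbar) - -((P.b : Qbar) ^ P.p) / 4 = (P.b : Qbar) ^ P.p / 4 := by ring
      rw [e]; simpa using this
    exact C.Φ_eq_of_mult (mul_pos hppos hw) h12 h13 σA σB σa1 σa3 hΔ hsqrt P.pp hp2 Ep ha0
      (by simp) rfl hS
  by_cases hb : (q : ℤ) ∣ P.b
  · -- `q ∣ b`
    have hw : 0 < V.w (P.b : Qbar) := qvalA_pos_int A hq hA P.hb0 hb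
    have C := frey_ctx P hq hq2 A hA hσ tt.perm132 G0 GB GA σ0
    have h12 : V.EQ (P.p * V.w (P.b : Qbar)) (0 - -((P.b : Qbar) ^ P.p) / 4) := by
      have := (((QVal.EQ.mk' (V := V) hb0).pow P.p).div E4)
      have e : (0 : Qbar) - -((P.b : Qbar) ^ P.p) / 4 = (P.b : Qbar) ^ P.p / 4 := by ring
      rw [e]; simpa using this
    have h13 : V.EQ 0 (0 - (P.a : Qbar) ^ P.p / 4) := by
      have := ((qvalA_pow_unit hq A hA ha P.p).div E4).neg
      simpa using this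
    exact C.Φ_eq_of_mult (mul_pos hppos hw) h12 h13 σB σA σa1 σa3 hΔ hsqrt P.pp hp2 Ep hb0
      (by simp) rfl hS
  by_cases hc : (q : ℤ) ∣ P.c
  · -- `q ∣ c`
    have hw : 0 < V.w (P.c : Qbar) := qvalA_pos_int A hq hA P.hc0 hc
    have C := frey_ctx P hq hq2 A hA hσ tt.perm231 GA GB G0 σA
    have h12 : V.EQ (P.p * V.w (P.c : Qbar))
        ((P.a : Qbar) ^ P.p / 4 - -((P.b : Qbar) ^ P.p) / 4) := by
      have := (((QVal.EQ.mk' (V := V) hc0).pow P.p).div E4)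
      have e : (P.a : Qbar) ^ P.p / 4 - -((P.b : Qbar) ^ P.p) / 4 = (P.c : Qbar) ^ P.p / 4 := by
        rw [← hFLT]; ring
      rw [e]; simpa using this
    have h13 : V.EQ 0 ((P.a : Qbar) ^ P.p / 4 - 0) := by
      have := ((qvalA_pow_unit hq A hA ha P.p).div E4)
      simpa using this
    exact C.Φ_eq_of_mult (mul_pos hppos hw) h12 h13 σB σ0 σa1 σa3 hΔ hsqrt P.pp hp2 Ep hc0
      (by simp) rfl hS
  · -- good reduction
    have C := frey_ctx P hq hq2 A hA hσ tt G0 GA GB σ0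
    have h12 : V.EQ 0 (0 - (P.a : Qbar) ^ P.p / 4) := by
      have := ((qvalA_pow_unit hq A hA ha P.p).div E4).neg
      simpa using this
    have h13 : V.EQ 0 (0 - -((P.b : Qbar) ^ P.p) / 4) := by
      have := ((qvalA_pow_unit hq A hA hb P.p).div E4)
      have e : (0 : Qbar) - -((P.b : Qbar) ^ P.p) / 4 = (P.b : Qbar) ^ P.p / 4 := by ring
      rw [e]; simpa using this
    have h23 : V.EQ 0 ((P.a : Qbar) ^ P.p / 4 - -((P.b : Qbar) ^ P.p) / 4) := by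
      have := ((qvalA_pow_unit hq A hA hc P.p).div E4)
      have e : (P.a : Qbar) ^ P.p / 4 - -((P.b : Qbar) ^ P.p) / 4 = (P.c : Qbar) ^ P.p / 4 := by
        rw [← hFLT]; ring
      rw [e]; simpa using this
    exact C.Φ_eq_of_good h12 h13 h23 Ep hS

end main

end Fermat.Agent.S05
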