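import Mathlib

/-!
# A small toolkit for additive bookkeeping of valuations
`Ge v x r` means `w(x) ≥ r`, `Eq' v x r` means `w(x) = r`, where `w = -log v` takes values in the
ordered additive group `Additive Γ₀ˣ`.
-/

set_option autoImplicit false
set_option linter.unusedSectionVars false

namespace Fermat.Agent.S05

variable {K : Type*} [Field K] {Γ₀ : Type*} [LinearOrderedCommGroupWithZero Γ₀]

/-- `ex r = e^{-r}`. -/
def ex (r : Additive Γ₀ˣ) : Γ₀ := ((Additive.toMul r)⁻¹ : Γ₀ˣ)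

@[simp] lemma ex_zero : ex (0 : Additive Γ₀ˣ) = 1 := by simp [ex]

lemma ex_add (r s : Additive Γ₀ˣ) : ex (r + s) = ex r * ex s := by
  simp [ex, mul_comm]

lemma ex_ne_zero (r : Additive Γ₀ˣ) : ex r ≠ 0 := Units.ne_zero _

lemma ex_pos (r : Additive Γ₀ˣ) : 0 < ex r := zero_lt_iff.mpr (ex_ne_zero r)

lemma ex_neg (r : Additive Γ₀ˣ) : ex (-r) = (ex r)⁻¹ := by
  simp [ex]

lemma ex_le_ex {r s : Additive Γ₀ˣ} : ex r ≤ ex s ↔ s ≤ r := by
  simp only [ex, Units.val_le_val, inv_le_inv_iff]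
  exact Iff.rfl

lemma ex_lt_ex {r s : Additive Γ₀ˣ} : ex r < ex s ↔ s < r := by
  simp only [ex, Units.val_lt_val, inv_lt_inv_iff]
  exact Iff.rfl

lemma ex_injective : Function.Injective (ex : Additive Γ₀ˣ → Γ₀) := by
  intro r s h
  exact le_antisymm (ex_le_ex.mp h.ge) (ex_le_ex.mp h.le)

lemma exists_ex_eq {g : Γ₀} (hg : g ≠ 0) : ∃ r : Additive Γ₀ˣ, ex r = g :=
  ⟨Additive.ofMul (Units.mk0 g hg)⁻¹, by simp [ex]⟩

lemma ex_nsmul (n : ℕ) (r : Additive Γ₀ˣ) : ex (n • r) = ex r ^ n := by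
  induction n with
  | zero => simp
  | succ n ih => rw [succ_nsmul, ex_add, ih, pow_succ]

lemma ex_zsmul (n : ℤ) (r : Additive Γ₀ˣ) : ex (n • r) = ex r ^ n := by
  cases n with
  | ofNat n => simpa using ex_nsmul n r
  | negSucc n =>
    rw [negSucc_zsmul, ex_neg, ex_nsmul, zpow_negSucc]

variable (v : Valuation K Γ₀)

/-- `w(x) ≥ r`. -/
def Ge (x : K) (r : Additive Γ₀ˣ) : Prop := v x ≤ ex r

/-- `w(x) = r`. -/
def Eq' (x : K) (r : Additive Γ₀ˣ) : Prop := v x = ex r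

/-- `w(x) > r`. -/
def Gt (x : K) (r : Additive Γ₀ˣ) : Prop := v x < ex r

variable {v} {x y : K} {r s : Additive Γ₀ˣ}

lemma Eq'.ge (h : Eq' v x r) : Ge v x r := le_of_eq h
lemma Gt.ge (h : Gt v x r) : Ge v x r := le_of_lt h
lemma Eq'.ne_zero (h : Eq' v x r) : x ≠ 0 := by
  rintro rfl
  exact ex_ne_zero r (by simpa [Eq'] using h.symm)
lemma Eq'.unique (h : Eq' v x r) (h' : Eq' v x s) : r = s := ex_injective (h.symm.trans h')
lemma Eq'.le_of_ge (h : Eq' v x r) (h' : Ge v x s) : s ≤ r := by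
  rw [Ge, h] at h'; exact ex_le_ex.mp h'
lemma Eq'.lt_of_gt (h : Eq' v x r) (h' : Gt v x s) : s < r := by
  rw [Gt, h] at h'; exact ex_lt_ex.mp h'
lemma exists_eq' (hx : x ≠ 0) : ∃ r, Eq' v x r :=
  (exists_ex_eq ((v.ne_zero_iff).mpr hx)).imp fun _ h => h.symm
lemma Ge.mono (h : Ge v x r) (hs : s ≤ r) : Ge v x s := le_trans h (ex_le_ex.mpr hs)
lemma Gt.mono (h : Gt v x r) (hs : s ≤ r) : Gt v x s := lt_of_lt_of_le h (ex_le_ex.mpr hs)
lemma Ge.gt_of_lt (h : Ge v x r) (hs : s < r) : Gt v x s := lt_of_le_of_lt h (ex_lt_ex.mpr hs)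
lemma Eq'.congr (h : Eq' v x r) (hs : r = s) : Eq' v x s := hs ▸ h
lemma ge_zero' (r : Additive Γ₀ˣ) : Ge v (0 : K) r := by simp [Ge]
lemma gt_zero' (r : Additive Γ₀ˣ) : Gt v (0 : K) r := by simpa [Gt] using ex_pos r
lemma eq'_one : Eq' v (1 : K) 0 := by simp [Eq']

lemma Ge.add (h : Ge v x r) (h' : Ge v y r) : Ge v (x + y) r :=
  le_trans (v.map_add x y) (max_le h h')
lemma Ge.neg (h : Ge v x r) : Ge v (-x) r := by simpa [Ge] using h
lemma Ge.sub (h : Ge v x r) (h' : Ge v y r) : Ge v (x - y) r := by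
  rw [sub_eq_add_neg]; exact h.add h'.neg
lemma Gt.add (h : Gt v x r) (h' : Gt v y r) : Gt v (x + y) r :=
  lt_of_le_of_lt (v.map_add x y) (max_lt h h')
lemma Gt.neg (h : Gt v x r) : Gt v (-x) r := by simpa [Gt] using h
lemma Gt.sub (h : Gt v x r) (h' : Gt v y r) : Gt v (x - y) r := by
  rw [sub_eq_add_neg]; exact h.add h'.neg
lemma Eq'.neg (h : Eq' v x r) : Eq' v (-x) r := by simpa [Eq'] using h
lemma Ge.mul (h : Ge v x r) (h' : Ge v y s) : Ge v (x * y) (r + s) := by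
  rw [Ge, map_mul, ex_add]; exact mul_le_mul' h h'
lemma Eq'.mul (h : Eq' v x r) (h' : Eq' v y s) : Eq' v (x * y) (r + s) := by
  rw [Eq', map_mul, ex_add, h, h']
lemma Gt.mul_ge (h : Gt v x r) (h' : Ge v y s) : Gt v (x * y) (r + s) := by
  rw [Gt, map_mul, ex_add]
  calc v x * v y ≤ v x * ex s := mul_le_mul_right h' _
    _ < ex r * ex s := mul_lt_mul_of_pos_right h (ex_pos s)
lemma Ge.mul_gt (h : Ge v x r) (h' : Gt v y s) : Gt v (x * y) (r + s) := by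
  rw [mul_comm, add_comm]; exact h'.mul_ge h
lemma Eq'.inv (h : Eq' v x r) : Eq' v x⁻¹ (-r) := by
  rw [Eq', map_inv₀, ex_neg, h]
lemma Eq'.div (h : Eq' v x r) (h' : Eq' v y s) : Eq' v (x / y) (r - s) := by
  rw [div_eq_mul_inv, sub_eq_add_neg]; exact h.mul h'.inv
lemma Ge.div (h : Ge v x r) (h' : Eq' v y s) : Ge v (x / y) (r - s) := by
  rw [div_eq_mul_inv, sub_eq_add_neg]; exact h.mul h'.inv.ge
lemma Gt.div (h : Gt v x r) (h' : Eq' v y s) : Gt v (x / y) (r - s) := by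
  rw [div_eq_mul_inv, sub_eq_add_neg]; exact h.mul_ge h'.inv.ge
lemma Eq'.sq (h : Eq' v x r) : Eq' v (x ^ 2) (r + r) := by rw [pow_two]; exact h.mul h
lemma Ge.sq (h : Ge v x r) : Ge v (x ^ 2) (r + r) := by rw [pow_two]; exact h.mul h
lemma Eq'.pow (h : Eq' v x r) (n : ℕ) : Eq' v (x ^ n) (n • r) := by
  rw [Eq', map_pow, ex_nsmul, h]
lemma Ge.pow (h : Ge v x r) (n : ℕ) : Ge v (x ^ n) (n • r) := by
  rw [Ge, map_pow, ex_nsmul]; exact pow_le_pow_left' h n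

/-- the dominant term wins. -/
lemma Eq'.add_gt (h : Eq' v x r) (h' : Gt v y r) : Eq' v (x + y) r := by
  rw [Eq', ← h]
  exact v.map_add_eq_of_lt_left (by rw [h]; exact h')
lemma Eq'.add_ge (h : Eq' v x r) (h' : Ge v y s) (hrs : r < s) : Eq' v (x + y) r :=
  h.add_gt (h'.gt_of_lt hrs)
lemma Eq'.sub_gt (h : Eq' v x r) (h' : Gt v y r) : Eq' v (x - y) r := by
  rw [sub_eq_add_neg]; exact h.add_gt h'.neg
lemma Eq'.sub_ge (h : Eq' v x r) (h' : Ge v y s) (hrs : r < s) : Eq' v (x - y) r :=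
  h.sub_gt (h'.gt_of_lt hrs)
lemma Eq'.gt_add (h : Eq' v y r) (h' : Gt v x r) : Eq' v (x + y) r := by
  rw [add_comm]; exact h.add_gt h'
lemma Eq'.ge_add (h : Eq' v y r) (h' : Ge v x s) (hrs : r < s) : Eq' v (x + y) r :=
  h.gt_add (h'.gt_of_lt hrs)
lemma Eq'.gt_sub (h : Eq' v y r) (h' : Gt v x r) : Eq' v (x - y) r := by
  rw [sub_eq_add_neg]; exact h.neg.gt_add h'
lemma Eq'.ge_sub (h : Eq' v y r) (h' : Ge v x s) (hrs : r < s) : Eq' v (x - y) r :=
  h.gt_sub (h'.gt_of_lt hrs)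

/-- cancel an exact factor. -/
lemma Ge.of_mul_left (h : Ge v (x * y) r) (hx : Eq' v x s) : Ge v y (r - s) := by
  have : y = (x * y) / x := by field_simp [hx.ne_zero]
  rw [this]; exact h.div hx
lemma Eq'.of_mul_left (h : Eq' v (x * y) r) (hx : Eq' v x s) : Eq' v y (r - s) := by
  have : y = (x * y) / x := by field_simp [hx.ne_zero]
  rw [this]; exact h.div hx
lemma Ge.of_mul_right (h : Ge v (x * y) r) (hy : Eq' v y s) : Ge v x (r - s) := by
  rw [mul_comm] at h; exact h.of_mul_left hy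
lemma Eq'.of_mul_right (h : Eq' v (x * y) r) (hy : Eq' v y s) : Eq' v x (r - s) := by
  rw [mul_comm] at h; exact h.of_mul_left hy

lemma ge_or_gt (x y : K) : v x ≤ v y ∨ v y < v x := le_or_gt _ _

end Fermat.Agent.S05
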