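import Mathlib
import Fermat.Agent.S05.Val

/-!
# Clipped Newton data and the component distance at a node
-/

set_option autoImplicit false
set_option linter.unusedSectionVars false

namespace Fermat.Agent.S05

variable {K : Type*} [Field K] {Γ₀ : Type*} [LinearOrderedCommGroupWithZero Γ₀]
variable (v : Valuation K Γ₀) (δ : Additive Γ₀ˣ)

/-- `(X : Z)` is a normalised representative of a projective point with clipped valuation `c`. -/
structure Nrm (X Z : K) (c : Additive Γ₀ˣ) : Prop where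
  c0 : 0 ≤ c
  cδ : c ≤ δ
  geX : Ge v X c
  geZ : Ge v Z 0
  eqX : c < δ → Eq' v X c
  eqZ : 0 < c → Eq' v Z 0

/-- Clipped Newton data of the binary quadratic form `U Y² - T Y W + S W²`. -/
structure NData (U T S : K) (γ m₁ m₂ : Additive Γ₀ˣ) : Prop where
  h0 : 0 ≤ m₁
  h12 : m₁ ≤ m₂
  hδ : m₂ ≤ δ
  geU : Ge v U γ
  geT : Ge v T (γ + m₁)
  geS : Ge v S (γ + m₁ + m₂)
  eqU : 0 < m₁ → Eq' v U γ
  eqT : m₁ < m₂ → Eq' v T (γ + m₁)
  eqS : m₂ < δ → Eq' v S (γ + m₁ + m₂)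

variable {v δ}

lemma Ge.cast {x : K} {r s : Additive Γ₀ˣ} (h : Ge v x r) (hs : s = r) : Ge v x s := hs ▸ h
lemma Eq'.cast {x : K} {r s : Additive Γ₀ˣ} (h : Eq' v x r) (hs : s = r) : Eq' v x s := hs ▸ h

lemma NData.unique {U T S : K} {γ μ κ₁ κ₂ m₁ m₂ : Additive Γ₀ˣ} (hδ : 0 < δ)
    (d1 : NData v δ U T S γ κ₁ κ₂) (d2 : NData v δ U T S μ m₁ m₂) : κ₁ = m₁ ∧ κ₂ = m₂ := by
  have a0 := d1.h0
  have a1 := d1.h12
  have a2 := d1.hδ
  have b0 := d2.h0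
  have b1 := d2.h12
  have b2 := d2.hδ
  have hU1 : 0 < κ₁ → μ ≤ γ := fun h => (d1.eqU h).le_of_ge d2.geU
  have hU2 : 0 < m₁ → γ ≤ μ := fun h => (d2.eqU h).le_of_ge d1.geU
  have hT1 : κ₁ < κ₂ → μ + m₁ ≤ γ + κ₁ := fun h => (d1.eqT h).le_of_ge d2.geT
  have hT2 : m₁ < m₂ → γ + κ₁ ≤ μ + m₁ := fun h => (d2.eqT h).le_of_ge d1.geT
  have hS1 : κ₂ < δ → μ + m₁ + m₂ ≤ γ + κ₁ + κ₂ := fun h => (d1.eqS h).le_of_ge d2.geS
  have hS2 : m₂ < δ → γ + κ₁ + κ₂ ≤ μ + m₁ + m₂ := fun h => (d2.eqS h).le_of_ge d1.geS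
  clear d1 d2
  grind

lemma NData.scale {U T S a : K} {γ m₁ m₂ r : Additive Γ₀ˣ} (ha : Eq' v a r)
    (d : NData v δ (a * U) (a * T) (a * S) γ m₁ m₂) : NData v δ U T S (γ - r) m₁ m₂ where
  h0 := d.h0
  h12 := d.h12
  hδ := d.hδ
  geU := d.geU.of_mul_left ha
  geT := (d.geT.of_mul_left ha).cast (by abel)
  geS := (d.geS.of_mul_left ha).cast (by abel)
  eqU h := (d.eqU h).of_mul_left ha
  eqT h := ((d.eqT h).of_mul_left ha).cast (by abel)
  eqS h := ((d.eqS h).of_mul_left ha).cast (by abel)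

lemma NData.of_roots {X₁ Z₁ X₂ Z₂ : K} {a b : Additive Γ₀ˣ} (h₁ : Nrm v δ X₁ Z₁ a)
    (h₂ : Nrm v δ X₂ Z₂ b) (hab : a ≤ b) :
    NData v δ (Z₁ * Z₂) (X₁ * Z₂ + Z₁ * X₂) (X₁ * X₂) 0 a b where
  h0 := h₁.c0
  h12 := hab
  hδ := h₂.cδ
  geU := (h₁.geZ.mul h₂.geZ).cast (by abel)
  geT := ((h₁.geX.mul h₂.geZ).cast (by abel)).add
    ((h₁.geZ.mul h₂.geX).mono (by simpa using hab))
  geS := (h₁.geX.mul h₂.geX).cast (by abel)
  eqU h := ((h₁.eqZ h).mul (h₂.eqZ (h.trans_le hab))).cast (by abel)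
  eqT h := (((h₁.eqX (h.trans_le h₂.cδ)).mul (h₂.eqZ (h₁.c0.trans_lt h))).cast
    (by abel : (0 : Additive Γ₀ˣ) + a = a + 0)).add_ge (h₁.geZ.mul h₂.geX) (by simpa using h)
  eqS h := ((h₁.eqX (hab.trans_lt h)).mul (h₂.eqX h)).cast (by abel)

/-- Newton data of the three biquadratic forms at a node. -/
lemma NData.of_forms {XP ZP XQ ZQ α β : K} {c d : Additive Γ₀ˣ} (h2 : Eq' v (2 : K) 0)
    (hα : Eq' v α 0) (hβ : Eq' v β δ) (hP : Nrm v δ XP ZP c) (hQ : Nrm v δ XQ ZQ d)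
    (hcd : c ≤ d) :
    NData v δ ((XP * ZQ + ZP * XQ) ^ 2 - 4 * (XP * XQ) * (ZP * ZQ))
      (2 * ((XP * ZQ + ZP * XQ) * (XP * XQ + β * (ZP * ZQ)) + 2 * α * (XP * XQ) * (ZP * ZQ)))
      ((XP * XQ - β * (ZP * ZQ)) ^ 2) (c + c) (d - c)
      (min (c + d) δ + min (c + d) δ - (c + d)) := by
  have c0 := hP.c0
  have cδ := hP.cδ
  have d0 := hQ.c0
  have dδ := hQ.cδ
  have gA : Ge v (XP * ZQ) c := (hP.geX.mul hQ.geZ).cast (by abel)
  have gB : Ge v (ZP * XQ) d := (hP.geZ.mul hQ.geX).cast (by abel)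
  have gs : Ge v (XP * XQ) (c + d) := hP.geX.mul hQ.geX
  have gu : Ge v (ZP * ZQ) 0 := (hP.geZ.mul hQ.geZ).cast (by abel)
  have gbu : Ge v (β * (ZP * ZQ)) δ := (hβ.ge.mul gu).cast (by abel)
  have hU : (XP * ZQ + ZP * XQ) ^ 2 - 4 * (XP * XQ) * (ZP * ZQ) = (XP * ZQ - ZP * XQ) ^ 2 := by
    ring
  have gt : Ge v (XP * ZQ + ZP * XQ) c := gA.add (gB.mono hcd)
  have gsb : Ge v (XP * XQ + β * (ZP * ZQ)) (min (c + d) δ) :=
    (gs.mono (min_le_left _ _)).add (gbu.mono (min_le_right _ _))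
  have gsb' : Ge v (XP * XQ - β * (ZP * ZQ)) (min (c + d) δ) :=
    (gs.mono (min_le_left _ _)).sub (gbu.mono (min_le_right _ _))
  have g1 : Ge v ((XP * ZQ + ZP * XQ) * (XP * XQ + β * (ZP * ZQ))) (c + min (c + d) δ) :=
    gt.mul gsb
  have g2 : Ge v (2 * α * (XP * XQ) * (ZP * ZQ)) (c + d) :=
    (((h2.mul hα).ge.mul gs).mul gu).cast (by abel)
  refine ⟨by grind, by grind, by grind, ?_, ?_, ?_, ?_, ?_, ?_⟩
  · rw [hU]; exact (gA.sub (gB.mono hcd)).sq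
  · exact (h2.ge.mul ((g1.mono (by grind)).add g2)).cast (by abel)
  · exact gsb'.sq.cast (by abel)
  · intro h
    have hc : c < d := by grind
    have eA : Eq' v (XP * ZQ) c :=
      ((hP.eqX (hc.trans_le dδ)).mul (hQ.eqZ (c0.trans_lt hc))).cast (by abel)
    rw [hU]; exact (eA.sub_ge gB hc).sq
  · intro h
    have hc : 0 < c := by grind
    have hd : d < δ := by grind
    have e2 : Eq' v (2 * α * (XP * XQ) * (ZP * ZQ)) (c + d) :=
      (((h2.mul hα).mul ((hP.eqX (hcd.trans_lt hd)).mul (hQ.eqX hd))).mul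
        ((hP.eqZ hc).mul (hQ.eqZ (hc.trans_le hcd)))).cast (by abel)
    exact (h2.mul (e2.ge_add g1 (by grind))).cast (by abel)
  · intro h
    rcases lt_trichotomy (c + d) δ with h1 | h1 | h1
    · have es : Eq' v (XP * XQ) (c + d) := (hP.eqX (by grind)).mul (hQ.eqX (by grind))
      exact (es.sub_ge gbu h1).sq.cast (by grind)
    · grind
    · have eu : Eq' v (β * (ZP * ZQ)) δ :=
        (hβ.mul ((hP.eqZ (by grind)).mul (hQ.eqZ (by grind)))).cast (by abel)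
      exact (eu.ge_sub gs h1).sq.cast (by grind)

variable (v δ) in
/-- `κ` is the clipped valuation of the projective point `(X : Z)`. -/
def Clip (X Z : K) (κ : Additive Γ₀ˣ) : Prop := ∃ l : K, l ≠ 0 ∧ Nrm v δ (l * X) (l * Z) κ

lemma Clip.c0 {X Z : K} {κ : Additive Γ₀ˣ} (h : Clip v δ X Z κ) : 0 ≤ κ := h.choose_spec.2.c0
lemma Clip.cδ {X Z : K} {κ : Additive Γ₀ˣ} (h : Clip v δ X Z κ) : κ ≤ δ := h.choose_spec.2.cδ

lemma exists_clip (hδ : 0 ≤ δ) {X Z : K} (h : X ≠ 0 ∨ Z ≠ 0) : ∃ κ, Clip v δ X Z κ := by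
  rcases le_or_gt (v Z) (v X) with h1 | h1
  · have hX : X ≠ 0 := by
      rintro rfl
      rw [map_zero, le_zero_iff, map_eq_zero] at h1
      simp [h1] at h
    refine ⟨0, X⁻¹, inv_ne_zero hX, le_refl _, hδ, ?_, ?_, fun _ => ?_, fun h => absurd h (lt_irrefl _)⟩
    · rw [inv_mul_cancel₀ hX]; exact eq'_one.ge
    · rw [Ge, map_mul, map_inv₀, ex_zero]
      exact (inv_mul_le_one₀ (zero_lt_iff.mpr ((map_ne_zero v).mpr hX))).mpr h1
    · rw [inv_mul_cancel₀ hX]; exact eq'_one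
  · have hZ : Z ≠ 0 := by
      rintro rfl
      simp at h1
    have hlt : v (Z⁻¹ * X) < 1 := by
      rw [map_mul, map_inv₀]
      exact (inv_mul_lt_one₀ (zero_lt_iff.mpr ((map_ne_zero v).mpr hZ))).mpr h1
    rcases le_or_gt (v (Z⁻¹ * X)) (ex δ) with h2 | h2
    · refine ⟨δ, Z⁻¹, inv_ne_zero hZ, hδ, le_refl _, h2, ?_, fun h => absurd h (lt_irrefl _),
        fun _ => ?_⟩
      · rw [inv_mul_cancel₀ hZ]; exact eq'_one.ge
      · rw [inv_mul_cancel₀ hZ]; exact eq'_one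
    · have hne : Z⁻¹ * X ≠ 0 := by
        intro h0
        rw [h0, map_zero] at h2
        exact not_lt_zero h2
      obtain ⟨r, hr⟩ := exists_eq' (v := v) hne
      have hr0 : 0 < r := by
        rw [hr, ← ex_zero, ex_lt_ex] at hlt; exact hlt
      have hrδ : r < δ := by
        rw [hr, ex_lt_ex] at h2; exact h2
      refine ⟨r, Z⁻¹, inv_ne_zero hZ, hr0.le, hrδ.le, hr.ge, ?_, fun _ => hr, fun _ => ?_⟩
      · rw [inv_mul_cancel₀ hZ]; exact eq'_one.ge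
      · rw [inv_mul_cancel₀ hZ]; exact eq'_one

lemma Clip.unique {X Z : K} {κ κ' : Additive Γ₀ˣ} (h : Clip v δ X Z κ) (h' : Clip v δ X Z κ') :
    κ = κ' := by
  obtain ⟨l, hl, n⟩ := h
  obtain ⟨l', hl', n'⟩ := h'
  obtain ⟨r, hr⟩ := exists_eq' (v := v) (div_ne_zero hl' hl)
  have e1 : l' * X = (l' / l) * (l * X) := by field_simp
  have e2 : l' * Z = (l' / l) * (l * Z) := by field_simp
  rw [e1, e2] at n'
  have a0 := n.c0
  have a1 := n.cδ
  have b0 := n'.c0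
  have b1 := n'.cδ
  have i1 : κ < δ → κ' - r ≤ κ := fun h => (n.eqX h).le_of_ge (n'.geX.of_mul_left hr)
  have i2 : 0 < κ → 0 - r ≤ 0 := fun h => (n.eqZ h).le_of_ge (n'.geZ.of_mul_left hr)
  have i3 : κ' < δ → κ ≤ κ' - r := fun h => ((n'.eqX h).of_mul_left hr).le_of_ge n.geX
  have i4 : 0 < κ' → 0 ≤ 0 - r := fun h => ((n'.eqZ h).of_mul_left hr).le_of_ge n.geZ
  clear n n'
  grind

lemma clip_one_zero (hδ : 0 ≤ δ) : Clip v δ (1 : K) 0 0 :=
  ⟨1, one_ne_zero, le_refl _, hδ, by simpa using eq'_one.ge, by simpa using ge_zero' 0,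
    fun _ => by simpa using eq'_one, fun h => absurd h (lt_irrefl _)⟩

/-- core of the Newton polygon argument (ordered version). -/
lemma clip_pair_aux {XP ZP XQ ZQ X₁ Z₁ X₂ Z₂ α β k : K} {a b c d : Additive Γ₀ˣ} (hδ : 0 < δ)
    (h2 : Eq' v (2 : K) 0) (hα : Eq' v α 0) (hβ : Eq' v β δ) (hk : k ≠ 0)
    (hS : X₁ * X₂ = k * (XP * XQ - β * (ZP * ZQ)) ^ 2)
    (hT : X₁ * Z₂ + Z₁ * X₂ = k * (2 * ((XP * ZQ + ZP * XQ) * (XP * XQ + β * (ZP * ZQ))
      + 2 * α * (XP * XQ) * (ZP * ZQ))))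
    (hU : Z₁ * Z₂ = k * ((XP * ZQ + ZP * XQ) ^ 2 - 4 * (XP * XQ) * (ZP * ZQ)))
    (cP : Clip v δ XP ZP c) (cQ : Clip v δ XQ ZQ d) (c1 : Clip v δ X₁ Z₁ a)
    (c2 : Clip v δ X₂ Z₂ b) (hcd : c ≤ d) (hab : a ≤ b) :
    a = d - c ∧ b = min (c + d) δ + min (c + d) δ - (c + d) := by
  obtain ⟨lP, hlP, nP⟩ := cP
  obtain ⟨lQ, hlQ, nQ⟩ := cQ
  obtain ⟨l1, hl1, n1⟩ := c1
  obtain ⟨l2, hl2, n2⟩ := c2
  have dr := NData.of_roots n1 n2 hab
  have df := NData.of_forms h2 hα hβ nP nQ hcd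
  have hA : l1 * l2 * k / (lP ^ 2 * lQ ^ 2) ≠ 0 := by positivity
  obtain ⟨r, hr⟩ := exists_eq' (v := v) hA
  have eU : l1 * Z₁ * (l2 * Z₂) = (l1 * l2 * k / (lP ^ 2 * lQ ^ 2)) *
      ((lP * XP * (lQ * ZQ) + lP * ZP * (lQ * XQ)) ^ 2
        - 4 * (lP * XP * (lQ * XQ)) * (lP * ZP * (lQ * ZQ))) := by
    rw [show l1 * Z₁ * (l2 * Z₂) = l1 * l2 * (Z₁ * Z₂) by ring, hU]
    field_simp
  have eT : l1 * X₁ * (l2 * Z₂) + l1 * Z₁ * (l2 * X₂) = (l1 * l2 * k / (lP ^ 2 * lQ ^ 2)) *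
      (2 * ((lP * XP * (lQ * ZQ) + lP * ZP * (lQ * XQ)) * (lP * XP * (lQ * XQ)
        + β * (lP * ZP * (lQ * ZQ))) + 2 * α * (lP * XP * (lQ * XQ)) * (lP * ZP * (lQ * ZQ)))) := by
    rw [show l1 * X₁ * (l2 * Z₂) + l1 * Z₁ * (l2 * X₂) = l1 * l2 * (X₁ * Z₂ + Z₁ * X₂) by ring, hT]
    field_simp
  have eS : l1 * X₁ * (l2 * X₂) = (l1 * l2 * k / (lP ^ 2 * lQ ^ 2)) *
      (lP * XP * (lQ * XQ) - β * (lP * ZP * (lQ * ZQ))) ^ 2 := by
    rw [show l1 * X₁ * (l2 * X₂) = l1 * l2 * (X₁ * X₂) by ring, hS]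
    field_simp
  rw [eU, eT, eS] at dr
  exact (dr.scale hr).unique hδ df

/-- The Newton polygon argument: the clipped valuations of `P ± Q` are `|c - d|` and the fold of
`c + d`. -/
lemma clip_pair {XP ZP XQ ZQ X₁ Z₁ X₂ Z₂ α β k : K} {a b c d : Additive Γ₀ˣ} (hδ : 0 < δ)
    (h2 : Eq' v (2 : K) 0) (hα : Eq' v α 0) (hβ : Eq' v β δ) (hk : k ≠ 0)
    (hS : X₁ * X₂ = k * (XP * XQ - β * (ZP * ZQ)) ^ 2)
    (hT : X₁ * Z₂ + Z₁ * X₂ = k * (2 * ((XP * ZQ + ZP * XQ) * (XP * XQ + β * (ZP * ZQ))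
      + 2 * α * (XP * XQ) * (ZP * ZQ))))
    (hU : Z₁ * Z₂ = k * ((XP * ZQ + ZP * XQ) ^ 2 - 4 * (XP * XQ) * (ZP * ZQ)))
    (cP : Clip v δ XP ZP c) (cQ : Clip v δ XQ ZQ d) (c1 : Clip v δ X₁ Z₁ a)
    (c2 : Clip v δ X₂ Z₂ b) :
    (a = max c d - min c d ∧ b = min (c + d) δ + min (c + d) δ - (c + d)) ∨
    (b = max c d - min c d ∧ a = min (c + d) δ + min (c + d) δ - (c + d)) := by
  have key : ∀ {XP ZP XQ ZQ : K} {c d : Additive Γ₀ˣ},
      X₁ * X₂ = k * (XP * XQ - β * (ZP * ZQ)) ^ 2 →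
      X₁ * Z₂ + Z₁ * X₂ = k * (2 * ((XP * ZQ + ZP * XQ) * (XP * XQ + β * (ZP * ZQ))
        + 2 * α * (XP * XQ) * (ZP * ZQ))) →
      Z₁ * Z₂ = k * ((XP * ZQ + ZP * XQ) ^ 2 - 4 * (XP * XQ) * (ZP * ZQ)) →
      Clip v δ XP ZP c → Clip v δ XQ ZQ d → c ≤ d →
      (a = d - c ∧ b = min (c + d) δ + min (c + d) δ - (c + d)) ∨
      (b = d - c ∧ a = min (c + d) δ + min (c + d) δ - (c + d)) := by
    intro XP ZP XQ ZQ c d hS hT hU cP cQ hcd
    rcases le_total a b with hab | hab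
    · exact Or.inl (clip_pair_aux hδ h2 hα hβ hk hS hT hU cP cQ c1 c2 hcd hab)
    · refine Or.inr (clip_pair_aux hδ h2 hα hβ hk ?_ ?_ ?_ cP cQ c2 c1 hcd hab)
      · rw [mul_comm, hS]
      · rw [← hT]; ring
      · rw [mul_comm, hU]
  rcases le_total c d with hcd | hcd
  · rw [max_eq_right hcd, min_eq_left hcd]
    exact key hS hT hU cP cQ hcd
  · rw [max_eq_left hcd, min_eq_right hcd, add_comm c d]
    refine key ?_ ?_ ?_ cQ cP hcd
    · rw [hS]; ring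
    · rw [hT]; ring
    · rw [hU]; ring

/-! ### Arithmetic of folding -/

section Fold

variable {G : Type*} [AddCommGroup G] [LinearOrder G] [IsOrderedAddMonoid G]

lemma zsmul_cases {D : G} (hD : 0 < D) (M : ℤ) :
    M • D ≤ -D ∨ M • D = 0 ∨ M • D = D ∨ D + D ≤ M • D := by
  rcases lt_or_ge M 0 with h | h
  · left
    have := zsmul_le_zsmul_left hD.le (show M ≤ -1 by omega)
    simpa using this
  · rcases eq_or_lt_of_le h with h | h
    · right; left; rw [← h]; simp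
    · rcases eq_or_lt_of_le (show 1 ≤ M by omega) with h | h
      · right; right; left; rw [← h]; simp
      · right; right; right
        have := zsmul_le_zsmul_left hD.le (show 2 ≤ M by omega)
        simpa [two_zsmul] using this

/-- `z ≡ k d` modulo `2 δ`. -/
def Pos (δ d : G) (k : ℤ) (z : G) : Prop := ∃ n : ℤ, z = k • d - n • (δ + δ)

/-- `z ≡ ± k d` modulo `2 δ`. -/
def Rel (δ d : G) (k : ℤ) (z : G) : Prop := Pos δ d k z ∨ Pos δ d k (-z)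

lemma Pos.add {δ d z : G} {k : ℤ} (h : Pos δ d k z) : Pos δ d (k + 1) (z + d) := by
  obtain ⟨n, rfl⟩ := h
  exact ⟨n, by rw [add_zsmul, one_zsmul]; abel⟩

lemma Pos.sub {δ d z : G} {k : ℤ} (h : Pos δ d k z) : Pos δ d (k - 1) (z - d) := by
  obtain ⟨n, rfl⟩ := h
  exact ⟨n, by rw [sub_zsmul, one_zsmul]; abel⟩

lemma Pos.shift {δ d z : G} {k : ℤ} (h : Pos δ d k z) : Pos δ d k (z + (δ + δ)) := by
  obtain ⟨n, rfl⟩ := h
  exact ⟨n - 1, by rw [sub_zsmul, one_zsmul]; abel⟩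

lemma Pos.shift' {δ d z : G} {k : ℤ} (h : Pos δ d k z) : Pos δ d k (z - (δ + δ)) := by
  obtain ⟨n, rfl⟩ := h
  exact ⟨n + 1, by rw [add_zsmul, one_zsmul]; abel⟩

lemma Pos.diff {δ d z z' : G} {k : ℤ} (h : Pos δ d k z) (h' : Pos δ d k z') :
    ∃ M : ℤ, z - z' = M • (δ + δ) := by
  obtain ⟨n, rfl⟩ := h
  obtain ⟨n', rfl⟩ := h'
  exact ⟨n' - n, by rw [sub_zsmul]; abel⟩

lemma Rel.unique {δ d z z' : G} {k : ℤ} (hδ : 0 < δ) (h : Rel δ d k z) (h' : Rel δ d k z')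
    (h0 : 0 ≤ z) (h1 : z ≤ δ) (h0' : 0 ≤ z') (h1' : z' ≤ δ) : z = z' := by
  have hD : 0 < δ + δ := add_pos hδ hδ
  rcases h with h | h <;> rcases h' with h' | h' <;> obtain ⟨M, hM⟩ := h.diff h' <;>
    have := zsmul_cases hD M <;> rw [← hM] at this <;> clear hM h h' <;> grind

lemma Rel.step {δ d c a b : G} {k : ℤ} (hδ : 0 < δ) (hc0 : 0 ≤ c) (hc1 : c ≤ δ) (hd0 : 0 ≤ d)
    (hd1 : d ≤ δ) (hb0 : 0 ≤ b) (hb1 : b ≤ δ) (hc : Rel δ d k c) (hb : Rel δ d (k - 1) b)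
    (hab : (a = max c d - min c d ∧ b = min (c + d) δ + min (c + d) δ - (c + d)) ∨
      (b = max c d - min c d ∧ a = min (c + d) δ + min (c + d) δ - (c + d))) :
    Rel δ d (k + 1) a := by
  have key : (Rel δ d (k - 1) (max c d - min c d) ∧
        Rel δ d (k + 1) (min (c + d) δ + min (c + d) δ - (c + d))) ∨
      (Rel δ d (k + 1) (max c d - min c d) ∧
        Rel δ d (k - 1) (min (c + d) δ + min (c + d) δ - (c + d))) := by
    rcases hc with hc | hc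
    · left
      constructor
      · rcases le_total c d with h | h
        · right
          rw [max_eq_right h, min_eq_left h, neg_sub]; exact hc.sub
        · left
          rw [max_eq_left h, min_eq_right h]; exact hc.sub
      · rcases le_total (c + d) δ with h | h
        · left
          rw [min_eq_left h, add_sub_cancel_right]; exact hc.add
        · right
          rw [min_eq_right h, neg_sub]; exact hc.add.shift'
    · right
      constructor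
      · rcases le_total c d with h | h
        · left
          rw [max_eq_right h, min_eq_left h]
          have := hc.add
          rwa [neg_add_eq_sub] at this
        · right
          rw [max_eq_left h, min_eq_right h, neg_sub]
          have := hc.add
          rwa [neg_add_eq_sub] at this
      · rcases le_total (c + d) δ with h | h
        · right
          rw [min_eq_left h, add_sub_cancel_right]
          have := hc.sub
          rwa [← neg_add'] at this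
        · left
          rw [min_eq_right h]
          have := hc.sub.shift
          rwa [← neg_add', neg_add_eq_sub] at this
  have m1 : 0 ≤ max c d - min c d ∧ max c d - min c d ≤ δ := by grind
  have m2 : 0 ≤ min (c + d) δ + min (c + d) δ - (c + d) ∧
      min (c + d) δ + min (c + d) δ - (c + d) ≤ δ := by grind
  rcases key with ⟨k1, k2⟩ | ⟨k1, k2⟩ <;> rcases hab with ⟨e1, e2⟩ | ⟨e1, e2⟩
  · have := hb.unique hδ k1 hb0 hb1 m1.1 m1.2
    rw [e1, ← this, e2]; exact k2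
  · rw [e2]; exact k2
  · rw [e1]; exact k1
  · have := hb.unique hδ k2 hb0 hb1 m2.1 m2.2
    rw [e2, ← this, e1]; exact k1

end Fold

end Fermat.Agent.S05
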