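import Fermat.Agent.S05.QVal

/-!
# Valuation analysis of the addition-subtraction formulas near a node
-/

set_option autoImplicit false
set_option linter.unusedSectionVars false

universe u

namespace Fermat.Agent.S05

variable {K : Type u} [Field K]

/-- clamp to the interval `[0, h]` -/
def cl (h x : ℚ) : ℚ := max 0 (min x h)

lemma cl_of_le_zero {h x : ℚ} (hx : x ≤ 0) : cl h x = 0 := by
  unfold cl
  exact max_eq_left (le_trans (min_le_left _ _) hx)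

lemma cl_of_ge {h x : ℚ} (hh : 0 ≤ h) (hx : h ≤ x) : cl h x = h := by
  unfold cl
  rw [min_eq_right hx, max_eq_right hh]

lemma cl_of_mem {h x : ℚ} (h0 : 0 ≤ x) (hx : x ≤ h) : cl h x = x := by
  unfold cl
  rw [min_eq_left hx, max_eq_right h0]

lemma cl_nonneg (h x : ℚ) : 0 ≤ cl h x := le_max_left _ _

lemma cl_le {h : ℚ} (hh : 0 ≤ h) (x : ℚ) : cl h x ≤ h := max_le hh (min_le_right _ _)

variable {V : QVal K} {α β ξ1 ξ2 ξp ξm : K} {h : ℚ}

lemma four_EQ (h2 : V.EQ 0 (2 : K)) : V.EQ 0 (4 : K) := by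
  have : (4 : K) = 2 * 2 := by norm_num
  rw [this]; simpa using h2.mul h2

section
variable (hh : 0 < h) (hα : V.EQ h α) (hβ : V.EQ 0 β) (h2 : V.EQ 0 (2 : K))
  (hprod : ξp * ξm * (ξ1 - ξ2) ^ 2 = (ξ1 * ξ2 - α * β) ^ 2)
  (hsum : (ξp + ξm) * (ξ1 - ξ2) ^ 2 =
      2 * ξ1 * ξ2 * (ξ1 + ξ2) + 4 * (α + β) * ξ1 * ξ2 + 2 * α * β * (ξ1 + ξ2))
include hh hα hβ h2 hprod hsum

/-- Case A: `v(ξ1) ≤ 0 < v(ξ2)`. -/
lemma comp_caseA {a b : ℚ} (E1 : V.EQ a ξ1) (E2 : V.EQ b ξ2) (hp : ξp ≠ 0) (hm : ξm ≠ 0)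
    (ha : a ≤ 0) (hb : 0 < b) :
    cl h (V.w ξp) = cl h b ∧ cl h (V.w ξm) = cl h b := by
  have E4 := four_EQ h2
  have Eκ : V.EQ h (α * β) := by simpa using hα.mul hβ
  have Eαβ : V.EQ 0 (α + β) := QVal.EQ.gt_add (hα.gt hh) hβ
  have ED : V.EQ a (ξ1 - ξ2) := E1.sub_gt (E2.gt (by linarith))
  have ES : V.EQ a (ξ1 + ξ2) := E1.add_gt (E2.gt (by linarith))
  have hbh1 : min b h ≤ b := min_le_left _ _
  have hbh2 : min b h ≤ h := min_le_right _ _
  have GNt : V.GE (a + min b h) (ξ1 * ξ2 - α * β) :=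
    ((E1.mul E2).ge (by linarith)).sub (Eκ.ge (by linarith))
  have Gt := QVal.GE.of_mul_eq hprod ED.sq GNt.sq
  have GNs : V.GE (2 * a + min b h)
      (2 * ξ1 * ξ2 * (ξ1 + ξ2) + 4 * (α + β) * ξ1 * ξ2 + 2 * α * β * (ξ1 + ξ2)) := by
    refine QVal.GE.add (QVal.GE.add ?_ ?_) ?_
    · exact (((h2.mul E1).mul E2).mul ES).ge (by linarith)
    · exact (((E4.mul Eαβ).mul E1).mul E2).ge (by linarith)
    · exact (((h2.mul hα).mul hβ).mul ES).ge (by linarith)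
  have Gs := QVal.GE.of_mul_eq hsum ED.sq GNs
  rcases le_or_gt h b with hbh | hbh
  · have hr := QVal.roots_ge (c := h) (Gt.mono (by rw [min_eq_right hbh]; linarith))
      (Gs.mono (by rw [min_eq_right hbh]; linarith))
    rw [cl_of_ge hh.le hbh, cl_of_ge hh.le (hr.1.le_w hp), cl_of_ge hh.le (hr.2.le_w hm)]
    exact ⟨rfl, rfl⟩
  · have ENt : V.EQ (a + b) (ξ1 * ξ2 - α * β) := (E1.mul E2).sub_gt (Eκ.gt (by linarith))
    have Et := QVal.EQ.of_mul_eq hprod ED.sq ENt.sq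
    have hr := QVal.roots_eq (c := b) (Et.congr (by ring))
      (Gs.mono (by rw [min_eq_left hbh.le]; linarith))
    rw [hr.1.2, hr.2.2]
    exact ⟨rfl, rfl⟩

/-- Case B: `v(ξ1), v(ξ2) ≥ h`. -/
lemma comp_caseB {a b : ℚ} (E1 : V.EQ a ξ1) (E2 : V.EQ b ξ2) (hD : ξ1 - ξ2 ≠ 0)
    (ha : h ≤ a) (hb : h ≤ b) :
    cl h (V.w ξp) = 0 ∧ cl h (V.w ξm) = 0 := by
  have E4 := four_EQ h2
  have Eκ : V.EQ h (α * β) := by simpa using hα.mul hβ
  have Eαβ : V.EQ 0 (α + β) := QVal.EQ.gt_add (hα.gt hh) hβ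
  have ED : V.EQ (V.w (ξ1 - ξ2)) (ξ1 - ξ2) := QVal.EQ.mk' hD
  have hδ : h ≤ V.w (ξ1 - ξ2) := ((E1.ge ha).sub (E2.ge hb)).le_w hD
  have GS : V.GE h (ξ1 + ξ2) := (E1.ge ha).add (E2.ge hb)
  have ENt : V.EQ h (ξ1 * ξ2 - α * β) := QVal.EQ.gt_sub ((E1.mul E2).gt (by linarith)) Eκ
  have Et := QVal.EQ.of_mul_eq hprod ED.sq ENt.sq
  have GNs : V.GE (2 * h)
      (2 * ξ1 * ξ2 * (ξ1 + ξ2) + 4 * (α + β) * ξ1 * ξ2 + 2 * α * β * (ξ1 + ξ2)) := by
    refine QVal.GE.add (QVal.GE.add ?_ ?_) ?_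
    · exact ((((h2.mul E1).mul E2).ge').mul GS).mono (by linarith)
    · exact (((E4.mul Eαβ).mul E1).mul E2).ge (by linarith)
    · exact ((((h2.mul hα).mul hβ).ge').mul GS).mono (by linarith)
  have Gs := QVal.GE.of_mul_eq hsum ED.sq GNs
  have hr := QVal.roots_le_zero (c := 2 * h - 2 * V.w (ξ1 - ξ2)) (by linarith) Et Gs
  exact ⟨cl_of_le_zero hr.1, cl_of_le_zero hr.2⟩

/-- Case C: `0 < v(ξ1) = v(ξ2) < h`. -/
lemma comp_caseC {a : ℚ} (E1 : V.EQ a ξ1) (E2 : V.EQ a ξ2) (hD : ξ1 - ξ2 ≠ 0)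
    (hp : ξp ≠ 0) (hm : ξm ≠ 0) (ha : 0 < a) (hah : a < h) :
    ∃ F : ℚ, ((cl h (V.w ξp) = F ∧ cl h (V.w ξm) = 0) ∨ (cl h (V.w ξp) = 0 ∧ cl h (V.w ξm) = F)) ∧
      (F = a + a ∨ F = 2 * h - (a + a)) := by
  have E4 := four_EQ h2
  have Eκ : V.EQ h (α * β) := by simpa using hα.mul hβ
  have Eαβ : V.EQ 0 (α + β) := QVal.EQ.gt_add (hα.gt hh) hβ
  have ED : V.EQ (V.w (ξ1 - ξ2)) (ξ1 - ξ2) := QVal.EQ.mk' hD
  have hδ : a ≤ V.w (ξ1 - ξ2) := (E1.ge'.sub E2.ge').le_w hD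
  have GS : V.GE a (ξ1 + ξ2) := E1.ge'.add E2.ge'
  have ENs : V.EQ (2 * a)
      (2 * ξ1 * ξ2 * (ξ1 + ξ2) + 4 * (α + β) * ξ1 * ξ2 + 2 * α * β * (ξ1 + ξ2)) := by
    refine QVal.EQ.add_gt (QVal.EQ.gt_add ?_ ?_) ?_
    · exact ((((h2.mul E1).mul E2).ge').mul GS).gt (by linarith)
    · exact ((((E4.mul Eαβ).mul E1).mul E2)).congr (by ring)
    · exact ((((h2.mul hα).mul hβ).ge').mul GS).gt (by linarith)
  have Es := QVal.EQ.of_mul_eq hsum ED.sq ENs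
  rcases lt_trichotomy (2 * a) h with h2a | h2a | h2a
  · have ENt : V.EQ (a + a) (ξ1 * ξ2 - α * β) := (E1.mul E2).sub_gt (Eκ.gt (by linarith))
    have Et := QVal.EQ.of_mul_eq hprod ED.sq ENt.sq
    refine ⟨a + a, ?_, Or.inl rfl⟩
    rcases QVal.roots_split (c₁ := 2 * a - 2 * V.w (ξ1 - ξ2)) (c₂ := a + a) (by linarith) Es
      (Et.congr (by ring)) with hr | hr
    · right
      rw [hr.1.2, hr.2.2]
      exact ⟨cl_of_le_zero (by linarith), cl_of_mem (by linarith) (by linarith)⟩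
    · left
      rw [hr.1.2, hr.2.2]
      exact ⟨cl_of_mem (by linarith) (by linarith), cl_of_le_zero (by linarith)⟩
  · have GNt : V.GE h (ξ1 * ξ2 - α * β) := ((E1.mul E2).ge (by linarith)).sub Eκ.ge'
    have Gt := QVal.GE.of_mul_eq hprod ED.sq GNt.sq
    refine ⟨a + a, ?_, Or.inl rfl⟩
    rcases QVal.roots_split_ge (c₁ := 2 * a - 2 * V.w (ξ1 - ξ2)) (c₂ := h) (by linarith) Es
      (Gt.mono (by linarith)) with hr | hr
    · right
      rw [hr.1.2, cl_of_ge hh.le (hr.2.le_w hm)]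
      exact ⟨cl_of_le_zero (by linarith), by linarith⟩
    · left
      rw [hr.2.2, cl_of_ge hh.le (hr.1.le_w hp)]
      exact ⟨by linarith, cl_of_le_zero (by linarith)⟩
  · have ENt : V.EQ h (ξ1 * ξ2 - α * β) := QVal.EQ.gt_sub ((E1.mul E2).gt (by linarith)) Eκ
    have Et := QVal.EQ.of_mul_eq hprod ED.sq ENt.sq
    refine ⟨2 * h - (a + a), ?_, Or.inr rfl⟩
    rcases QVal.roots_split (c₁ := 2 * a - 2 * V.w (ξ1 - ξ2)) (c₂ := 2 * h - (a + a))
      (by linarith) Es (Et.congr (by ring)) with hr | hr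
    · right
      rw [hr.1.2, hr.2.2]
      exact ⟨cl_of_le_zero (by linarith), cl_of_mem (by linarith) (by linarith)⟩
    · left
      rw [hr.1.2, hr.2.2]
      exact ⟨cl_of_mem (by linarith) (by linarith), cl_of_le_zero (by linarith)⟩

/-- Case D: `0 < v(ξ1) < v(ξ2)`, `v(ξ1) < h`. -/
lemma comp_caseD {a b : ℚ} (E1 : V.EQ a ξ1) (E2 : V.EQ b ξ2)
    (hp : ξp ≠ 0) (hm : ξm ≠ 0) (ha : 0 < a) (hab : a < b) (hah : a < h) :
    ∃ F : ℚ, ((cl h (V.w ξp) = F ∧ cl h (V.w ξm) = cl h b - a) ∨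
        (cl h (V.w ξp) = cl h b - a ∧ cl h (V.w ξm) = F)) ∧
      (F = a + cl h b ∨ F = 2 * h - (a + cl h b)) := by
  have E4 := four_EQ h2
  have Eκ : V.EQ h (α * β) := by simpa using hα.mul hβ
  have Eαβ : V.EQ 0 (α + β) := QVal.EQ.gt_add (hα.gt hh) hβ
  have ED : V.EQ a (ξ1 - ξ2) := E1.sub_gt (E2.gt hab)
  have ES : V.EQ a (ξ1 + ξ2) := E1.add_gt (E2.gt hab)
  have T1 := ((h2.mul E1).mul E2).mul ES
  have T2 := ((E4.mul Eαβ).mul E1).mul E2
  have T3 := ((h2.mul hα).mul hβ).mul ES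
  rcases le_or_gt h b with hbh | hbh
  · rw [cl_of_ge hh.le hbh]
    have GNs : V.GE (a + h)
        (2 * ξ1 * ξ2 * (ξ1 + ξ2) + 4 * (α + β) * ξ1 * ξ2 + 2 * α * β * (ξ1 + ξ2)) :=
      ((T1.ge (by linarith)).add (T2.ge (by linarith))).add (T3.ge (by linarith))
    have Gs := QVal.GE.of_mul_eq hsum ED.sq GNs
    have ENt : V.EQ h (ξ1 * ξ2 - α * β) := QVal.EQ.gt_sub ((E1.mul E2).gt (by linarith)) Eκ
    have Et := QVal.EQ.of_mul_eq hprod ED.sq ENt.sq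
    have hr := QVal.roots_eq (c := h - a) (Et.congr (by ring)) (Gs.mono (by linarith))
    refine ⟨2 * h - (a + h), Or.inl ?_, Or.inr rfl⟩
    rw [hr.1.2, hr.2.2, cl_of_mem (by linarith) (by linarith)]
    exact ⟨by ring, rfl⟩
  · rw [cl_of_mem (by linarith) hbh.le]
    have ENs : V.EQ (a + b)
        (2 * ξ1 * ξ2 * (ξ1 + ξ2) + 4 * (α + β) * ξ1 * ξ2 + 2 * α * β * (ξ1 + ξ2)) :=
      (QVal.EQ.gt_add (T1.gt (by linarith)) (T2.congr (by ring))).add_gt (T3.gt (by linarith))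
    have Es := QVal.EQ.of_mul_eq hsum ED.sq ENs
    rcases lt_trichotomy (a + b) h with hs | hs | hs
    · have ENt : V.EQ (a + b) (ξ1 * ξ2 - α * β) := (E1.mul E2).sub_gt (Eκ.gt hs)
      have Et := QVal.EQ.of_mul_eq hprod ED.sq ENt.sq
      refine ⟨a + b, ?_, Or.inl rfl⟩
      rcases QVal.roots_split (c₁ := b - a) (c₂ := a + b) (by linarith) (Es.congr (by ring))
        (Et.congr (by ring)) with hr | hr
      · right
        rw [hr.1.2, hr.2.2]
        exact ⟨cl_of_mem (by linarith) (by linarith), cl_of_mem (by linarith) (by linarith)⟩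
      · left
        rw [hr.1.2, hr.2.2]
        exact ⟨cl_of_mem (by linarith) (by linarith), cl_of_mem (by linarith) (by linarith)⟩
    · have GNt : V.GE h (ξ1 * ξ2 - α * β) := ((E1.mul E2).ge (by linarith)).sub Eκ.ge'
      have Gt := QVal.GE.of_mul_eq hprod ED.sq GNt.sq
      refine ⟨a + b, ?_, Or.inl rfl⟩
      rcases QVal.roots_split_ge (c₁ := b - a) (c₂ := h) (by linarith) (Es.congr (by ring))
        (Gt.mono (by linarith)) with hr | hr
      · right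
        rw [hr.1.2, cl_of_ge hh.le (hr.2.le_w hm)]
        exact ⟨cl_of_mem (by linarith) (by linarith), by linarith⟩
      · left
        rw [hr.2.2, cl_of_ge hh.le (hr.1.le_w hp)]
        exact ⟨by linarith, cl_of_mem (by linarith) (by linarith)⟩
    · have ENt : V.EQ h (ξ1 * ξ2 - α * β) := QVal.EQ.gt_sub ((E1.mul E2).gt hs) Eκ
      have Et := QVal.EQ.of_mul_eq hprod ED.sq ENt.sq
      refine ⟨2 * h - (a + b), ?_, Or.inr rfl⟩
      rcases QVal.roots_split (c₁ := b - a) (c₂ := 2 * h - (a + b)) (by linarith)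
        (Es.congr (by ring)) (Et.congr (by ring)) with hr | hr
      · right
        rw [hr.1.2, hr.2.2]
        exact ⟨cl_of_mem (by linarith) (by linarith), cl_of_mem (by linarith) (by linarith)⟩
      · left
        rw [hr.1.2, hr.2.2]
        exact ⟨cl_of_mem (by linarith) (by linarith), cl_of_mem (by linarith) (by linarith)⟩

/-- The combined statement. -/
theorem comp_core (h1 : ξ1 ≠ 0) (h2' : ξ2 ≠ 0) (hp : ξp ≠ 0) (hm : ξm ≠ 0) (hD : ξ1 - ξ2 ≠ 0)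
    (hb : 0 < V.w ξ2) :
    ∃ F G : ℚ, ((cl h (V.w ξp) = F ∧ cl h (V.w ξm) = G) ∨
        (cl h (V.w ξp) = G ∧ cl h (V.w ξm) = F)) ∧
      (F = cl h (V.w ξ1) + cl h (V.w ξ2) ∨ F = 2 * h - (cl h (V.w ξ1) + cl h (V.w ξ2))) ∧
      (G = cl h (V.w ξ1) - cl h (V.w ξ2) ∨ G = cl h (V.w ξ2) - cl h (V.w ξ1)) := by
  have E1 : V.EQ (V.w ξ1) ξ1 := QVal.EQ.mk' h1
  have E2 : V.EQ (V.w ξ2) ξ2 := QVal.EQ.mk' h2'
  set a := V.w ξ1
  set b := V.w ξ2
  rcases le_or_gt a 0 with ha | ha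
  · obtain ⟨r1, r2⟩ := comp_caseA hh hα hβ h2 hprod hsum E1 E2 hp hm ha hb
    rw [cl_of_le_zero ha]
    exact ⟨cl h b, cl h b, Or.inl ⟨r1, r2⟩, Or.inl (by ring), Or.inr (by ring)⟩
  by_cases hB : h ≤ a ∧ h ≤ b
  · obtain ⟨r1, r2⟩ := comp_caseB hh hα hβ h2 hprod hsum E1 E2 hD hB.1 hB.2
    rw [cl_of_ge hh.le hB.1, cl_of_ge hh.le hB.2]
    exact ⟨0, 0, Or.inl ⟨r1, r2⟩, Or.inr (by ring), Or.inl (by ring)⟩
  rcases lt_trichotomy a b with hab | hab | hab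
  · have hah : a < h := by
      by_contra hcon
      exact hB ⟨not_lt.mp hcon, by linarith [not_lt.mp hcon]⟩
    obtain ⟨F, r1, r2⟩ := comp_caseD hh hα hβ h2 hprod hsum E1 E2 hp hm ha hab hah
    rw [cl_of_mem ha.le hah.le]
    exact ⟨F, cl h b - a, r1, r2, Or.inr rfl⟩
  · have hah : a < h := by
      by_contra hcon
      exact hB ⟨not_lt.mp hcon, by linarith [not_lt.mp hcon]⟩
    obtain ⟨F, r1, r2⟩ := comp_caseC hh hα hβ h2 hprod hsum E1 (hab ▸ E2) hD hp hm ha hah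
    rw [← hab, cl_of_mem ha.le hah.le]
    exact ⟨F, 0, r1, r2, Or.inl (by ring)⟩
  · have hbh : b < h := by
      by_contra hcon
      exact hB ⟨by linarith [not_lt.mp hcon], not_lt.mp hcon⟩
    have hprod' : ξp * ξm * (ξ2 - ξ1) ^ 2 = (ξ2 * ξ1 - α * β) ^ 2 := by
      linear_combination hprod
    have hsum' : (ξp + ξm) * (ξ2 - ξ1) ^ 2 =
        2 * ξ2 * ξ1 * (ξ2 + ξ1) + 4 * (α + β) * ξ2 * ξ1 + 2 * α * β * (ξ2 + ξ1) := by
      linear_combination hsum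
    obtain ⟨F, r1, r2⟩ := comp_caseD hh hα hβ h2 hprod' hsum' E2 E1 hp hm hb hab hbh
    rw [cl_of_mem hb.le hbh.le]
    refine ⟨F, cl h a - b, r1, ?_, Or.inl rfl⟩
    rcases r2 with r2 | r2
    · exact Or.inl (by rw [r2]; ring)
    · exact Or.inr (by rw [r2]; ring)

/-- If two points lie on the same (or opposite) non-identity component, then their sum or their
difference lies on the identity component. -/
theorem comp_same (h1 : ξ1 ≠ 0) (h2' : ξ2 ≠ 0) (hD : ξ1 - ξ2 ≠ 0)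
    (hb : 0 < V.w ξ2) (hcl : cl h (V.w ξ1) = cl h (V.w ξ2)) :
    ¬ V.GT 0 ξp ∨ ¬ V.GT 0 ξm := by
  have E1 : V.EQ (V.w ξ1) ξ1 := QVal.EQ.mk' h1
  have E2 : V.EQ (V.w ξ2) ξ2 := QVal.EQ.mk' h2'
  set a := V.w ξ1
  set b := V.w ξ2
  have E4 := four_EQ h2
  have Eκ : V.EQ h (α * β) := by simpa using hα.mul hβ
  have Eαβ : V.EQ 0 (α + β) := QVal.EQ.gt_add (hα.gt hh) hβ
  have ED : V.EQ (V.w (ξ1 - ξ2)) (ξ1 - ξ2) := QVal.EQ.mk' hD
  by_contra hcon
  rw [not_or, not_not, not_not] at hcon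
  obtain ⟨gp, gm⟩ := hcon
  rcases le_or_gt h b with hbh | hbh
  · -- both at least `h`
    have hah : h ≤ a := by
      by_contra hc
      rw [not_le] at hc
      rw [cl_of_ge hh.le hbh] at hcl
      rcases le_or_gt a 0 with ha0 | ha0
      · rw [cl_of_le_zero ha0] at hcl; linarith
      · rw [cl_of_mem ha0.le hc.le] at hcl; linarith
    have hδ : h ≤ V.w (ξ1 - ξ2) := ((E1.ge hah).sub (E2.ge hbh)).le_w hD
    have ENt : V.EQ h (ξ1 * ξ2 - α * β) := QVal.EQ.gt_sub ((E1.mul E2).gt (by linarith)) Eκ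
    have Et := QVal.EQ.of_mul_eq hprod ED.sq ENt.sq
    have : V.GT (0 + 0) (ξp * ξm) := gp.mul_ge gm.ge
    exact Et.not_gt (by linarith) this
  · have hab : a = b := by
      rw [cl_of_mem hb.le hbh.le] at hcl
      rcases le_or_gt a 0 with ha0 | ha0
      · rw [cl_of_le_zero ha0] at hcl; linarith
      rcases le_or_gt h a with hah | hah
      · rw [cl_of_ge hh.le hah] at hcl; linarith
      · rw [cl_of_mem ha0.le hah.le] at hcl; exact hcl
    have hδ : b ≤ V.w (ξ1 - ξ2) := ((E1.ge hab.ge).sub E2.ge').le_w hD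
    have GS : V.GE b (ξ1 + ξ2) := (E1.ge hab.ge).add E2.ge'
    have ENs : V.EQ (2 * b)
        (2 * ξ1 * ξ2 * (ξ1 + ξ2) + 4 * (α + β) * ξ1 * ξ2 + 2 * α * β * (ξ1 + ξ2)) := by
      refine QVal.EQ.add_gt (QVal.EQ.gt_add ?_ ?_) ?_
      · exact ((((h2.mul E1).mul E2).ge').mul GS).gt (by linarith)
      · exact ((((E4.mul Eαβ).mul E1).mul E2)).congr (by rw [hab]; ring)
      · exact ((((h2.mul hα).mul hβ).ge').mul GS).gt (by linarith)
    have Es := QVal.EQ.of_mul_eq hsum ED.sq ENs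
    exact Es.not_gt (by linarith) (gp.add gm)

end

/-- Valuation analysis of the duplication formula. -/
theorem comp_dup {ξ ξd : K} (hh : 0 < h) (hα : V.EQ h α) (hβ : V.EQ 0 β) (h2 : V.EQ 0 (2 : K))
    (hform : ξd * (4 * ξ * (ξ + α) * (ξ + β)) = (ξ ^ 2 - α * β) ^ 2)
    (h1 : ξ ≠ 0) (h1' : ξ + α ≠ 0) (hd : ξd ≠ 0) (ha : 0 < V.w ξ) :
    cl h (V.w ξd) = cl h (V.w ξ) + cl h (V.w ξ) ∨
      cl h (V.w ξd) = 2 * h - (cl h (V.w ξ) + cl h (V.w ξ)) := by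
  have E1 : V.EQ (V.w ξ) ξ := QVal.EQ.mk' h1
  set a := V.w ξ
  have E4 := four_EQ h2
  have Eκ : V.EQ h (α * β) := by simpa using hα.mul hβ
  have Eβ : V.EQ 0 (ξ + β) := QVal.EQ.gt_add (E1.gt ha) hβ
  rcases le_or_gt h a with hah | hah
  · right
    have Eα : V.EQ (V.w (ξ + α)) (ξ + α) := QVal.EQ.mk' h1'
    have hc : h ≤ V.w (ξ + α) := ((E1.ge hah).add hα.ge').le_w h1'
    have EN : V.EQ h (ξ ^ 2 - α * β) := QVal.EQ.gt_sub (E1.sq.gt (by linarith)) Eκ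
    have Ed := QVal.EQ.of_mul_eq hform (((E4.mul E1).mul Eα).mul Eβ) EN.sq
    rw [Ed.2, cl_of_ge hh.le hah, cl_of_le_zero (by linarith)]
    ring
  · have Eα : V.EQ a (ξ + α) := E1.add_gt (hα.gt hah)
    have Eden := ((E4.mul E1).mul Eα).mul Eβ
    rw [cl_of_mem ha.le hah.le]
    rcases lt_trichotomy (2 * a) h with h2a | h2a | h2a
    · left
      have EN : V.EQ (2 * a) (ξ ^ 2 - α * β) := E1.sq.sub_gt (Eκ.gt h2a)
      have Ed := QVal.EQ.of_mul_eq hform Eden EN.sq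
      rw [Ed.2, cl_of_mem (by linarith) (by linarith)]
      ring
    · left
      have GN : V.GE h (ξ ^ 2 - α * β) := (E1.sq.ge h2a.ge).sub Eκ.ge'
      have Gd := QVal.GE.of_mul_eq hform Eden GN.sq
      rw [cl_of_ge hh.le (le_trans (by linarith) (Gd.le_w hd))]
      linarith
    · right
      have EN : V.EQ h (ξ ^ 2 - α * β) := QVal.EQ.gt_sub (E1.sq.gt h2a) Eκ
      have Ed := QVal.EQ.of_mul_eq hform Eden EN.sq
      rw [Ed.2, cl_of_mem (by linarith) (by linarith)]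
      ring

/-! ### Arithmetic of folding -/

/-- `a ≡ ± b` modulo `2h`. -/
def Rel (h a b : ℚ) : Prop := ∃ j : ℤ, a - b = 2 * h * j ∨ a + b = 2 * h * j

lemma Rel.shift_pos {h a b : ℚ} (hr : Rel h a b) (j : ℤ) : Rel h (2 * h * j + a) b := by
  obtain ⟨i, hi | hi⟩ := hr
  · exact ⟨j + i, Or.inl (by push_cast; linarith)⟩
  · exact ⟨j + i, Or.inr (by push_cast; linarith)⟩

lemma Rel.shift_neg {h a b : ℚ} (hr : Rel h a b) (j : ℤ) : Rel h (2 * h * j - a) b := by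
  obtain ⟨i, hi | hi⟩ := hr
  · exact ⟨j - i, Or.inr (by push_cast; linarith)⟩
  · exact ⟨j - i, Or.inl (by push_cast; linarith)⟩

lemma eq_zero_of_two_mul {h x : ℚ} (hh : 0 < h) (h0 : 0 ≤ x) (hx : x ≤ h) {m : ℤ}
    (hm : x = 2 * h * m) : x = 0 := by
  have h1 : (m : ℚ) < 1 := by
    by_contra hc
    rw [not_lt] at hc
    nlinarith
  have h2 : (-1 : ℚ) < m := by
    by_contra hc
    rw [not_lt] at hc
    nlinarith
  have h1' : m < 1 := by exact_mod_cast h1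
  have h2' : -1 < m := by exact_mod_cast h2
  have : m = 0 := by omega
  rw [hm, this]; simp

lemma Rel.unique {h a x y : ℚ} (hh : 0 < h) (hx0 : 0 ≤ x) (hx : x ≤ h) (hy0 : 0 ≤ y) (hy : y ≤ h)
    (h1 : Rel h a x) (h2 : Rel h a y) : x = y := by
  obtain ⟨i, hi⟩ := h1
  obtain ⟨j, hj⟩ := h2
  have key1 : ∀ m : ℤ, x - y = 2 * h * m → x = y := by
    intro m hm
    have h1 : (m : ℚ) < 1 := by
      by_contra hc
      rw [not_lt] at hc
      nlinarith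
    have h2 : (-1 : ℚ) < m := by
      by_contra hc
      rw [not_lt] at hc
      nlinarith
    have h1' : m < 1 := by exact_mod_cast h1
    have h2' : -1 < m := by exact_mod_cast h2
    have : m = 0 := by omega
    rw [this] at hm
    simp at hm
    linarith
  have key2 : ∀ m : ℤ, x + y = 2 * h * m → x = y := by
    intro m hm
    have h1 : (m : ℚ) < 2 := by
      by_contra hc
      rw [not_lt] at hc
      nlinarith
    have h2 : (-1 : ℚ) < m := by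
      by_contra hc
      rw [not_lt] at hc
      nlinarith
    have h1' : m < 2 := by exact_mod_cast h1
    have h2' : -1 < m := by exact_mod_cast h2
    have : m = 0 ∨ m = 1 := by omega
    rcases this with rfl | rfl
    · simp at hm; linarith
    · simp at hm; linarith
  rcases hi with hi | hi <;> rcases hj with hj | hj
  · exact key1 (j - i) (by push_cast; linarith)
  · exact key2 (j - i) (by push_cast; linarith)
  · exact key2 (i - j) (by push_cast; linarith)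
  · exact key1 (i - j) (by push_cast; linarith)

/-- The induction step. -/
lemma Rel.step {h d u x0 x1 x2 : ℚ} (hh : 0 < h)
    (b0 : 0 ≤ x0 ∧ x0 ≤ h) (b2 : 0 ≤ x2 ∧ x2 ≤ h)
    (H1 : Rel h u x1) (H0 : Rel h (u - d) x0)
    (HK : ∃ F G : ℚ, ((x2 = F ∧ x0 = G) ∨ (x2 = G ∧ x0 = F)) ∧
      (F = x1 + d ∨ F = 2 * h - (x1 + d)) ∧ (G = x1 - d ∨ G = d - x1)) :
    Rel h (u + d) x2 := by
  obtain ⟨F, G, hFG, hF, hG⟩ := HK
  have rF : Rel h (x1 + d) F := by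
    rcases hF with rfl | rfl
    · exact ⟨0, Or.inl (by simp)⟩
    · exact ⟨1, Or.inr (by push_cast; ring)⟩
  have rG : Rel h (x1 - d) G := by
    rcases hG with rfl | rfl
    · exact ⟨0, Or.inl (by simp)⟩
    · exact ⟨0, Or.inr (by push_cast; ring)⟩
  have hcase : (Rel h (u + d) F ∧ Rel h (u - d) G) ∨ (Rel h (u + d) G ∧ Rel h (u - d) F) := by
    obtain ⟨j, hj | hj⟩ := H1
    · left
      refine ⟨?_, ?_⟩
      · have := rF.shift_pos j
        rwa [show 2 * h * (j : ℚ) + (x1 + d) = u + d by linarith] at this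
      · have := rG.shift_pos j
        rwa [show 2 * h * (j : ℚ) + (x1 - d) = u - d by linarith] at this
    · right
      refine ⟨?_, ?_⟩
      · have := rG.shift_neg j
        rwa [show 2 * h * (j : ℚ) - (x1 - d) = u + d by linarith] at this
      · have := rF.shift_neg j
        rwa [show 2 * h * (j : ℚ) - (x1 + d) = u - d by linarith] at this
  rcases hFG with ⟨rfl, rfl⟩ | ⟨rfl, rfl⟩
  · rcases hcase with ⟨c1, _⟩ | ⟨c1, c2⟩
    · exact c1
    · have : x0 = x2 := Rel.unique hh b0.1 b0.2 b2.1 b2.2 H0 c2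
      rw [← this]; exact c1
  · rcases hcase with ⟨c1, c2⟩ | ⟨c1, _⟩
    · have : x0 = x2 := Rel.unique hh b0.1 b0.2 b2.1 b2.2 H0 c2
      rw [← this]; exact c1
    · exact c1

end Fermat.Agent.S05
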