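import Fermat.Agent.S05.Torsion

/-!
# Action of an inertia-like automorphism on torsion points
-/

set_option autoImplicit false
set_option linter.unusedSectionVars false

universe u

namespace Fermat.Agent.S05

open WeierstrassCurve WeierstrassCurve.Affine

variable {K : Type u} [Field K] [DecidableEq K] [CharZero K]

/-- The data of an integral Weierstrass curve with full rational two-torsion together with an
automorphism acting trivially on the residue field. -/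
structure Ctx (V : QVal K) (W : Affine K) (e1 e2 e3 : K) (σ : K →+* K)
    (Φ : W.Point →+ W.Point) : Prop where
  tt : TwoTors W e1 e2 e3
  a1 : V.GE 0 W.a₁
  a2 : V.GE 0 W.a₂
  a3 : V.GE 0 W.a₃
  a4 : V.GE 0 W.a₄
  a6 : V.GE 0 W.a₆
  he1 : V.GE 0 e1
  he2 : V.GE 0 e2
  he3 : V.GE 0 e3
  two : V.EQ 0 (2 : K)
  σw : ∀ x : K, x ≠ 0 → V.w (σ x) = V.w x
  σm : ∀ x : K, V.GE 0 x → V.GT 0 (σ x - x)
  σe1 : σ e1 = e1
  Φsome : ∀ (x y : K) (h : W.Nonsingular x y), ∃ h', Φ (.some x y h) = .some (σ x) (σ y) h'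

variable {V : QVal K} {W : Affine K} {e1 e2 e3 : K} {σ : K →+* K} {Φ : W.Point →+ W.Point}

lemma TwoTors.perm231 (h : TwoTors W e1 e2 e3) : TwoTors W e2 e3 e1 :=
  ⟨by rw [h.hb2]; ring, by rw [h.hb4]; ring, by rw [h.hb6]; ring⟩

lemma TwoTors.perm132 (h : TwoTors W e1 e2 e3) : TwoTors W e1 e3 e2 :=
  ⟨by rw [h.hb2]; ring, by rw [h.hb4]; ring, by rw [h.hb6]; ring⟩

/-- Integrality of the `y`-coordinate. -/
lemma y_integral (a1 : V.GE 0 W.a₁) (a2 : V.GE 0 W.a₂) (a3 : V.GE 0 W.a₃) (a4 : V.GE 0 W.a₄)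
    (a6 : V.GE 0 W.a₆) {x y : K} (h : W.Equation x y) (hx : V.GE 0 x) : V.GE 0 y := by
  by_contra hy
  obtain ⟨hy0, hyw⟩ := QVal.not_GE_iff.mp hy
  have Ey : V.EQ (V.w y) y := QVal.EQ.mk' hy0
  have h1 := (equation_iff x y).mp h
  have L : V.EQ (2 * V.w y) (y ^ 2 + W.a₁ * x * y + W.a₃ * y) := by
    refine QVal.EQ.add_gt (Ey.sq.add_gt ?_) ?_
    · exact ((a1.mul hx).mul Ey.ge').gt (by linarith)
    · exact (a3.mul Ey.ge').gt (by linarith)
  have R : V.GE 0 (x ^ 3 + W.a₂ * x ^ 2 + W.a₄ * x + W.a₆) := by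
    refine QVal.GE.add (QVal.GE.add (QVal.GE.add (hx.pow 3) ?_) ?_) a6
    · simpa using a2.mul (hx.pow 2)
    · simpa using a4.mul hx
  rw [h1] at L
  exact L.not_ge (by linarith) R

/-- A point whose `x`-coordinate is not congruent to two of the three roots has nonsingular
reduction. -/
lemma nonsing_red (hW : TwoTors W e1 e2 e3) (two : V.EQ 0 (2 : K)) (a1 : V.GE 0 W.a₁)
    {x y : K} (h : W.Equation x y) (E1 : V.EQ 0 (x - e1)) (E2 : V.EQ 0 (x - e2))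
    (G3 : V.GE 0 (x - e3)) :
    V.EQ 0 (2 * y + W.a₁ * x + W.a₃) ∨ V.EQ 0 (3 * x ^ 2 + 2 * W.a₂ * x + W.a₄ - W.a₁ * y) := by
  have hsq : (2 * y + W.a₁ * x + W.a₃) ^ 2 = 4 * (x - e1) * (x - e2) * (x - e3) := by
    rw [hW.eta_sq h]; ring
  have E4 := four_EQ two
  by_cases E3 : V.EQ 0 (x - e3)
  · left
    apply QVal.EQ.of_sq
    rw [hsq]
    simpa using ((E4.mul E1).mul E2).mul E3
  · right
    have G3' : V.GT 0 (x - e3) := G3.gt_of_not_EQ E3
    have Gη : V.GT 0 (2 * y + W.a₁ * x + W.a₃) := by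
      apply QVal.GT.of_sq
      rw [hsq]
      simpa using (((E4.mul E1).mul E2).ge').mul_gt G3'
    have hb2 := hW.hb2
    have hb4 := hW.hb4
    simp only [WeierstrassCurve.b₂, WeierstrassCurve.b₄] at hb2 hb4
    have hid : (3 * x ^ 2 + 2 * W.a₂ * x + W.a₄ - W.a₁ * y) * 2 =
        2 * (x - e1) * (x - e2) + (2 * (x - e3) * ((x - e1) + (x - e2))
          - W.a₁ * (2 * y + W.a₁ * x + W.a₃)) := by
      linear_combination x * hb2 + hb4
    have ER : V.EQ 0 (2 * (x - e1) * (x - e2) + (2 * (x - e3) * ((x - e1) + (x - e2))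
          - W.a₁ * (2 * y + W.a₁ * x + W.a₃))) := by
      refine QVal.EQ.add_gt (by simpa using (two.mul E1).mul E2) (QVal.GT.sub ?_ ?_)
      · simpa using (two.ge'.mul_gt G3').mul_ge (E1.ge'.add E2.ge')
      · simpa using a1.mul_gt Gη
    simpa using QVal.EQ.of_mul_eq hid two ER

namespace Ctx

variable (C : Ctx V W e1 e2 e3 σ Φ)
include C

lemma hα : V.GE 0 (e1 - e2) := C.he1.sub C.he2
lemma hβ : V.GE 0 (e1 - e3) := C.he1.sub C.he3

lemma σ_ne_zero {x : K} (hx : x ≠ 0) : σ x ≠ 0 := (map_ne_zero σ).mpr hx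

lemma InE1_Φ {R : W.Point} (hR : InE1 V e1 R) : InE1 V e1 (Φ R) := by
  rcases R with _ | ⟨x, y, h⟩
  · left; exact map_zero Φ
  · obtain ⟨h', hΦ⟩ := C.Φsome x y h
    have hR' := hR.resolve_left (Point.some_ne_zero h)
    rw [xi_some] at hR'
    obtain ⟨h0, hw⟩ := QVal.not_GE_iff.mp hR'
    right
    rw [hΦ, xi_some]
    have : σ x - e1 = σ (x - e1) := by rw [map_sub, C.σe1]
    rw [this]
    exact QVal.not_GE_iff.mpr ⟨C.σ_ne_zero h0, by rw [C.σw _ h0]; exact hw⟩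

/-- Points in the kernel of reduction. -/
lemma sub_InE1_of_InE1 {R : W.Point} (hR : InE1 V e1 R) : InE1 V e1 (Φ R - R) :=
  (C.InE1_Φ hR).sub C.tt C.hα C.hβ hR

/-- Integral points with nonsingular reduction. -/
lemma sub_InE1_of_nonsing {x y : K} (h : W.Nonsingular x y) (hx : V.GE 0 x)
    (hns : V.EQ 0 (2 * y + W.a₁ * x + W.a₃) ∨
      V.EQ 0 (3 * x ^ 2 + 2 * W.a₂ * x + W.a₄ - W.a₁ * y)) :
    InE1 V e1 (Φ (.some x y h) - .some x y h) := by
  obtain ⟨h', hΦ⟩ := C.Φsome x y h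
  rw [hΦ]
  have hy := y_integral C.a1 C.a2 C.a3 C.a4 C.a6 h.1 hx
  exact InE1_sub_of_close C.a1 C.a2 C.a3 C.he1 h h' hx hy (C.σm x hx) (C.σm y hy) hns

/-- The final step: a torsion point moved by an element of the kernel of reduction is fixed. -/
lemma Φ_eq_of_InE1 {S : W.Point} {n : ℕ} (hn : V.EQ 0 (n : K)) (hS : n • S = 0)
    (h : InE1 V e1 (Φ S - S)) : Φ S = S := by
  have h0 : n • (Φ S - S) = 0 := by
    rw [nsmul_sub, ← map_nsmul, hS, map_zero, sub_zero]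
  exact sub_eq_zero.mp (eq_zero_of_InE1_of_nsmul_eq_zero C.tt C.hα C.hβ h hn h0)

/-- **Good reduction**: torsion points of order prime to the residue characteristic are fixed. -/
theorem Φ_eq_of_good (h12 : V.EQ 0 (e1 - e2)) (h13 : V.EQ 0 (e1 - e3)) (h23 : V.EQ 0 (e2 - e3))
    {S : W.Point} {n : ℕ} (hn : V.EQ 0 (n : K)) (hS : n • S = 0) : Φ S = S := by
  apply C.Φ_eq_of_InE1 hn hS
  by_cases hE : InE1 V e1 S
  · exact C.sub_InE1_of_InE1 hE
  rcases S with _ | ⟨x, y, h⟩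
  · exact absurd (Or.inl rfl) hE
  have hξ : V.GE 0 (x - e1) := by
    by_contra hc
    exact hE (Or.inr (by rwa [xi_some]))
  have hx : V.GE 0 x := by simpa using hξ.add C.he1
  apply C.sub_InE1_of_nonsing h hx
  have G2 : V.GE 0 (x - e2) := hx.sub C.he2
  have G3 : V.GE 0 (x - e3) := hx.sub C.he3
  by_cases E1 : V.EQ 0 (x - e1)
  · by_cases E2 : V.EQ 0 (x - e2)
    · exact nonsing_red C.tt C.two C.a1 h.1 E1 E2 G3
    · have E3 : V.EQ 0 (x - e3) := by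
        have : x - e3 = (e2 - e3) + (x - e2) := by ring
        rw [this]; exact h23.add_gt (G2.gt_of_not_EQ E2)
      exact nonsing_red C.tt.perm132 C.two C.a1 h.1 E1 E3 G2
  · have g1 := hξ.gt_of_not_EQ E1
    have E2 : V.EQ 0 (x - e2) := by
      have : x - e2 = (e1 - e2) + (x - e1) := by ring
      rw [this]; exact h12.add_gt g1
    have E3 : V.EQ 0 (x - e3) := by
      have : x - e3 = (e1 - e3) + (x - e1) := by ring
      rw [this]; exact h13.add_gt g1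
    exact nonsing_red C.tt.perm231 C.two C.a1 h.1 E2 E3 hξ

section mult

variable {h : ℚ} (hh : 0 < h) (h12 : V.EQ h (e1 - e2)) (h13 : V.EQ 0 (e1 - e3))
include hh h12 h13

/-- Points on the identity component (multiplicative reduction). -/
lemma sub_InE1_of_not_GT {R : W.Point} (hR0 : R ≠ 0) (hR : ¬ V.GT 0 (xi e1 R)) :
    InE1 V e1 (Φ R - R) := by
  rcases R with _ | ⟨x, y, hxy⟩
  · exact absurd rfl hR0
  rw [xi_some] at hR
  obtain ⟨h0, hw⟩ := QVal.not_GT_iff.mp hR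
  rcases lt_or_eq_of_le hw with hw | hw
  · exact C.sub_InE1_of_InE1 (Or.inr (by rw [xi_some]; exact QVal.not_GE_iff.mpr ⟨h0, hw⟩))
  · have E1 : V.EQ 0 (x - e1) := ⟨h0, hw⟩
    have E2 : V.EQ 0 (x - e2) := by
      have : x - e2 = (x - e1) + (e1 - e2) := by ring
      rw [this]; exact E1.add_gt (h12.gt hh)
    have hx : V.GE 0 x := by simpa using E1.ge'.add C.he1
    exact C.sub_InE1_of_nonsing hxy hx
      (nonsing_red C.tt C.two C.a1 hxy.1 E1 E2 (hx.sub C.he3))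

/-- Existence of a fixed point with prescribed fixed `x`-coordinate. -/
lemma exists_fixed_point (σe2 : σ e2 = e2) (σe3 : σ e3 = e3) (σa1 : σ W.a₁ = W.a₁)
    (σa3 : σ W.a₃ = W.a₃) (hΔ : W.Δ ≠ 0) (hsqrt : ∀ x : K, ∃ y, y ^ 2 = x)
    {d : ℚ} (hd : 0 < d) {ξ0 : K} (σξ0 : σ ξ0 = ξ0) (E0 : V.EQ d ξ0)
    (E0' : V.EQ d (ξ0 + (e1 - e2))) :
    ∃ P0 : W.Point, P0 ≠ 0 ∧ xi e1 P0 = ξ0 ∧ Φ P0 = P0 := by
  have E4 := four_EQ C.two
  have Eβ : V.EQ 0 (ξ0 + (e1 - e3)) := QVal.EQ.gt_add (E0.gt hd) h13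
  obtain ⟨γ, hγ⟩ := hsqrt (4 * (ξ0 + (e1 - e2)) * (ξ0 + (e1 - e3)) / ξ0)
  have Eu : V.EQ 0 (4 * (ξ0 + (e1 - e2)) * (ξ0 + (e1 - e3)) / ξ0) :=
    (((E4.mul E0').mul Eβ).div E0).congr (by ring)
  have Eγ : V.EQ 0 γ := by
    apply QVal.EQ.of_sq
    rw [hγ]; simpa using Eu
  have σγ : σ γ = γ := by
    have h1 : σ γ ^ 2 = γ ^ 2 := by
      rw [← map_pow, hγ]
      simp only [map_div₀, map_mul, map_add, map_sub, σξ0, C.σe1, σe2, σe3, map_ofNat]
    have h2 : (σ γ - γ) * (σ γ + γ) = 0 := by linear_combination h1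
    rcases mul_eq_zero.mp h2 with h3 | h3
    · exact sub_eq_zero.mp h3
    · exfalso
      have h4 : σ γ - γ = -(2 * γ) := by linear_combination h3
      have h5 := C.σm γ Eγ.ge'
      rw [h4] at h5
      have h6 : V.EQ 0 (-(2 * γ)) := by simpa using (C.two.mul Eγ).neg
      exact h6.not_gt le_rfl h5
  have h2ne : (2 : K) ≠ 0 := two_ne_zero
  set x0 := ξ0 + e1 with hx0
  set y0 := (ξ0 * γ - W.a₁ * x0 - W.a₃) / 2 with hy0
  have hη : 2 * y0 + W.a₁ * x0 + W.a₃ = ξ0 * γ := by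
    rw [hy0]; field_simp; ring
  have heq : W.Equation x0 y0 := by
    rw [equation_iff]
    have hb2 := C.tt.hb2
    have hb4 := C.tt.hb4
    have hb6 := C.tt.hb6
    simp only [WeierstrassCurve.b₂, WeierstrassCurve.b₄, WeierstrassCurve.b₆] at hb2 hb4 hb6
    have hsq : (2 * y0 + W.a₁ * x0 + W.a₃) ^ 2 =
        4 * ξ0 * (ξ0 + (e1 - e2)) * (ξ0 + (e1 - e3)) := by
      rw [hη, mul_pow, hγ]
      field_simp [E0.1]
    have h4ne : (4 : K) ≠ 0 := by norm_num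
    apply mul_left_cancel₀ h4ne
    have hξ : ξ0 = x0 - e1 := by rw [hx0]; ring
    rw [hξ] at hsq
    linear_combination hsq - x0 ^ 2 * hb2 - 2 * x0 * hb4 - hb6
  have hns : W.Nonsingular x0 y0 := (equation_iff_nonsingular_of_Δ_ne_zero hΔ).mp heq
  refine ⟨.some x0 y0 hns, Point.some_ne_zero _, by rw [xi_some, hx0]; ring, ?_⟩
  obtain ⟨h', hΦ⟩ := C.Φsome x0 y0 hns
  rw [hΦ, Point.some.injEq]
  have σx0 : σ x0 = x0 := by rw [hx0, map_add, σξ0, C.σe1]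
  refine ⟨σx0, ?_⟩
  rw [hy0]
  simp only [map_div₀, map_sub, map_mul, σξ0, σγ, σa1, σa3, σx0, map_ofNat]

/-- **Multiplicative reduction** with `p ∣ v(Δ)`: `p`-torsion points are fixed. -/
theorem Φ_eq_of_mult (σe2 : σ e2 = e2) (σe3 : σ e3 = e3) (σa1 : σ W.a₁ = W.a₁)
    (σa3 : σ W.a₃ = W.a₃) (hΔ : W.Δ ≠ 0) (hsqrt : ∀ x : K, ∃ y, y ^ 2 = x)
    {p : ℕ} (hp : p.Prime) (hp2 : p ≠ 2) (hpu : V.EQ 0 (p : K))
    {b0 : K} (hb0 : b0 ≠ 0) (σb0 : σ b0 = b0) (hb : h = p * V.w b0)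
    {S : W.Point} (hS : p • S = 0) : Φ S = S := by
  by_cases hS0 : S = 0
  · rw [hS0, map_zero]
  haveI : Fact p.Prime := ⟨hp⟩
  have hord : addOrderOf S = p := addOrderOf_eq_prime hS hS0
  have hξS : xi e1 S ≠ 0 := by
    have := left_ne_zero_of_mul (left_ne_zero_of_mul
      (two_div_ne_zero_of_lt (e1 := e1) C.tt hord hp hp2 (m := 1) one_pos hp.one_lt))
    rwa [one_nsmul] at this
  apply C.Φ_eq_of_InE1 hpu hS
  by_cases hd : 0 < V.w (xi e1 S)
  swap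
  · exact C.sub_InE1_of_not_GT hh h12 h13 hS0 (QVal.not_GT_iff.mpr ⟨hξS, not_lt.mp hd⟩)
  obtain ⟨J, hJ⟩ := exists_mul_comp_eq C.tt hh h12 h13 C.two hord hp hp2 hd
  rw [comp_of_ne_zero hS0] at hJ
  have hp0 : (p : ℚ) ≠ 0 := by exact_mod_cast hp.ne_zero
  have hdJ : cl h (V.w (xi e1 S)) = 2 * J * V.w b0 := by
    apply mul_left_cancel₀ hp0
    rw [hJ, hb]; ring
  -- choose the fixed `x`-coordinate
  have hex : ∃ ξ0 : K, σ ξ0 = ξ0 ∧ V.EQ (cl h (V.w (xi e1 S))) ξ0 ∧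
      V.EQ (cl h (V.w (xi e1 S))) (ξ0 + (e1 - e2)) := by
    rcases le_or_gt h (V.w (xi e1 S)) with hc | hc
    · refine ⟨e1 - e2, by rw [map_sub, C.σe1, σe2], ?_, ?_⟩
      · rw [cl_of_ge hh.le hc]; exact h12
      · rw [cl_of_ge hh.le hc]
        have : e1 - e2 + (e1 - e2) = 2 * (e1 - e2) := by ring
        rw [this]; simpa using C.two.mul h12
    · have E0 : V.EQ (cl h (V.w (xi e1 S))) (b0 ^ (2 * J)) :=
        ⟨zpow_ne_zero _ hb0, by rw [V.w_zpow hb0, hdJ]; push_cast; ring⟩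
      refine ⟨b0 ^ (2 * J), by rw [map_zpow₀, σb0], E0, ?_⟩
      refine E0.add_gt (h12.gt ?_)
      rw [cl_of_mem hd.le hc.le]; exact hc
  obtain ⟨ξ0, σξ0, E0, E0'⟩ := hex
  have hdpos : 0 < cl h (V.w (xi e1 S)) := by
    rcases le_or_gt h (V.w (xi e1 S)) with hc | hc
    · rw [cl_of_ge hh.le hc]; exact hh
    · rw [cl_of_mem hd.le hc.le]; exact hd
  obtain ⟨P0, hP0, hξP0, hΦP0⟩ :=
    C.exists_fixed_point hh h12 h13 σe2 σe3 σa1 σa3 hΔ hsqrt hdpos σξ0 E0 E0'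
  by_cases hx : xi e1 S = xi e1 P0
  · left
    rcases eq_or_eq_neg_of_xi_eq hS0 hP0 hx with h1 | h1
    · rw [h1, hΦP0, sub_self]
    · rw [h1, map_neg, hΦP0, sub_self]
  obtain ⟨hadd, hsub, hprod, hsum⟩ := add_sub_formula C.tt hS0 hP0 hx
  have hcl : cl h (V.w (xi e1 S)) = cl h (V.w (xi e1 P0)) := by
    rw [hξP0, E0.2, cl_of_mem (cl_nonneg _ _) (cl_le hh.le _)]
  have hwP0 : 0 < V.w (xi e1 P0) := by rw [hξP0, E0.2]; exact hdpos
  rcases comp_same hh h12 h13 C.two hprod hsum hξS (by rw [hξP0]; exact E0.1)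
    (sub_ne_zero.mpr hx) hwP0 hcl with hR | hR
  · have := C.sub_InE1_of_not_GT hh h12 h13 hadd hR
    rw [map_add, hΦP0] at this
    rwa [show Φ S + P0 - (S + P0) = Φ S - S by abel] at this
  · have := C.sub_InE1_of_not_GT hh h12 h13 hsub hR
    rw [map_sub, hΦP0] at this
    rwa [show Φ S - P0 - (S - P0) = Φ S - S by abel] at this

end mult

end Ctx

end Fermat.Agent.S05
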