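import Mathlib

/-!
# x-only addition formulas on a Weierstrass curve with full two-torsion
-/

set_option autoImplicit false

universe u

namespace Fermat.Agent.S05

open WeierstrassCurve WeierstrassCurve.Affine

variable {K : Type u} [Field K]

/-- The two-division polynomial `4x³ + b₂x² + 2b₄x + b₆` splits as `4(x-e1)(x-e2)(x-e3)`. -/
structure TwoTors (W : Affine K) (e1 e2 e3 : K) : Prop where
  hb2 : W.b₂ = -4 * (e1 + e2 + e3)
  hb4 : W.b₄ = 2 * (e1 * e2 + e1 * e3 + e2 * e3)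
  hb6 : W.b₆ = -4 * (e1 * e2 * e3)

/-- The `x`-coordinate of a point, shifted by `e` (junk value `0` at the origin). -/
def xi {W : Affine K} (e : K) : W.Point → K
  | .zero => 0
  | .some x _ _ => x - e

@[simp] lemma xi_zero {W : Affine K} (e : K) : xi e (0 : W.Point) = 0 := rfl

@[simp] lemma xi_some {W : Affine K} (e : K) {x y : K} (h : W.Nonsingular x y) :
    xi e (Point.some x y h) = x - e := rfl

@[simp] lemma xi_neg {W : Affine K} (e : K) (P : W.Point) : xi e (-P) = xi e P := by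
  cases P <;> rfl

/-- `η² = 4(x-e1)(x-e2)(x-e3)` with `η = 2y + a₁x + a₃`. -/
lemma TwoTors.eta_sq {W : Affine K} {e1 e2 e3 : K} (hW : TwoTors W e1 e2 e3) {x y : K}
    (h : W.Equation x y) :
    (2 * y + W.a₁ * x + W.a₃) ^ 2 =
      4 * (x - e1) * ((x - e1) + (e1 - e2)) * ((x - e1) + (e1 - e3)) := by
  have h1 := (equation_iff x y).mp h
  have h2 := hW.hb2
  have h4 := hW.hb4
  have h6 := hW.hb6
  simp only [WeierstrassCurve.b₂, WeierstrassCurve.b₄, WeierstrassCurve.b₆] at h2 h4 h6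
  linear_combination 4 * h1 + x ^ 2 * h2 + 2 * x * h4 + h6

section alg

variable [CharZero K]

/-- The purely algebraic content of the addition-subtraction formulas. -/
lemma kummer_alg (ξ1 ξ2 η1 η2 α β ξp ξm : K) (hD : ξ1 - ξ2 ≠ 0)
    (h1 : η1 ^ 2 = 4 * ξ1 * (ξ1 + α) * (ξ1 + β)) (h2 : η2 ^ 2 = 4 * ξ2 * (ξ2 + α) * (ξ2 + β))
    (hp : 4 * ξp * (ξ1 - ξ2) ^ 2 = (η1 - η2) ^ 2 - 4 * (α + β + ξ1 + ξ2) * (ξ1 - ξ2) ^ 2)
    (hm : 4 * ξm * (ξ1 - ξ2) ^ 2 = (η1 + η2) ^ 2 - 4 * (α + β + ξ1 + ξ2) * (ξ1 - ξ2) ^ 2) :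
    ξp * ξm * (ξ1 - ξ2) ^ 2 = (ξ1 * ξ2 - α * β) ^ 2 ∧
    (ξp + ξm) * (ξ1 - ξ2) ^ 2 =
      2 * ξ1 * ξ2 * (ξ1 + ξ2) + 4 * (α + β) * ξ1 * ξ2 + 2 * α * β * (ξ1 + ξ2) := by
  constructor
  · have hD2 : (16 : K) * (ξ1 - ξ2) ^ 2 ≠ 0 := mul_ne_zero (by norm_num) (pow_ne_zero 2 hD)
    apply mul_right_cancel₀ hD2
    linear_combination (4 * ξm * (ξ1 - ξ2) ^ 2) * hp +
      ((η1 - η2) ^ 2 - 4 * (α + β + ξ1 + ξ2) * (ξ1 - ξ2) ^ 2) * hm +
      ((η1 ^ 2 + 4 * ξ1 * (ξ1 + α) * (ξ1 + β)) - 2 * η2 ^ 2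
        - 8 * (α + β + ξ1 + ξ2) * (ξ1 - ξ2) ^ 2) * h1 +
      ((η2 ^ 2 + 4 * ξ2 * (ξ2 + α) * (ξ2 + β)) - 2 * (4 * ξ1 * (ξ1 + α) * (ξ1 + β))
        - 8 * (α + β + ξ1 + ξ2) * (ξ1 - ξ2) ^ 2) * h2
  · linear_combination (1 / 4 : K) * hp + (1 / 4 : K) * hm + (1 / 2 : K) * h1 + (1 / 2 : K) * h2

end alg

variable [DecidableEq K] [CharZero K]

/-- Addition and subtraction formulas for the shifted `x`-coordinates. -/
theorem add_sub_formula {W : Affine K} {e1 e2 e3 : K} (hW : TwoTors W e1 e2 e3)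
    {P Q : W.Point} (hP : P ≠ 0) (hQ : Q ≠ 0) (hx : xi e1 P ≠ xi e1 Q) :
    P + Q ≠ 0 ∧ P - Q ≠ 0 ∧
    xi e1 (P + Q) * xi e1 (P - Q) * (xi e1 P - xi e1 Q) ^ 2 =
      (xi e1 P * xi e1 Q - (e1 - e2) * (e1 - e3)) ^ 2 ∧
    (xi e1 (P + Q) + xi e1 (P - Q)) * (xi e1 P - xi e1 Q) ^ 2 =
      2 * xi e1 P * xi e1 Q * (xi e1 P + xi e1 Q)
        + 4 * ((e1 - e2) + (e1 - e3)) * xi e1 P * xi e1 Q
        + 2 * (e1 - e2) * (e1 - e3) * (xi e1 P + xi e1 Q) := by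
  rcases P with _ | ⟨x1, y1, h1⟩
  · exact absurd rfl hP
  rcases Q with _ | ⟨x2, y2, h2⟩
  · exact absurd rfl hQ
  simp only [xi_some] at hx ⊢
  have hx' : x1 ≠ x2 := fun h => hx (by rw [h])
  have hD : x1 - x2 ≠ 0 := sub_ne_zero.mpr hx'
  rw [sub_eq_add_neg, Point.neg_some, Point.add_of_X_ne hx', Point.add_of_X_ne hx']
  refine ⟨Point.some_ne_zero _, Point.some_ne_zero _, ?_⟩
  simp only [xi_some, slope_of_X_ne hx']
  have hb2 := hW.hb2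
  simp only [WeierstrassCurve.b₂] at hb2
  have key := kummer_alg (x1 - e1) (x2 - e1) (2 * y1 + W.a₁ * x1 + W.a₃)
    (2 * y2 + W.a₁ * x2 + W.a₃) (e1 - e2) (e1 - e3)
    (W.addX x1 x2 ((y1 - y2) / (x1 - x2)) - e1)
    (W.addX x1 x2 ((y1 - W.negY x2 y2) / (x1 - x2)) - e1)
    (by simpa using hD) (hW.eta_sq h1.1) (hW.eta_sq h2.1)
    (by
      simp only [addX]
      field_simp
      linear_combination (-(x1 - x2) ^ 4) * hb2)
    (by
      simp only [addX, negY]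
      field_simp
      linear_combination (-(x1 - x2) ^ 4) * hb2)
  exact key

/-- The duplication formula for the shifted `x`-coordinate. -/
theorem double_formula {W : Affine K} {e1 e2 e3 : K} (hW : TwoTors W e1 e2 e3)
    {P : W.Point} (hP : P ≠ 0)
    (hη : xi e1 P * (xi e1 P + (e1 - e2)) * (xi e1 P + (e1 - e3)) ≠ 0) :
    P + P ≠ 0 ∧
    xi e1 (P + P) * (4 * xi e1 P * (xi e1 P + (e1 - e2)) * (xi e1 P + (e1 - e3))) =
      (xi e1 P ^ 2 - (e1 - e2) * (e1 - e3)) ^ 2 := by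
  rcases P with _ | ⟨x, y, h⟩
  · exact absurd rfl hP
  simp only [xi_some] at hη ⊢
  have hsq := hW.eta_sq h.1
  have hη0 : 2 * y + W.a₁ * x + W.a₃ ≠ 0 := by
    intro h0
    rw [h0] at hsq
    apply hη
    have : (4 : K) * ((x - e1) * (x - e1 + (e1 - e2)) * (x - e1 + (e1 - e3))) = 0 := by
      linear_combination -hsq
    exact (mul_eq_zero.mp this).resolve_left (by norm_num)
  have hy : y ≠ W.negY x y := by
    intro h0
    apply hη0
    simp only [negY] at h0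
    linear_combination h0
  rw [Point.add_self_of_Y_ne hy]
  refine ⟨Point.some_ne_zero _, ?_⟩
  simp only [xi_some, slope_of_Y_ne rfl hy]
  have hden : y - W.negY x y = 2 * y + W.a₁ * x + W.a₃ := by simp only [negY]; ring
  rw [hden]
  set η := 2 * y + W.a₁ * x + W.a₃ with hηdef
  set g := 3 * x ^ 2 + 2 * W.a₂ * x + W.a₄ - W.a₁ * y with hgdef
  set l := g / η with hl
  have hlη : l * η = g := by rw [hl, div_mul_cancel₀ _ hη0]
  have hb2 := hW.hb2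
  have hb4 := hW.hb4
  simp only [WeierstrassCurve.b₂, WeierstrassCurve.b₄] at hb2 hb4
  simp only [addX]
  have hG : 2 * g + W.a₁ * η = 6 * x ^ 2 + (W.a₁ ^ 2 + 4 * W.a₂) * x + (2 * W.a₄ + W.a₁ * W.a₃) := by
    rw [hgdef, hηdef]; ring
  have h4 : (4 : K) ≠ 0 := by norm_num
  apply mul_left_cancel₀ h4
  rw [← hsq]
  have e1' : 4 * ((l ^ 2 + W.a₁ * l - W.a₂ - x - x - e1) * η ^ 2) =
      (2 * g + W.a₁ * η) ^ 2 - (W.a₁ ^ 2 + 4 * W.a₂ + 8 * x + 4 * e1) * η ^ 2 := by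
    linear_combination (4 * (l * η + g) + 4 * W.a₁ * η) * hlη
  rw [e1', hG, hb2, hb4, hsq]
  ring

end Fermat.Agent.S05
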