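import Fermat.Agent.S05.QVal
import Fermat.Agent.S05.Kummer

/-!
# The kernel of reduction
-/

set_option autoImplicit false
set_option linter.unusedSectionVars false

universe u

namespace Fermat.Agent.S05

open WeierstrassCurve WeierstrassCurve.Affine

variable {K : Type u} [Field K] [DecidableEq K] [CharZero K]

/-- The point lies in the kernel of reduction. -/
def InE1 (V : QVal K) {W : Affine K} (e1 : K) (P : W.Point) : Prop :=
  P = 0 ∨ ¬ V.GE 0 (xi e1 P)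

variable {V : QVal K} {W : Affine K} {e1 e2 e3 : K}

lemma InE1.neg {P : W.Point} (h : InE1 V e1 P) : InE1 V e1 (-P) := by
  rcases h with rfl | h
  · exact Or.inl rfl
  · exact Or.inr (by rwa [xi_neg])

lemma eq_or_eq_neg_of_xi_eq {P Q : W.Point} (hP : P ≠ 0) (hQ : Q ≠ 0)
    (h : xi e1 P = xi e1 Q) : P = Q ∨ P = -Q := by
  rcases P with _ | ⟨x1, y1, h1⟩
  · exact absurd rfl hP
  rcases Q with _ | ⟨x2, y2, h2⟩
  · exact absurd rfl hQ
  simp only [xi_some] at h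
  exact Point.X_eq_iff.mp (by linear_combination h)

lemma QVal.roots_neg {ct cs : ℚ} {a b : K} (ht : V.EQ ct (a * b)) (hs : V.GE cs (a + b))
    (h1 : ct < cs) (h2 : ct < 0) : V.w a < 0 ∧ V.w b < 0 := by
  have ha : a ≠ 0 := left_ne_zero_of_mul ht.1
  have hb : b ≠ 0 := right_ne_zero_of_mul ht.1
  have hsum : V.w a + V.w b = ct := by rw [← V.map_mul _ _ ha hb]; exact ht.2
  by_contra hcon
  rw [not_and_or, not_lt, not_lt] at hcon
  rcases hcon with h | h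
  · have : V.EQ (V.w b) (a + b) := QVal.EQ.gt_add (Or.inr (by linarith)) (QVal.EQ.mk' hb)
    exact this.not_ge (by linarith) hs
  · have : V.EQ (V.w a) (a + b) := (QVal.EQ.mk' ha).add_gt (Or.inr (by linarith))
    exact this.not_ge (by linarith) hs

/-- Doubling preserves the kernel of reduction. -/
lemma InE1.double (hW : TwoTors W e1 e2 e3) (hα : V.GE 0 (e1 - e2)) (hβ : V.GE 0 (e1 - e3))
    {P : W.Point} (h : InE1 V e1 P) : InE1 V e1 (P + P) := by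
  rcases h with rfl | h
  · exact Or.inl rfl
  by_cases hP : P = 0
  · subst hP; exact Or.inl rfl
  obtain ⟨hξ0, hξ⟩ := QVal.not_GE_iff.mp h
  set ξ := xi e1 P with hξdef
  set a := V.w ξ with ha
  have Eξ : V.EQ a ξ := ⟨hξ0, rfl⟩
  have E1 : V.EQ a (ξ + (e1 - e2)) := Eξ.add_gt (hα.gt hξ)
  have E2 : V.EQ a (ξ + (e1 - e3)) := Eξ.add_gt (hβ.gt hξ)
  have h4 : (4 : K) ≠ 0 := by norm_num
  have E4 : V.EQ (V.w 4) (4 : K) := QVal.EQ.mk' h4
  have h4' : 0 ≤ V.w (4 : K) := (QVal.GE.ofNat (V := V) 4).le_w h4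
  obtain ⟨_, hform⟩ := double_formula hW hP (mul_ne_zero (mul_ne_zero hξ0 E1.1) E2.1)
  have EN : V.EQ (2 * a) (ξ ^ 2 - (e1 - e2) * (e1 - e3)) :=
    Eξ.sq.sub_gt ((hα.mul hβ).gt (by linarith))
  have := QVal.EQ.of_mul_eq hform (((E4.mul Eξ).mul E1).mul E2) EN.sq
  exact Or.inr (this.not_ge (by linarith))

/-- The kernel of reduction is closed under addition. -/
lemma InE1.add (hW : TwoTors W e1 e2 e3) (hα : V.GE 0 (e1 - e2)) (hβ : V.GE 0 (e1 - e3))
    {P Q : W.Point} (hP : InE1 V e1 P) (hQ : InE1 V e1 Q) : InE1 V e1 (P + Q) := by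
  by_cases hP0 : P = 0
  · subst hP0; simpa using hQ
  by_cases hQ0 : Q = 0
  · subst hQ0; simpa using hP
  by_cases hx : xi e1 P = xi e1 Q
  · rcases eq_or_eq_neg_of_xi_eq hP0 hQ0 hx with rfl | rfl
    · exact hP.double hW hα hβ
    · exact Or.inl (by simp)
  obtain ⟨hp0, hp⟩ := QVal.not_GE_iff.mp (hP.resolve_left hP0)
  obtain ⟨hq0, hq⟩ := QVal.not_GE_iff.mp (hQ.resolve_left hQ0)
  obtain ⟨_, _, hprod, hsum⟩ := add_sub_formula hW hP0 hQ0 hx
  set ξ1 := xi e1 P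
  set ξ2 := xi e1 Q
  set a := V.w ξ1
  set b := V.w ξ2
  have E1 : V.EQ a ξ1 := ⟨hp0, rfl⟩
  have E2 : V.EQ b ξ2 := ⟨hq0, rfl⟩
  have hD : ξ1 - ξ2 ≠ 0 := sub_ne_zero.mpr hx
  have ED : V.EQ (V.w (ξ1 - ξ2)) (ξ1 - ξ2) := QVal.EQ.mk' hD
  have hδ : min a b ≤ V.w (ξ1 - ξ2) :=
    ((E1.ge (min_le_left a b)).sub (E2.ge (min_le_right a b))).le_w hD
  have hS : V.GE (min a b) (ξ1 + ξ2) := (E1.ge (min_le_left a b)).add (E2.ge (min_le_right a b))
  have hmin : min a b < 0 := lt_of_le_of_lt (min_le_left a b) hp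
  have hmin1 : min a b ≤ a := min_le_left a b
  have hmin2 : min a b ≤ b := min_le_right a b
  have hab : a + b < min a b := by
    rcases min_choice a b with h | h <;> rw [h] <;> linarith
  have ENt : V.EQ (a + b) (ξ1 * ξ2 - (e1 - e2) * (e1 - e3)) :=
    (E1.mul E2).sub_gt ((hα.mul hβ).gt (by linarith))
  have Et := QVal.EQ.of_mul_eq hprod ED.sq ENt.sq
  have G2 : V.GE 0 (2 : K) := QVal.GE.ofNat 2
  have G4 : V.GE 0 (4 : K) := QVal.GE.ofNat 4
  have ENs : V.GE (a + b + min a b)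
      (2 * ξ1 * ξ2 * (ξ1 + ξ2) + 4 * ((e1 - e2) + (e1 - e3)) * ξ1 * ξ2
        + 2 * (e1 - e2) * (e1 - e3) * (ξ1 + ξ2)) := by
    refine QVal.GE.add (QVal.GE.add ?_ ?_) ?_
    · exact (((G2.mul E1.ge').mul E2.ge').mul hS).mono (by linarith)
    · exact (((G4.mul (hα.add hβ)).mul E1.ge').mul E2.ge').mono (by linarith)
    · exact (((G2.mul hα).mul hβ).mul hS).mono (by linarith)
  have Es := QVal.GE.of_mul_eq hsum ED.sq ENs
  have := QVal.roots_neg Et Es (by linarith) (by linarith)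
  exact Or.inr (QVal.not_GE_iff.mpr ⟨left_ne_zero_of_mul Et.1, this.1⟩)

lemma InE1.sub (hW : TwoTors W e1 e2 e3) (hα : V.GE 0 (e1 - e2)) (hβ : V.GE 0 (e1 - e3))
    {P Q : W.Point} (hP : InE1 V e1 P) (hQ : InE1 V e1 Q) : InE1 V e1 (P - Q) := by
  rw [sub_eq_add_neg]; exact hP.add hW hα hβ hQ.neg

lemma InE1.nsmul (hW : TwoTors W e1 e2 e3) (hα : V.GE 0 (e1 - e2)) (hβ : V.GE 0 (e1 - e3))
    {P : W.Point} (hP : InE1 V e1 P) (n : ℕ) : InE1 V e1 (n • P) := by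
  induction n with
  | zero => exact Or.inl (by simp)
  | succ n ih => rw [succ_nsmul]; exact ih.add hW hα hβ hP

/-- Product formula in terms of `ζ = 1/ξ`, valid on the kernel of reduction. -/
lemma zeta_prod (hW : TwoTors W e1 e2 e3) (hα : V.GE 0 (e1 - e2)) (hβ : V.GE 0 (e1 - e3))
    {P Q : W.Point} (hP : InE1 V e1 P) (hQ : InE1 V e1 Q) :
    ((xi e1 P)⁻¹ - (xi e1 Q)⁻¹) ^ 2 =
      (xi e1 (P + Q))⁻¹ * (xi e1 (P - Q))⁻¹ *
        (1 - (e1 - e2) * (e1 - e3) * (xi e1 P)⁻¹ * (xi e1 Q)⁻¹) ^ 2 := by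
  by_cases hP0 : P = 0
  · subst hP0; simp; ring
  by_cases hQ0 : Q = 0
  · subst hQ0; simp; ring
  by_cases hx : xi e1 P = xi e1 Q
  · rcases eq_or_eq_neg_of_xi_eq hP0 hQ0 hx with rfl | rfl
    · simp
    · simp
  obtain ⟨hp0, hp⟩ := QVal.not_GE_iff.mp (hP.resolve_left hP0)
  obtain ⟨hq0, hq⟩ := QVal.not_GE_iff.mp (hQ.resolve_left hQ0)
  obtain ⟨_, _, hprod, _⟩ := add_sub_formula hW hP0 hQ0 hx
  set ξ1 := xi e1 P
  set ξ2 := xi e1 Q
  have E1 : V.EQ (V.w ξ1) ξ1 := ⟨hp0, rfl⟩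
  have E2 : V.EQ (V.w ξ2) ξ2 := ⟨hq0, rfl⟩
  have ENt : V.EQ (V.w ξ1 + V.w ξ2) (ξ1 * ξ2 - (e1 - e2) * (e1 - e3)) :=
    (E1.mul E2).sub_gt ((hα.mul hβ).gt (by linarith))
  have hne : xi e1 (P + Q) * xi e1 (P - Q) * (ξ1 - ξ2) ^ 2 ≠ 0 := by
    rw [hprod]; exact pow_ne_zero 2 ENt.1
  have hpq : xi e1 (P + Q) ≠ 0 := left_ne_zero_of_mul (left_ne_zero_of_mul hne)
  have hmq : xi e1 (P - Q) ≠ 0 := right_ne_zero_of_mul (left_ne_zero_of_mul hne)
  field_simp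
  linear_combination hprod

/-- Duplication formula in terms of `ζ = 1/ξ`, valid on the kernel of reduction. -/
lemma zeta_double (hW : TwoTors W e1 e2 e3) (hα : V.GE 0 (e1 - e2)) (hβ : V.GE 0 (e1 - e3))
    {P : W.Point} (hP : InE1 V e1 P) :
    (xi e1 (P + P))⁻¹ * (1 - (e1 - e2) * (e1 - e3) * ((xi e1 P)⁻¹) ^ 2) ^ 2 =
      4 * (xi e1 P)⁻¹ * (1 + (e1 - e2) * (xi e1 P)⁻¹) * (1 + (e1 - e3) * (xi e1 P)⁻¹) := by
  by_cases hP0 : P = 0
  · subst hP0; simp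
  obtain ⟨hξ0, hξ⟩ := QVal.not_GE_iff.mp (hP.resolve_left hP0)
  set ξ := xi e1 P with hξdef
  have Eξ : V.EQ (V.w ξ) ξ := ⟨hξ0, rfl⟩
  have E1 : V.EQ (V.w ξ) (ξ + (e1 - e2)) := Eξ.add_gt (hα.gt hξ)
  have E2 : V.EQ (V.w ξ) (ξ + (e1 - e3)) := Eξ.add_gt (hβ.gt hξ)
  obtain ⟨_, hform⟩ := double_formula hW hP0 (mul_ne_zero (mul_ne_zero hξ0 E1.1) E2.1)
  have EN : V.EQ (2 * V.w ξ) (ξ ^ 2 - (e1 - e2) * (e1 - e3)) :=
    Eξ.sq.sub_gt ((hα.mul hβ).gt (by linarith))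
  have hne : xi e1 (P + P) ≠ 0 := by
    intro h0
    rw [h0, zero_mul] at hform
    exact pow_ne_zero 2 EN.1 hform.symm
  field_simp
  linear_combination -hform

/-- Key estimate: `ζ(kS) ≡ k² ζ(S)` to first order. -/
lemma zeta_nsmul (hW : TwoTors W e1 e2 e3) (hα : V.GE 0 (e1 - e2)) (hβ : V.GE 0 (e1 - e3))
    {S : W.Point} (hS : InE1 V e1 S) {c : ℚ} (hc : 0 < c) (hz : V.EQ c (xi e1 S)⁻¹) (k : ℕ) :
    V.GT c ((xi e1 (k • S))⁻¹ - (k : K) ^ 2 * (xi e1 S)⁻¹) := by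
  set z := (xi e1 S)⁻¹ with hzdef
  induction k using Nat.strong_induction_on with
  | _ k ih =>
  have hGE : ∀ m : ℕ, m < k → V.GE c (xi e1 (m • S))⁻¹ := by
    intro m hm
    have h1 := (ih m hm).ge
    have h2 : V.GE c ((m : K) ^ 2 * z) := by
      simpa using ((QVal.GE.natCast (V := V) m).pow 2).mul hz.ge'
    simpa using h1.add h2
  have Gαβ : V.GE 0 ((e1 - e2) * (e1 - e3)) := by simpa using hα.mul hβ
  rcases Nat.even_or_odd' k with ⟨b, rfl | rfl⟩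
  · -- even case
    by_cases hb : b = 0
    · subst hb; simpa using QVal.GT.zero (V := V) c
    have hbk : b < 2 * b := by omega
    have hform := zeta_double hW hα hβ (hS.nsmul hW hα hβ b)
    rw [← two_nsmul, smul_smul] at hform
    set ζb := (xi e1 (b • S))⁻¹ with hζb
    set ζk := (xi e1 ((2 * b) • S))⁻¹ with hζk
    have Gb : V.GE c ζb := hGE b hbk
    have Gb0 : V.GT 0 ζb := Gb.gt hc
    have hb' := ih b hbk
    have T1 : V.GT 0 ((e1 - e2) * (e1 - e3) * ζb ^ 2) := by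
      simpa using Gαβ.mul_gt Gb0.sq
    have Eu : V.EQ 0 (1 - (e1 - e2) * (e1 - e3) * ζb ^ 2) := QVal.EQ.one.sub_gt T1
    have Eu2 : V.EQ 0 ((1 - (e1 - e2) * (e1 - e3) * ζb ^ 2) ^ 2) := by simpa using Eu.sq
    have G4 : V.GE 0 (4 : K) := QVal.GE.ofNat 4
    have Gbn : V.GE 0 (b : K) := QVal.GE.natCast b
    have hN : (ζk - ((2 * b : ℕ) : K) ^ 2 * z) * (1 - (e1 - e2) * (e1 - e3) * ζb ^ 2) ^ 2 =
        4 * (ζb - (b : K) ^ 2 * z)
        + 4 * ζb * ((e1 - e2) * ζb + (e1 - e3) * ζb + (e1 - e2) * (e1 - e3) * ζb ^ 2)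
        + 4 * (b : K) ^ 2 * z * ((e1 - e2) * (e1 - e3) * ζb ^ 2) *
            (2 - (e1 - e2) * (e1 - e3) * ζb ^ 2) := by
      push_cast
      linear_combination hform
    have N1 : V.GT c (4 * (ζb - (b : K) ^ 2 * z)) := by simpa using G4.mul_gt hb'
    have N2 : V.GT c (4 * ζb * ((e1 - e2) * ζb + (e1 - e3) * ζb
        + (e1 - e2) * (e1 - e3) * ζb ^ 2)) := by
      have h1 : V.GT 0 ((e1 - e2) * ζb + (e1 - e3) * ζb + (e1 - e2) * (e1 - e3) * ζb ^ 2) := by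
        refine QVal.GT.add (QVal.GT.add ?_ ?_) T1
        · simpa using hα.mul_gt Gb0
        · simpa using hβ.mul_gt Gb0
      simpa using (G4.mul Gb).mul_gt h1
    have N3 : V.GT c (4 * (b : K) ^ 2 * z * ((e1 - e2) * (e1 - e3) * ζb ^ 2) *
            (2 - (e1 - e2) * (e1 - e3) * ζb ^ 2)) := by
      have h2 : V.GE 0 (2 - (e1 - e2) * (e1 - e3) * ζb ^ 2) :=
        (QVal.GE.ofNat 2).sub T1.ge
      simpa using (((G4.mul (Gbn.pow 2)).mul hz.ge').mul_gt T1).mul_ge h2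
    have := QVal.GT.of_mul_eq hN Eu2 ((N1.add N2).add N3)
    simpa using this
  · -- odd case
    by_cases hb : b = 0
    · subst hb; simpa [hzdef] using QVal.GT.zero (V := V) c
    have hbk : b < 2 * b + 1 := by omega
    have hbk' : b + 1 < 2 * b + 1 := by omega
    have hform := zeta_prod hW hα hβ (hS.nsmul hW hα hβ (b + 1)) (hS.nsmul hW hα hβ b)
    have e1' : (b + 1) • S + b • S = (2 * b + 1) • S := by
      rw [← add_nsmul]; congr 1; ring
    have e2' : (b + 1) • S - b • S = S := by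
      rw [succ_nsmul]; abel
    rw [e1', e2'] at hform
    set ζb := (xi e1 (b • S))⁻¹ with hζb
    set ζb1 := (xi e1 ((b + 1) • S))⁻¹ with hζb1
    set ζk := (xi e1 ((2 * b + 1) • S))⁻¹ with hζk
    have Gb : V.GE c ζb := hGE b hbk
    have Gb1 : V.GE c ζb1 := hGE (b + 1) hbk'
    have hb' := ih b hbk
    have hb1' := ih (b + 1) hbk'
    have T1 : V.GT 0 ((e1 - e2) * (e1 - e3) * ζb1 * ζb) := by
      simpa using (Gαβ.mul_gt (Gb1.gt hc)).mul_ge (Gb.mono hc.le)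
    have Eu : V.EQ 0 (1 - (e1 - e2) * (e1 - e3) * ζb1 * ζb) := QVal.EQ.one.sub_gt T1
    have Eu2 : V.EQ 0 ((1 - (e1 - e2) * (e1 - e3) * ζb1 * ζb) ^ 2) := by simpa using Eu.sq
    set ε := (ζb1 - ((b + 1 : ℕ) : K) ^ 2 * z) - (ζb - (b : K) ^ 2 * z) with hε
    have Gε : V.GT c ε := hb1'.sub hb'
    have Gk : V.GE 0 ((2 * b + 1 : ℕ) : K) := QVal.GE.natCast _
    have G2 : V.GE 0 (2 : K) := QVal.GE.ofNat 2
    have hN : (ζk - ((2 * b + 1 : ℕ) : K) ^ 2 * z) *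
        (z * (1 - (e1 - e2) * (e1 - e3) * ζb1 * ζb) ^ 2) =
        2 * ((2 * b + 1 : ℕ) : K) * z * ε + ε ^ 2
        + ((2 * b + 1 : ℕ) : K) ^ 2 * z ^ 2 * ((e1 - e2) * (e1 - e3) * ζb1 * ζb) *
            (2 - (e1 - e2) * (e1 - e3) * ζb1 * ζb) := by
      rw [hε]
      push_cast
      linear_combination -hform
    have N1 : V.GT (2 * c) (2 * ((2 * b + 1 : ℕ) : K) * z * ε) := by
      have := ((G2.mul Gk).mul hz.ge').mul_gt Gε
      exact this.mono (by linarith)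
    have N2 : V.GT (2 * c) (ε ^ 2) := Gε.sq
    have N3 : V.GT (2 * c) (((2 * b + 1 : ℕ) : K) ^ 2 * z ^ 2 *
        ((e1 - e2) * (e1 - e3) * ζb1 * ζb) * (2 - (e1 - e2) * (e1 - e3) * ζb1 * ζb)) := by
      have h2 : V.GE 0 (2 - (e1 - e2) * (e1 - e3) * ζb1 * ζb) := G2.sub T1.ge
      have := ((((Gk.pow 2).mul hz.sq.ge').mul_gt T1).mul_ge h2)
      exact this.mono (by linarith)
    have := QVal.GT.of_mul_eq hN (hz.mul Eu2) ((N1.add N2).add N3)
    exact this.mono (by linarith)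

/-- The kernel of reduction has no torsion of order prime to the residue characteristic. -/
theorem eq_zero_of_InE1_of_nsmul_eq_zero (hW : TwoTors W e1 e2 e3) (hα : V.GE 0 (e1 - e2))
    (hβ : V.GE 0 (e1 - e3)) {S : W.Point} (hS : InE1 V e1 S) {n : ℕ} (hn : V.EQ 0 (n : K))
    (h : n • S = 0) : S = 0 := by
  by_contra hS0
  obtain ⟨hξ0, hξ⟩ := QVal.not_GE_iff.mp (hS.resolve_left hS0)
  have hz : V.EQ (-V.w (xi e1 S)) (xi e1 S)⁻¹ := (QVal.EQ.mk' hξ0).inv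
  have hc : 0 < -V.w (xi e1 S) := by linarith
  have := zeta_nsmul hW hα hβ hS hc hz n
  rw [h] at this
  simp only [xi_zero, inv_zero, zero_sub] at this
  have h2 : V.EQ (-V.w (xi e1 S)) (-((n : K) ^ 2 * (xi e1 S)⁻¹)) := by
    simpa using (hn.sq.mul hz).neg
  exact h2.not_gt le_rfl this

lemma addX_not_GE (ha1 : V.GE 0 W.a₁) (ha2 : V.GE 0 W.a₂) (he1 : V.GE 0 e1) {x1 x2 l : K}
    (hx1 : V.GE 0 x1) (hx2 : V.GE 0 x2) {c : ℚ} (hc : c < 0) (hl : V.EQ c l) :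
    ¬ V.GE 0 (W.addX x1 x2 l - e1) := by
  have : V.EQ (2 * c) (W.addX x1 x2 l - e1) := by
    simp only [addX]
    refine QVal.EQ.sub_gt (QVal.EQ.sub_gt (QVal.EQ.sub_gt (QVal.EQ.sub_gt (hl.sq.add_gt ?_) ?_) ?_) ?_) ?_
    · exact (ha1.mul hl.ge').gt (by linarith)
    · exact ha2.gt (by linarith)
    · exact hx1.gt (by linarith)
    · exact hx2.gt (by linarith)
    · exact he1.gt (by linarith)
  exact this.not_ge (by linarith)

/-- Two integral points with the same nonsingular reduction differ by an element of the kernel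
of reduction. -/
theorem InE1_sub_of_close (ha1 : V.GE 0 W.a₁) (ha2 : V.GE 0 W.a₂) (ha3 : V.GE 0 W.a₃)
    (he1 : V.GE 0 e1)
    {x y x' y' : K} (h : W.Nonsingular x y) (h' : W.Nonsingular x' y')
    (hx : V.GE 0 x) (hy : V.GE 0 y) (hxx : V.GT 0 (x' - x)) (hyy : V.GT 0 (y' - y))
    (hns : V.EQ 0 (2 * y + W.a₁ * x + W.a₃) ∨
      V.EQ 0 (3 * x ^ 2 + 2 * W.a₂ * x + W.a₄ - W.a₁ * y)) :
    InE1 V e1 (Point.some x' y' h' - Point.some x y h) := by
  have hx' : V.GE 0 x' := by simpa using hxx.ge.add hx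
  have hy' : V.GE 0 y' := by simpa using hyy.ge.add hy
  have G2 : V.GE 0 (2 : K) := QVal.GE.ofNat 2
  have Gη : V.GE 0 (2 * y + W.a₁ * x + W.a₃) := by
    refine QVal.GE.add (QVal.GE.add ?_ ?_) ha3
    · simpa using G2.mul hy
    · simpa using ha1.mul hx
  rw [sub_eq_add_neg, Point.neg_some]
  by_cases hxe : x' = x
  · subst hxe
    by_cases hye : y' = y
    · subst hye
      exact Or.inl (Point.add_of_Y_eq rfl (by simp only [negY]; ring))
    · have hy1 : y' = W.negY x' y := (Y_eq_of_X_eq h'.1 h.1 rfl).resolve_left hye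
      have hyne : y' - y ≠ 0 := sub_ne_zero.mpr hye
      have hδ : 0 < V.w (y' - y) := hyy.lt_w hyne
      have Eδ : V.EQ (V.w (y' - y)) (y' - y) := QVal.EQ.mk' hyne
      have hηeq : 2 * y + W.a₁ * x' + W.a₃ = -(y' - y) := by
        rw [hy1]; simp only [negY]; ring
      have Eg : V.EQ 0 (3 * x' ^ 2 + 2 * W.a₂ * x' + W.a₄ - W.a₁ * y) := by
        rcases hns with h1 | h1
        · exfalso
          rw [hηeq] at h1
          have := h1.2
          rw [V.w_neg hyne] at this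
          linarith
        · exact h1
      have hY : y' ≠ W.negY x' (W.negY x' y) := by rwa [negY_negY]
      rw [Point.add_of_Y_ne hY]
      refine Or.inr ?_
      rw [xi_some, slope_of_Y_ne rfl hY]
      have hden : y' - W.negY x' y' = y' - y := by rw [hy1, negY_negY]
      rw [hden]
      have Enum : V.EQ 0 (3 * x' ^ 2 + 2 * W.a₂ * x' + W.a₄ - W.a₁ * y') := by
        have : 3 * x' ^ 2 + 2 * W.a₂ * x' + W.a₄ - W.a₁ * y' =
            (3 * x' ^ 2 + 2 * W.a₂ * x' + W.a₄ - W.a₁ * y) - W.a₁ * (y' - y) := by ring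
        rw [this]
        exact Eg.sub_gt (by simpa using ha1.mul_gt hyy)
      exact addX_not_GE ha1 ha2 he1 hx' hx' (c := 0 - V.w (y' - y)) (by linarith) (Enum.div Eδ)
  · rw [Point.add_of_X_ne hxe]
    refine Or.inr ?_
    rw [xi_some, slope_of_X_ne hxe]
    have hD : x' - x ≠ 0 := sub_ne_zero.mpr hxe
    have hδ : 0 < V.w (x' - x) := hxx.lt_w hD
    have ED : V.EQ (V.w (x' - x)) (x' - x) := QVal.EQ.mk' hD
    have hn : y' - W.negY x y = (2 * y + W.a₁ * x + W.a₃) + (y' - y) := by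
      simp only [negY]; ring
    by_cases hη : V.EQ 0 (2 * y + W.a₁ * x + W.a₃)
    · have En : V.EQ 0 (y' - W.negY x y) := by rw [hn]; exact hη.add_gt hyy
      exact addX_not_GE ha1 ha2 he1 hx' hx (c := 0 - V.w (x' - x)) (by linarith) (En.div ED)
    · have Eg : V.EQ 0 (3 * x ^ 2 + 2 * W.a₂ * x + W.a₄ - W.a₁ * y) := hns.resolve_left hη
      have Eg' : V.EQ 0 (x' ^ 2 + x' * x + x ^ 2 + W.a₂ * (x' + x) + W.a₄ - W.a₁ * y') := by
        have : x' ^ 2 + x' * x + x ^ 2 + W.a₂ * (x' + x) + W.a₄ - W.a₁ * y' =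
            (3 * x ^ 2 + 2 * W.a₂ * x + W.a₄ - W.a₁ * y) +
              ((x' - x) * (x' + 2 * x + W.a₂) - W.a₁ * (y' - y)) := by ring
        rw [this]
        refine Eg.add_gt (QVal.GT.sub ?_ ?_)
        · have : V.GE 0 (x' + 2 * x + W.a₂) :=
            (hx'.add (by simpa using G2.mul hx)).add ha2
          simpa using hxx.mul_ge this
        · simpa using ha1.mul_gt hyy
      have hid : (y' - y) * (y' - W.negY x y) =
          (x' - x) * (x' ^ 2 + x' * x + x ^ 2 + W.a₂ * (x' + x) + W.a₄ - W.a₁ * y') := by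
        have q1 := (equation_iff x y).mp h.1
        have q2 := (equation_iff x' y').mp h'.1
        simp only [negY]
        linear_combination q2 - q1
      have hyne : y' - y ≠ 0 := by
        intro h0
        rw [h0, zero_mul] at hid
        exact (mul_ne_zero hD Eg'.1) hid.symm
      have hδ' : 0 < V.w (y' - y) := hyy.lt_w hyne
      have Eδ : V.EQ (V.w (y' - y)) (y' - y) := QVal.EQ.mk' hyne
      have hl : (y' - W.negY x y) / (x' - x) =
          (x' ^ 2 + x' * x + x ^ 2 + W.a₂ * (x' + x) + W.a₄ - W.a₁ * y') / (y' - y) := by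
        rw [div_eq_div_iff hD hyne]
        linear_combination hid
      rw [hl]
      exact addX_not_GE ha1 ha2 he1 hx' hx (c := 0 - V.w (y' - y)) (by linarith) (Eg'.div Eδ)

end Fermat.Agent.S05
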