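import Mathlib

/-!
# x-only addition/subtraction formulas on a Weierstrass curve (projective form)
-/

set_option autoImplicit false
set_option linter.unusedSectionVars false

namespace Fermat.Agent.S05

open WeierstrassCurve

variable {F : Type*} [Field F] [DecidableEq F] {W : Affine F}

/-- numerator of the x-coordinate: `x` for an affine point, `1` for the point at infinity. -/
def pX : W.Point → F
  | .zero => 1
  | .some x _ _ => x

/-- denominator of the x-coordinate: `1` for an affine point, `0` for the point at infinity. -/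
def pZ : W.Point → F
  | .zero => 0
  | .some _ _ _ => 1

@[simp] lemma pX_zero : pX (0 : W.Point) = 1 := rfl
@[simp] lemma pZ_zero : pZ (0 : W.Point) = 0 := rfl
@[simp] lemma pX_some {x y : F} (h : W.Nonsingular x y) : pX (Affine.Point.some x y h) = x := rfl
@[simp] lemma pZ_some {x y : F} (h : W.Nonsingular x y) : pZ (Affine.Point.some x y h) = 1 := rfl

@[simp] lemma pX_neg (P : W.Point) : pX (-P) = pX P := by
  cases P <;> rfl

@[simp] lemma pZ_neg (P : W.Point) : pZ (-P) = pZ P := by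
  cases P <;> rfl

lemma pZ_eq_zero_iff (P : W.Point) : pZ P = 0 ↔ P = 0 := by
  cases P with
  | zero => simp [← Affine.Point.zero_def]
  | some x y h => simp [pZ]

/-- the three quadratic forms of the add-sub map. -/
def asS (W : Affine F) (s t u : F) : F := s ^ 2 - W.b₄ * s * u - W.b₆ * t * u - W.b₈ * u ^ 2
def asT (W : Affine F) (s t u : F) : F := 2 * t * s + W.b₂ * s * u + W.b₄ * t * u + W.b₆ * u ^ 2
def asU (s t u : F) : F := t ^ 2 - 4 * s * u

/-- affine case `x₁ ≠ x₂`. -/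
lemma addSub_of_X_ne {x₁ x₂ y₁ y₂ : F} (h₁ : W.Equation x₁ y₁) (h₂ : W.Equation x₂ y₂)
    (hx : x₁ ≠ x₂) :
    (x₁ - x₂) ^ 2 * (W.addX x₁ x₂ (W.slope x₁ x₂ y₁ y₂) *
        W.addX x₁ x₂ (W.slope x₁ x₂ y₁ (W.negY x₂ y₂))) = asS W (x₁ * x₂) (x₁ + x₂) 1 ∧
    (x₁ - x₂) ^ 2 * (W.addX x₁ x₂ (W.slope x₁ x₂ y₁ y₂) +
        W.addX x₁ x₂ (W.slope x₁ x₂ y₁ (W.negY x₂ y₂))) = asT W (x₁ * x₂) (x₁ + x₂) 1 := by
  have hx' : x₁ - x₂ ≠ 0 := sub_ne_zero.mpr hx
  rw [Affine.equation_iff] at h₁ h₂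
  rw [Affine.slope_of_X_ne hx, Affine.slope_of_X_ne hx]
  have hA : (x₁ - x₂) ^ 2 * W.addX x₁ x₂ ((y₁ - y₂) / (x₁ - x₂)) =
      (y₁ - y₂) ^ 2 + W.a₁ * (y₁ - y₂) * (x₁ - x₂) - (W.a₂ + x₁ + x₂) * (x₁ - x₂) ^ 2 := by
    simp only [Affine.addX]
    field_simp
    ring
  have hB : (x₁ - x₂) ^ 2 * W.addX x₁ x₂ ((y₁ - W.negY x₂ y₂) / (x₁ - x₂)) =
      (y₁ - W.negY x₂ y₂) ^ 2 + W.a₁ * (y₁ - W.negY x₂ y₂) * (x₁ - x₂)
        - (W.a₂ + x₁ + x₂) * (x₁ - x₂) ^ 2 := by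
    simp only [Affine.addX]
    field_simp
    ring
  generalize W.addX x₁ x₂ ((y₁ - y₂) / (x₁ - x₂)) = A at hA ⊢
  generalize W.addX x₁ x₂ ((y₁ - W.negY x₂ y₂) / (x₁ - x₂)) = B at hB ⊢
  simp only [Affine.negY] at hB
  simp only [asS, asT, WeierstrassCurve.b₂, WeierstrassCurve.b₄,
    WeierstrassCurve.b₆, WeierstrassCurve.b₈]
  constructor
  · apply mul_left_cancel₀ (pow_ne_zero 2 hx')
    linear_combination ((x₁ - x₂) ^ 2 * B) * hA +
      ((y₁ - y₂) ^ 2 + W.a₁ * (y₁ - y₂) * (x₁ - x₂) - (W.a₂ + x₁ + x₂) * (x₁ - x₂) ^ 2) * hB +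
      (W.a₁^2*x₁*x₂ - W.a₁^2*x₂^2 + W.a₁*W.a₃*x₁ - W.a₁*W.a₃*x₂ + W.a₁*x₁*y₁ - 2*W.a₁*x₂*y₂ + 4*W.a₂*x₁*x₂ - W.a₂*x₁^2 - 2*W.a₂*x₂^2 + 2*x₁*x₂^2 + 2*x₁^2*x₂ - x₁^3 - 2*x₂^3 + W.a₃*y₁ - 2*W.a₃*y₂ + W.a₄*x₁ + y₁^2 - 2*y₂^2 + W.a₆) * h₁ + (W.a₁^2*x₁*x₂ - W.a₁^2*x₁^2 - W.a₁*W.a₃*x₁ + W.a₁*W.a₃*x₂ + W.a₁*x₂*y₂ + 4*W.a₂*x₁*x₂ - 4*W.a₂*x₁^2 - W.a₂*x₂^2 + 2*x₁*x₂^2 + 2*x₁^2*x₂ - 4*x₁^3 - x₂^3 + W.a₃*y₂ - 2*W.a₄*x₁ + W.a₄*x₂ + y₂^2 - W.a₆) * h₂
  · linear_combination hA + hB + 2 * h₁ + 2 * h₂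


/-- `η² = 4x³ + b₂x² + 2b₄x + b₆` on the curve. -/
lemma eta_sq {x y : F} (h : W.Equation x y) :
    (y - W.negY x y) ^ 2 = asT W (x * x) (x + x) 1 := by
  rw [Affine.equation_iff] at h
  simp only [Affine.negY, asT, WeierstrassCurve.b₂, WeierstrassCurve.b₄, WeierstrassCurve.b₆]
  linear_combination 4 * h

/-- the numerator of the duplication formula. -/
lemma dbl_num {x y : F} (h : W.Equation x y) :
    (3 * x ^ 2 + 2 * W.a₂ * x + W.a₄ - W.a₁ * y) ^ 2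
      + W.a₁ * (3 * x ^ 2 + 2 * W.a₂ * x + W.a₄ - W.a₁ * y) * (y - W.negY x y)
      - (W.a₂ + 2 * x) * (y - W.negY x y) ^ 2 = asS W (x * x) (x + x) 1 := by
  rw [Affine.equation_iff] at h
  simp only [Affine.negY, asS, WeierstrassCurve.b₄, WeierstrassCurve.b₆, WeierstrassCurve.b₈]
  linear_combination (- W.a₁^2 - 4*W.a₂ - 8*x) * h

/-- duplication formula. -/
lemma dbl_of_Y_ne {x y : F} (h : W.Equation x y) (hy : y ≠ W.negY x y) :
    (y - W.negY x y) ^ 2 * W.addX x x (W.slope x x y y) = asS W (x * x) (x + x) 1 := by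
  have hy' : y - W.negY x y ≠ 0 := sub_ne_zero.mpr hy
  rw [Affine.slope_of_Y_ne rfl hy, ← dbl_num h]
  simp only [Affine.addX]
  field_simp
  ring

/-- at a nonsingular 2-torsion point the numerator of the duplication formula is nonzero. -/
lemma asS_ne_zero_of_Y_eq {x y : F} (h : W.Nonsingular x y) (hy : y = W.negY x y) :
    asS W (x * x) (x + x) 1 ≠ 0 := by
  rw [← dbl_num h.1, sub_eq_zero.mpr hy]
  have h2 := (Affine.nonsingular_iff' x y).mp h
  rcases h2.2 with h3 | h3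
  · intro h0
    apply h3
    have : (3 * x ^ 2 + 2 * W.a₂ * x + W.a₄ - W.a₁ * y) ^ 2 = 0 := by linear_combination h0
    have := pow_eq_zero_iff (two_ne_zero) |>.mp this
    linear_combination -this
  · exfalso
    apply h3
    simp only [Affine.negY] at hy
    linear_combination hy

/-- **The add-sub map on x-coordinates**, in projective form, valid for all pairs of points. -/
theorem addSub (P Q : W.Point) : ∃ c : F, c ≠ 0 ∧
    pX (P + Q) * pX (P - Q) =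
      c * asS W (pX P * pX Q) (pX P * pZ Q + pZ P * pX Q) (pZ P * pZ Q) ∧
    pX (P + Q) * pZ (P - Q) + pZ (P + Q) * pX (P - Q) =
      c * asT W (pX P * pX Q) (pX P * pZ Q + pZ P * pX Q) (pZ P * pZ Q) ∧
    pZ (P + Q) * pZ (P - Q) =
      c * asU (pX P * pX Q) (pX P * pZ Q + pZ P * pX Q) (pZ P * pZ Q) := by
  rcases P with _ | ⟨x₁, y₁, h₁⟩
  · refine ⟨1, one_ne_zero, ?_, ?_, ?_⟩ <;>
      simp only [← Affine.Point.zero_def, zero_add, zero_sub, pX_neg, pZ_neg, pX_zero, pZ_zero,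
        asS, asT, asU] <;> ring
  rcases Q with _ | ⟨x₂, y₂, h₂⟩
  · refine ⟨1, one_ne_zero, ?_, ?_, ?_⟩ <;>
      simp only [← Affine.Point.zero_def, add_zero, sub_zero, pX_some, pZ_some, pX_zero, pZ_zero,
        asS, asT, asU] <;> ring
  simp only [pX_some, pZ_some, mul_one, one_mul]
  rw [sub_eq_add_neg, Affine.Point.neg_some]
  by_cases hx : x₁ = x₂
  · subst hx
    by_cases hy : y₁ = W.negY x₁ y₁
    · -- 2-torsion
      have hy2 : y₂ = y₁ := by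
        rcases Affine.Y_eq_of_X_eq h₂.1 h₁.1 rfl with h | h
        · exact h
        · rw [h, ← hy]
      subst hy2
      have e1 : Affine.Point.some x₁ y₂ h₁ + Affine.Point.some x₁ y₂ h₂ = 0 :=
        Affine.Point.add_of_Y_eq rfl hy
      have e2 : Affine.Point.some x₁ y₂ h₁ +
          Affine.Point.some x₁ (W.negY x₁ y₂) ((Affine.nonsingular_neg ..).mpr h₂) = 0 :=
        Affine.Point.add_of_Y_eq rfl (by rw [Affine.negY_negY])
      rw [e1, e2]
      have hne := asS_ne_zero_of_Y_eq h₁ hy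
      have hT : asT W (x₁ * x₁) (x₁ + x₁) 1 = 0 := by
        rw [← eta_sq h₁.1, sub_eq_zero.mpr hy]; ring
      refine ⟨(asS W (x₁ * x₁) (x₁ + x₁) 1)⁻¹, inv_ne_zero hne, ?_, ?_, ?_⟩
      · simp [hne]
      · simp [hT]
      · have : asU (x₁ * x₁) (x₁ + x₁) 1 = 0 := by simp only [asU]; ring
        simp [this]
    · have hη : y₁ - W.negY x₁ y₁ ≠ 0 := sub_ne_zero.mpr hy
      rcases Affine.Y_eq_of_X_eq h₂.1 h₁.1 rfl with h | h
      · -- Q = P
        subst h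
        have e1 := Affine.Point.add_self_of_Y_ne (h₁ := h₁) hy
        have e2 : Affine.Point.some x₁ y₂ h₁ +
            Affine.Point.some x₁ (W.negY x₁ y₂) ((Affine.nonsingular_neg ..).mpr h₂) = 0 :=
          Affine.Point.add_of_Y_eq rfl (by rw [Affine.negY_negY])
        rw [e1, e2]
        refine ⟨((y₂ - W.negY x₁ y₂) ^ 2)⁻¹, inv_ne_zero (pow_ne_zero 2 hη), ?_, ?_, ?_⟩
        · rw [← dbl_of_Y_ne h₁.1 hy]; simp only [pX_some, pX_zero]; field_simp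
        · rw [← eta_sq h₁.1]; simp only [pX_some, pZ_some, pX_zero, pZ_zero]; field_simp; ring
        · have : asU (x₁ * x₁) (x₁ + x₁) 1 = 0 := by simp only [asU]; ring
          simp [this]
      · -- Q = -P
        subst h
        have e1 : Affine.Point.some x₁ y₁ h₁ + Affine.Point.some x₁ (W.negY x₁ y₁) h₂ = 0 :=
          Affine.Point.add_of_Y_eq rfl (by rw [Affine.negY_negY])
        have e2 : Affine.Point.some x₁ y₁ h₁ + Affine.Point.some x₁ (W.negY x₁ (W.negY x₁ y₁))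
            ((Affine.nonsingular_neg ..).mpr h₂) = Affine.Point.some _ _
              (Affine.nonsingular_add h₁ h₁ (fun h => hy h.2)) := by
          have := Affine.Point.add_self_of_Y_ne (h₁ := h₁) hy
          simp only [Affine.negY_negY]
          exact this
        rw [e1, e2]
        refine ⟨((y₁ - W.negY x₁ y₁) ^ 2)⁻¹, inv_ne_zero (pow_ne_zero 2 hη), ?_, ?_, ?_⟩
        · rw [← dbl_of_Y_ne h₁.1 hy]; simp only [pX_some, pX_zero]; field_simp
        · rw [← eta_sq h₁.1]; simp only [pX_some, pZ_some, pX_zero, pZ_zero]; field_simp; ring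
        · have : asU (x₁ * x₁) (x₁ + x₁) 1 = 0 := by simp only [asU]; ring
          simp [this]
  · have hx' : x₁ - x₂ ≠ 0 := sub_ne_zero.mpr hx
    rw [Affine.Point.add_of_X_ne hx, Affine.Point.add_of_X_ne hx]
    obtain ⟨hS, hT⟩ := addSub_of_X_ne h₁.1 h₂.1 hx
    refine ⟨((x₁ - x₂) ^ 2)⁻¹, inv_ne_zero (pow_ne_zero 2 hx'), ?_, ?_, ?_⟩
    · rw [← hS]; simp only [pX_some]; field_simp
    · rw [← hT]; simp only [pX_some, pZ_some]; field_simp
    · simp only [pZ_some, asU]; field_simp; ring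

end Fermat.Agent.S05
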