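import Mathlib
import Fermat.Agent.S05.XOnly

/-!
# The kernel of reduction has no `n`-torsion for `n` a unit (x-only proof)

For `S` with `x(S) ∉ A` put `t = 1 / x(S)`.  Then `1 / x(k S) = t (k² + ε_k)` with `ε_k` in the
maximal ideal, by induction on `k` from the formula for `x(P+Q) + x(P-Q)`.
-/

set_option autoImplicit false
set_option linter.unusedSectionVars false

namespace Fermat.Agent.S05

open WeierstrassCurve

variable {K : Type*} [Field K] [DecidableEq K] {W : Affine K} (A : ValuationSubring K)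

lemma kr_lt_add {x y : K} (hx : A.valuation x < 1) (hy : A.valuation y < 1) :
    A.valuation (x + y) < 1 := A.valuation.map_add_lt hx hy

lemma kr_lt_sub {x y : K} (hx : A.valuation x < 1) (hy : A.valuation y < 1) :
    A.valuation (x - y) < 1 := A.valuation.map_sub_lt hx hy

lemma kr_lt_mul {x y : K} (hx : A.valuation x < 1) (hy : A.valuation y ≤ 1) :
    A.valuation (x * y) < 1 := by
  rw [map_mul]
  exact mul_lt_one_of_lt_of_le hx hy

lemma kr_le_mul {x y : K} (hx : A.valuation x ≤ 1) (hy : A.valuation y ≤ 1) :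
    A.valuation (x * y) ≤ 1 := by
  rw [map_mul]
  exact mul_le_one' hx hy

lemma kr_le_pow {x : K} (hx : A.valuation x ≤ 1) (n : ℕ) :
    A.valuation (x ^ n) ≤ 1 := by
  rw [map_pow]
  exact pow_le_one' hx n

lemma kr_le_add {x y : K} (hx : A.valuation x ≤ 1) (hy : A.valuation y ≤ 1) :
    A.valuation (x + y) ≤ 1 := A.valuation.map_add_le hx hy

/-- one step: the sum formula in the kernel of reduction. -/
theorem kernelRed_step (hb₂ : W.b₂ ∈ A) (hb₄ : W.b₄ ∈ A) (hb₆ : W.b₆ ∈ A) (hb₈ : W.b₈ ∈ A)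
    {t : K} (ht : A.valuation t < 1) (ht0 : t ≠ 0) (P Q : W.Point)
    (hQX : pX Q ≠ 0) (hQ : pZ Q = pX Q * t)
    (hPX : pX P ≠ 0) {α : K} (hα : A.valuation α ≤ 1) (hP : pZ P = pX P * (t * α)) :
    pX (P + Q) ≠ 0 ∧ pX (P - Q) ≠ 0 ∧ ∃ β γ : K, pZ (P + Q) = pX (P + Q) * (t * β) ∧
      pZ (P - Q) = pX (P - Q) * (t * γ) ∧ A.valuation (β + γ - 2 * (α + 1)) < 1 := by
  obtain ⟨c, hc, hS, hT, -⟩ := addSub P Q
  rw [← A.valuation_le_one_iff] at hb₂ hb₄ hb₆ hb₈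
  set M := pX P * pX Q with hM
  have hM0 : M ≠ 0 := mul_ne_zero hPX hQX
  set E : K := W.b₄ * t * α + W.b₆ * t ^ 2 * ((1 + α) * α) + W.b₈ * t ^ 3 * α ^ 2 with hE
  set N' : K := W.b₂ * α + W.b₄ * t * ((1 + α) * α) + W.b₆ * t ^ 2 * α ^ 2 with hN'
  have ht1 : A.valuation t ≤ 1 := ht.le
  have h1 : A.valuation (1 : K) ≤ 1 := by simp
  have hE1 : A.valuation E ≤ 1 := by
    rw [hE]
    repeat' first | assumption | apply kr_le_add | apply kr_le_mul | apply kr_le_pow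
  have hN1 : A.valuation N' ≤ 1 := by
    rw [hN']
    repeat' first | assumption | apply kr_le_add | apply kr_le_mul | apply kr_le_pow
  have hSe : asS W (pX P * pX Q) (pX P * pZ Q + pZ P * pX Q) (pZ P * pZ Q) = M ^ 2 * (1 - t * E) := by
    rw [hP, hQ, hE, hM]; simp only [asS]; ring
  have hTe : asT W (pX P * pX Q) (pX P * pZ Q + pZ P * pX Q) (pZ P * pZ Q)
      = M ^ 2 * (t * (2 * (α + 1) + t * N')) := by
    rw [hP, hQ, hN', hM]; simp only [asT]; ring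
  rw [hSe] at hS
  rw [hTe] at hT
  have htE : A.valuation (t * E) < 1 := kr_lt_mul A ht hE1
  have hD : A.valuation (1 - t * E) = 1 := by
    have := A.valuation.map_sub_eq_of_lt_left (x := 1) (y := t * E) (by simpa using htE)
    simpa using this
  have hD0 : 1 - t * E ≠ 0 := by
    intro h; rw [h] at hD; simp at hD
  have hprod : pX (P + Q) * pX (P - Q) ≠ 0 := by
    rw [hS]; exact mul_ne_zero hc (mul_ne_zero (pow_ne_zero 2 hM0) hD0)
  have hX1 : pX (P + Q) ≠ 0 := left_ne_zero_of_mul hprod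
  have hX2 : pX (P - Q) ≠ 0 := right_ne_zero_of_mul hprod
  refine ⟨hX1, hX2, pZ (P + Q) / (pX (P + Q) * t), pZ (P - Q) / (pX (P - Q) * t), ?_, ?_, ?_⟩
  · field_simp
  · field_simp
  · have key : pZ (P + Q) / (pX (P + Q) * t) + pZ (P - Q) / (pX (P - Q) * t) - 2 * (α + 1)
        = t * (N' + 2 * (α + 1) * E) / (1 - t * E) := by
      have e1 : pZ (P + Q) / (pX (P + Q) * t) + pZ (P - Q) / (pX (P - Q) * t)
          = (pX (P + Q) * pZ (P - Q) + pZ (P + Q) * pX (P - Q)) / (pX (P + Q) * pX (P - Q) * t) := by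
        field_simp
        ring
      rw [e1, hS, hT]
      field_simp
      ring
    rw [key, map_div₀, hD, div_one]
    apply kr_lt_mul A ht
    have h2 : A.valuation (2 : K) ≤ 1 := by
      have : (2 : K) = 1 + 1 := by norm_num
      rw [this]; exact kr_le_add A h1 h1
    repeat' first | assumption | apply kr_le_add | apply kr_le_mul

/-- `1 / x(k S) = t (k² + ε)`. -/
theorem kernelRed_main (hb₂ : W.b₂ ∈ A) (hb₄ : W.b₄ ∈ A) (hb₆ : W.b₆ ∈ A) (hb₈ : W.b₈ ∈ A)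
    {t : K} (ht : A.valuation t < 1) (ht0 : t ≠ 0) (S : W.Point)
    (hSX : pX S ≠ 0) (hS : pZ S = pX S * t) (k : ℕ) :
    pX (k • S) ≠ 0 ∧ ∃ α : K, pZ (k • S) = pX (k • S) * (t * α) ∧
      A.valuation (α - (k : K) ^ 2) < 1 := by
  suffices H : (pX (k • S) ≠ 0 ∧ ∃ α : K, pZ (k • S) = pX (k • S) * (t * α) ∧
      A.valuation (α - (k : K) ^ 2) < 1) ∧ (pX ((k + 1) • S) ≠ 0 ∧ ∃ α : K,
      pZ ((k + 1) • S) = pX ((k + 1) • S) * (t * α) ∧
      A.valuation (α - ((k + 1 : ℕ) : K) ^ 2) < 1) from H.1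
  induction k with
  | zero =>
    refine ⟨⟨by simp, 0, by simp, by simp⟩, ⟨by simpa using hSX, 1, by simpa using hS, by simp⟩⟩
  | succ k ih =>
    obtain ⟨⟨hX0, α₀, hα₀, hv₀⟩, ⟨hX1, α₁, hα₁, hv₁⟩⟩ := ih
    refine ⟨⟨hX1, α₁, hα₁, hv₁⟩, ?_⟩
    have hnat : ∀ m : ℕ, A.valuation (m : K) ≤ 1 := fun m => by
      rw [A.valuation_le_one_iff]; exact natCast_mem A m
    have hα₁' : A.valuation α₁ ≤ 1 := by
      have : α₁ = (α₁ - ((k + 1 : ℕ) : K) ^ 2) + ((k + 1 : ℕ) : K) ^ 2 := by ring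
      rw [this]
      refine kr_le_add A hv₁.le ?_
      rw [pow_two]; exact kr_le_mul A (hnat _) (hnat _)
    obtain ⟨hY1, hY2, β, γ, hβ, hγ, hv⟩ :=
      kernelRed_step A hb₂ hb₄ hb₆ hb₈ ht ht0 ((k + 1) • S) S hSX hS hX1 hα₁' hα₁
    have e1 : (k + 1) • S + S = (k + 1 + 1) • S := (succ_nsmul S (k + 1)).symm
    have e2 : (k + 1) • S - S = k • S := by rw [succ_nsmul]; abel
    rw [e1] at hY1 hβ
    rw [e2] at hγ
    have hγα : γ = α₀ := by
      have : pX (k • S) * (t * γ) = pX (k • S) * (t * α₀) := by rw [← hγ, ← hα₀]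
      exact mul_left_cancel₀ ht0 (mul_left_cancel₀ hX0 this)
    subst hγα
    refine ⟨hY1, β, hβ, ?_⟩
    have : β - ((k + 1 + 1 : ℕ) : K) ^ 2 = (β + γ - 2 * (α₁ + 1))
        + ((α₁ - ((k + 1 : ℕ) : K) ^ 2) + (α₁ - ((k + 1 : ℕ) : K) ^ 2)) - (γ - (k : K) ^ 2) := by
      push_cast; ring
    rw [this]
    exact kr_lt_sub A (kr_lt_add A hv (kr_lt_add A hv₁ hv₁)) hv₀

/-- **F1**: the kernel of reduction has no `n`-torsion when `n` is a unit of `A`
(only integrality of the `b`-invariants is needed). -/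
theorem kernelRed_nsmul_ne_zero (hb₂ : W.b₂ ∈ A) (hb₄ : W.b₄ ∈ A) (hb₆ : W.b₆ ∈ A)
    (hb₈ : W.b₈ ∈ A) {n : ℕ} (hn : A.valuation (n : K) = 1) (S : W.Point) (hS0 : S ≠ 0)
    (hS : pX S ∉ A) : n • S ≠ 0 := by
  have hZ : pZ S = 1 := by
    cases S with
    | zero => exact absurd rfl hS0
    | some x y h => rfl
  have hX0 : pX S ≠ 0 := by
    intro h; rw [h] at hS; exact hS A.zero_mem
  have hv : 1 < A.valuation (pX S) := by
    rw [← not_le, A.valuation_le_one_iff]; exact hS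
  have ht : A.valuation (pX S)⁻¹ < 1 := by
    rw [map_inv₀]; exact inv_lt_one_of_one_lt₀ hv
  obtain ⟨hX, α, hα, hvα⟩ := kernelRed_main A hb₂ hb₄ hb₆ hb₈ ht (inv_ne_zero hX0) S hX0
    (by rw [hZ]; field_simp) n
  intro h0
  rw [h0] at hα
  simp only [pZ_zero, pX_zero, one_mul] at hα
  have hα0 : α = 0 := by
    rcases mul_eq_zero.mp hα.symm with h | h
    · exact absurd h (inv_ne_zero hX0)
    · exact h
  rw [hα0, zero_sub, Valuation.map_neg, map_pow, hn] at hvα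
  simp at hvα

/-- F1 for an affine point. -/
theorem kernelRed_nsmul_some_ne_zero (hb₂ : W.b₂ ∈ A) (hb₄ : W.b₄ ∈ A) (hb₆ : W.b₆ ∈ A)
    (hb₈ : W.b₈ ∈ A) {n : ℕ} (hn : A.valuation (n : K) = 1) {x y : K} (h : W.Nonsingular x y)
    (hx : x ∉ A) : n • (Affine.Point.some x y h) ≠ 0 :=
  kernelRed_nsmul_ne_zero A hb₂ hb₄ hb₆ hb₈ hn _ (by simp) hx

/-- integrality of the `b`-invariants from that of the `a`-invariants. -/
theorem kernelRed_b_mem (ha₁ : W.a₁ ∈ A) (ha₂ : W.a₂ ∈ A) (ha₃ : W.a₃ ∈ A) (ha₄ : W.a₄ ∈ A)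
    (ha₆ : W.a₆ ∈ A) : W.b₂ ∈ A ∧ W.b₄ ∈ A ∧ W.b₆ ∈ A ∧ W.b₈ ∈ A := by
  have h2 : (2 : K) ∈ A := by exact_mod_cast natCast_mem A 2
  have h4 : (4 : K) ∈ A := by exact_mod_cast natCast_mem A 4
  simp only [WeierstrassCurve.b₂, WeierstrassCurve.b₄, WeierstrassCurve.b₆, WeierstrassCurve.b₈]
  refine ⟨?_, ?_, ?_, ?_⟩ <;>
    repeat' first
      | assumption | apply A.add_mem | apply A.sub_mem | apply A.mul_mem | apply A.pow_mem

end Fermat.Agent.S05
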