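import Mathlib
import Fermat.Agent.S05.XOnly
import Fermat.Agent.S05.Comp

/-!
# Component distance at a node: `n • S = 0` forces `n • w(X(S)) ∈ 2 w(β) ℤ`
-/

set_option autoImplicit false
set_option linter.unusedSectionVars false

namespace Fermat.Agent.S05

open WeierstrassCurve

variable {K : Type*} [Field K] [DecidableEq K] {W : Affine K}

/-- `4x³+b₂x²+2b₄x+b₆ = 4(X³+αX²+βX)` with `X = x - e`. -/
structure NodeShift (W : Affine K) (e α β : K) : Prop where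
  b₂ : W.b₂ = 4 * α - 12 * e
  b₄ : W.b₄ = 6 * e ^ 2 - 4 * α * e + 2 * β
  b₆ : W.b₆ = -4 * e ^ 3 + 4 * α * e ^ 2 - 4 * β * e
  b₈ : W.b₈ = 3 * e ^ 4 - 4 * α * e ^ 3 + 6 * β * e ^ 2 - β ^ 2

/-- shifted projective `x`-coordinate. -/
def sX (e : K) (P : W.Point) : K := pX P - e * pZ P

@[simp] lemma sX_zero (e : K) : sX e (0 : W.Point) = 1 := by simp [sX]

lemma sX_or_pZ_ne_zero (e : K) (P : W.Point) : sX e P ≠ 0 ∨ pZ P ≠ 0 := by
  cases P with
  | zero => left; simp [sX, pX, pZ]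
  | some x y h => right; simp

theorem addSub_shift {e α β : K} (h : NodeShift W e α β) (P Q : W.Point) : ∃ k : K, k ≠ 0 ∧
    sX e (P + Q) * sX e (P - Q) = k * (sX e P * sX e Q - β * (pZ P * pZ Q)) ^ 2 ∧
    sX e (P + Q) * pZ (P - Q) + pZ (P + Q) * sX e (P - Q) =
      k * (2 * ((sX e P * pZ Q + pZ P * sX e Q) * (sX e P * sX e Q + β * (pZ P * pZ Q))
        + 2 * α * (sX e P * sX e Q) * (pZ P * pZ Q))) ∧
    pZ (P + Q) * pZ (P - Q) =
      k * ((sX e P * pZ Q + pZ P * sX e Q) ^ 2 - 4 * (sX e P * sX e Q) * (pZ P * pZ Q)) := by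
  obtain ⟨k, hk, h1, h2, h3⟩ := addSub P Q
  simp only [asS, asT, asU, h.b₂, h.b₄, h.b₆, h.b₈] at h1 h2 h3
  refine ⟨k, hk, ?_, ?_, ?_⟩
  · simp only [sX]
    linear_combination h1 - e * h2 + e ^ 2 * h3
  · simp only [sX]
    linear_combination h2 - 2 * e * h3
  · simp only [sX]
    linear_combination h3

variable {Γ₀ : Type*} [LinearOrderedCommGroupWithZero Γ₀] {v : Valuation K Γ₀}
  {δ : Additive Γ₀ˣ}

theorem rel_clip {e α β : K} (h : NodeShift W e α β) (hδ : 0 < δ) (h2 : Eq' v (2 : K) 0)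
    (hα : Eq' v α 0) (hβ : Eq' v β δ) (S : W.Point) {d : Additive Γ₀ˣ}
    (hd : Clip v δ (sX e S) (pZ S) d) (k : ℕ) :
    (∀ κ, Clip v δ (sX e (k • S)) (pZ (k • S)) κ → Rel δ d (k : ℤ) κ) ∧
    (∀ κ, Clip v δ (sX e ((k + 1) • S)) (pZ ((k + 1) • S)) κ → Rel δ d ((k : ℤ) + 1) κ) := by
  induction k with
  | zero =>
    constructor
    · intro κ hκ
      rw [zero_smul, sX_zero, pZ_zero] at hκ
      rw [hκ.unique (clip_one_zero hδ.le)]
      exact Or.inl ⟨0, by simp⟩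
    · intro κ hκ
      rw [zero_add, one_smul] at hκ
      rw [hκ.unique hd]
      exact Or.inl ⟨0, by simp⟩
  | succ k ih =>
    refine ⟨by simpa using ih.2, ?_⟩
    intro κ hκ
    obtain ⟨c, hc⟩ := exists_clip (v := v) hδ.le (sX_or_pZ_ne_zero e ((k + 1) • S))
    obtain ⟨b, hb⟩ := exists_clip (v := v) hδ.le (sX_or_pZ_ne_zero e (k • S))
    obtain ⟨l, hl, hS, hT, hU⟩ := addSub_shift h ((k + 1) • S) S
    have e1 : (k + 1) • S + S = (k + 1 + 1) • S := by rw [add_smul (k + 1) 1 S, one_smul]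
    have e2 : (k + 1) • S - S = k • S := by rw [add_smul k 1 S, one_smul, add_sub_cancel_right]
    rw [e1, e2] at hS hT hU
    have := clip_pair hδ h2 hα hβ hl hS hT hU hc hd hκ hb
    have r := Rel.step (k := (k : ℤ) + 1) hδ hc.c0 hc.cδ hd.c0 hd.cδ hb.c0 hb.cδ (ih.2 c hc)
      (by simpa using ih.1 b hb) this
    simpa using r

/-- **Component distance.** -/
theorem comp_dist {e α β : K} (h : NodeShift W e α β) (hδ : 0 < δ) (h2 : Eq' v (2 : K) 0)
    (hα : Eq' v α 0) (hβ : Eq' v β δ) (S : W.Point) {d : Additive Γ₀ˣ}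
    (hd : Clip v δ (sX e S) (pZ S) d) (n : ℕ) (hn : n • S = 0) :
    ∃ N : ℤ, n • d = N • (δ + δ) := by
  have := (rel_clip h hδ h2 hα hβ S hd n).1 0 (by
    rw [hn, sX_zero, pZ_zero]; exact clip_one_zero hδ.le)
  rcases this with ⟨N, hN⟩ | ⟨N, hN⟩
  · refine ⟨N, ?_⟩
    rw [natCast_zsmul] at hN
    exact (sub_eq_zero.mp hN.symm)
  · refine ⟨N, ?_⟩
    rw [natCast_zsmul, neg_zero] at hN
    exact (sub_eq_zero.mp hN.symm)

end Fermat.Agent.S05
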