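import Mathlib

/-!
# A small calculus of rational-valued valuations

`QVal K` is a rational valued (additive) valuation on the nonzero elements of a field.
-/

set_option autoImplicit false

universe u

namespace Fermat.Agent.S05

/-- A rational valued additive valuation on a field (junk value at zero). -/
structure QVal (K : Type u) [Field K] : Type u where
  w : K → ℚ
  map_mul : ∀ x y : K, x ≠ 0 → y ≠ 0 → w (x * y) = w x + w y
  map_add : ∀ x y : K, x ≠ 0 → y ≠ 0 → x + y ≠ 0 → min (w x) (w y) ≤ w (x + y)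

namespace QVal

variable {K : Type u} [Field K] (V : QVal K)

/-- `v(x) ≥ c` -/
def GE (c : ℚ) (x : K) : Prop := x = 0 ∨ c ≤ V.w x
/-- `v(x) > c` -/
def GT (c : ℚ) (x : K) : Prop := x = 0 ∨ c < V.w x
/-- `v(x) = c` -/
def EQ (c : ℚ) (x : K) : Prop := x ≠ 0 ∧ V.w x = c

lemma w_one : V.w 1 = 0 := by
  have h := V.map_mul 1 1 one_ne_zero one_ne_zero
  rw [mul_one] at h
  linarith

lemma w_neg_one : V.w (-1) = 0 := by
  have h := V.map_mul (-1) (-1) (neg_ne_zero.mpr one_ne_zero) (neg_ne_zero.mpr one_ne_zero)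
  rw [neg_mul_neg, mul_one, V.w_one] at h
  linarith

lemma w_neg {x : K} (hx : x ≠ 0) : V.w (-x) = V.w x := by
  have h := V.map_mul (-1) x (neg_ne_zero.mpr one_ne_zero) hx
  rw [neg_one_mul, V.w_neg_one] at h
  linarith

lemma w_inv {x : K} (hx : x ≠ 0) : V.w x⁻¹ = - V.w x := by
  have h := V.map_mul x x⁻¹ hx (inv_ne_zero hx)
  rw [mul_inv_cancel₀ hx, V.w_one] at h
  linarith

lemma w_pow {x : K} (hx : x ≠ 0) (n : ℕ) : V.w (x ^ n) = n * V.w x := by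
  induction n with
  | zero => simp [V.w_one]
  | succ n ih =>
    rw [pow_succ, V.map_mul _ _ (pow_ne_zero n hx) hx, ih]
    push_cast
    ring

lemma w_zpow {x : K} (hx : x ≠ 0) (n : ℤ) : V.w (x ^ n) = n * V.w x := by
  rcases Int.eq_nat_or_neg n with ⟨m, rfl | rfl⟩
  · simpa using V.w_pow hx m
  · rw [zpow_neg, V.w_inv (zpow_ne_zero _ hx)]
    simpa using V.w_pow hx m

variable {V}

/-! ### Basic conversions -/

lemma GE.zero (c : ℚ) : V.GE c (0 : K) := Or.inl rfl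
lemma GT.zero (c : ℚ) : V.GT c (0 : K) := Or.inl rfl

lemma EQ.ne_zero {c : ℚ} {x : K} (h : V.EQ c x) : x ≠ 0 := h.1
lemma EQ.w_eq {c : ℚ} {x : K} (h : V.EQ c x) : V.w x = c := h.2

lemma EQ.mk' {x : K} (hx : x ≠ 0) : V.EQ (V.w x) x := ⟨hx, rfl⟩

lemma EQ.congr {c c' : ℚ} {x : K} (h : V.EQ c x) (hc : c = c') : V.EQ c' x := hc ▸ h

lemma EQ.ge {c c' : ℚ} {x : K} (h : V.EQ c x) (hc : c' ≤ c) : V.GE c' x :=
  Or.inr (by rw [h.2]; exact hc)

lemma EQ.ge' {c : ℚ} {x : K} (h : V.EQ c x) : V.GE c x := h.ge le_rfl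

lemma EQ.gt {c c' : ℚ} {x : K} (h : V.EQ c x) (hc : c' < c) : V.GT c' x :=
  Or.inr (by rw [h.2]; exact hc)

lemma GT.ge {c : ℚ} {x : K} (h : V.GT c x) : V.GE c x := h.imp id le_of_lt

lemma GE.mono {c c' : ℚ} {x : K} (h : V.GE c x) (hc : c' ≤ c) : V.GE c' x :=
  h.imp id (le_trans hc)

lemma GT.mono {c c' : ℚ} {x : K} (h : V.GT c x) (hc : c' ≤ c) : V.GT c' x :=
  h.imp id (lt_of_le_of_lt hc)

lemma GE.gt {c c' : ℚ} {x : K} (h : V.GE c x) (hc : c' < c) : V.GT c' x :=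
  h.imp id (lt_of_lt_of_le hc)

lemma GE.le_w {c : ℚ} {x : K} (h : V.GE c x) (hx : x ≠ 0) : c ≤ V.w x :=
  h.resolve_left hx

lemma GT.lt_w {c : ℚ} {x : K} (h : V.GT c x) (hx : x ≠ 0) : c < V.w x :=
  h.resolve_left hx

lemma not_GT_iff {c : ℚ} {x : K} : ¬ V.GT c x ↔ x ≠ 0 ∧ V.w x ≤ c := by
  unfold GT
  rw [not_or, not_lt]

lemma not_GE_iff {c : ℚ} {x : K} : ¬ V.GE c x ↔ x ≠ 0 ∧ V.w x < c := by
  unfold GE
  rw [not_or, not_le]

lemma EQ.not_gt {c c' : ℚ} {x : K} (h : V.EQ c x) (hc : c ≤ c') : ¬ V.GT c' x :=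
  not_GT_iff.mpr ⟨h.1, by rw [h.2]; exact hc⟩

lemma EQ.not_ge {c c' : ℚ} {x : K} (h : V.EQ c x) (hc : c < c') : ¬ V.GE c' x :=
  not_GE_iff.mpr ⟨h.1, by rw [h.2]; exact hc⟩

/-! ### Negation -/

lemma EQ.neg {c : ℚ} {x : K} (h : V.EQ c x) : V.EQ c (-x) :=
  ⟨neg_ne_zero.mpr h.1, by rw [V.w_neg h.1, h.2]⟩

lemma GE.neg {c : ℚ} {x : K} (h : V.GE c x) : V.GE c (-x) := by
  rcases h with rfl | h
  · simpa using GE.zero c
  · by_cases hx : x = 0
    · subst hx; simpa using GE.zero c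
    · exact Or.inr (by rw [V.w_neg hx]; exact h)

lemma GT.neg {c : ℚ} {x : K} (h : V.GT c x) : V.GT c (-x) := by
  rcases h with rfl | h
  · simpa using GT.zero c
  · by_cases hx : x = 0
    · subst hx; simpa using GT.zero c
    · exact Or.inr (by rw [V.w_neg hx]; exact h)

/-! ### Addition -/

lemma GE.add {c : ℚ} {x y : K} (hx : V.GE c x) (hy : V.GE c y) : V.GE c (x + y) := by
  by_cases hx0 : x = 0
  · subst hx0; simpa using hy
  by_cases hy0 : y = 0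
  · subst hy0; simpa using hx
  by_cases hxy : x + y = 0
  · exact Or.inl hxy
  · exact Or.inr (le_trans (le_min (hx.le_w hx0) (hy.le_w hy0)) (V.map_add x y hx0 hy0 hxy))

lemma GT.add {c : ℚ} {x y : K} (hx : V.GT c x) (hy : V.GT c y) : V.GT c (x + y) := by
  by_cases hx0 : x = 0
  · subst hx0; simpa using hy
  by_cases hy0 : y = 0
  · subst hy0; simpa using hx
  by_cases hxy : x + y = 0
  · exact Or.inl hxy
  · exact Or.inr (lt_of_lt_of_le (lt_min (hx.lt_w hx0) (hy.lt_w hy0)) (V.map_add x y hx0 hy0 hxy))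

lemma GE.sub {c : ℚ} {x y : K} (hx : V.GE c x) (hy : V.GE c y) : V.GE c (x - y) := by
  rw [sub_eq_add_neg]; exact hx.add hy.neg

lemma GT.sub {c : ℚ} {x y : K} (hx : V.GT c x) (hy : V.GT c y) : V.GT c (x - y) := by
  rw [sub_eq_add_neg]; exact hx.add hy.neg

lemma EQ.add_gt {c : ℚ} {x y : K} (hx : V.EQ c x) (hy : V.GT c y) : V.EQ c (x + y) := by
  by_cases hy0 : y = 0
  · subst hy0; simpa using hx
  have hwy := hy.lt_w hy0
  have hxy : x + y ≠ 0 := by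
    intro h
    have : y = -x := by linear_combination h
    rw [this, V.w_neg hx.1, hx.2] at hwy
    exact lt_irrefl _ hwy
  refine ⟨hxy, le_antisymm ?_ ?_⟩
  · have h := V.map_add (x + y) (-y) hxy (neg_ne_zero.mpr hy0) (by simpa using hx.1)
    rw [add_neg_cancel_right, V.w_neg hy0, hx.2] at h
    rcases min_le_iff.mp h with h | h
    · exact h
    · exact absurd h (not_le.mpr hwy)
  · have h := V.map_add x y hx.1 hy0 hxy
    rw [hx.2, min_eq_left hwy.le] at h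
    exact h

lemma EQ.gt_add {c : ℚ} {x y : K} (hx : V.GT c x) (hy : V.EQ c y) : V.EQ c (x + y) := by
  rw [add_comm]; exact hy.add_gt hx

lemma EQ.sub_gt {c : ℚ} {x y : K} (hx : V.EQ c x) (hy : V.GT c y) : V.EQ c (x - y) := by
  rw [sub_eq_add_neg]; exact hx.add_gt hy.neg

lemma EQ.gt_sub {c : ℚ} {x y : K} (hx : V.GT c x) (hy : V.EQ c y) : V.EQ c (x - y) := by
  rw [sub_eq_add_neg]; exact EQ.gt_add hx hy.neg

/-! ### Multiplication -/

lemma EQ.one : V.EQ 0 (1 : K) := ⟨one_ne_zero, V.w_one⟩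

lemma EQ.mul {c c' : ℚ} {x y : K} (hx : V.EQ c x) (hy : V.EQ c' y) : V.EQ (c + c') (x * y) :=
  ⟨mul_ne_zero hx.1 hy.1, by rw [V.map_mul _ _ hx.1 hy.1, hx.2, hy.2]⟩

lemma GE.mul {c c' : ℚ} {x y : K} (hx : V.GE c x) (hy : V.GE c' y) : V.GE (c + c') (x * y) := by
  by_cases hx0 : x = 0
  · subst hx0; simpa using GE.zero _
  by_cases hy0 : y = 0
  · subst hy0; simpa using GE.zero _
  exact Or.inr (by rw [V.map_mul _ _ hx0 hy0]; exact add_le_add (hx.le_w hx0) (hy.le_w hy0))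

lemma GT.mul_ge {c c' : ℚ} {x y : K} (hx : V.GT c x) (hy : V.GE c' y) :
    V.GT (c + c') (x * y) := by
  by_cases hx0 : x = 0
  · subst hx0; simpa using GT.zero _
  by_cases hy0 : y = 0
  · subst hy0; simpa using GT.zero _
  exact Or.inr (by rw [V.map_mul _ _ hx0 hy0]; exact add_lt_add_of_lt_of_le (hx.lt_w hx0) (hy.le_w hy0))

lemma GE.mul_gt {c c' : ℚ} {x y : K} (hx : V.GE c x) (hy : V.GT c' y) :
    V.GT (c + c') (x * y) := by
  rw [mul_comm, add_comm]; exact hy.mul_ge hx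

lemma EQ.inv {c : ℚ} {x : K} (hx : V.EQ c x) : V.EQ (-c) x⁻¹ :=
  ⟨inv_ne_zero hx.1, by rw [V.w_inv hx.1, hx.2]⟩

lemma EQ.div {c c' : ℚ} {x y : K} (hx : V.EQ c x) (hy : V.EQ c' y) : V.EQ (c - c') (x / y) := by
  rw [div_eq_mul_inv, sub_eq_add_neg]; exact hx.mul hy.inv

lemma GE.div {c c' : ℚ} {x y : K} (hx : V.GE c x) (hy : V.EQ c' y) : V.GE (c - c') (x / y) := by
  rw [div_eq_mul_inv, sub_eq_add_neg]; exact hx.mul hy.inv.ge'

lemma GT.div {c c' : ℚ} {x y : K} (hx : V.GT c x) (hy : V.EQ c' y) : V.GT (c - c') (x / y) := by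
  rw [div_eq_mul_inv, sub_eq_add_neg]; exact hx.mul_ge hy.inv.ge'

lemma EQ.pow {c : ℚ} {x : K} (hx : V.EQ c x) (n : ℕ) : V.EQ (n * c) (x ^ n) :=
  ⟨pow_ne_zero n hx.1, by rw [V.w_pow hx.1, hx.2]⟩

lemma EQ.sq {c : ℚ} {x : K} (hx : V.EQ c x) : V.EQ (2 * c) (x ^ 2) := by
  simpa using hx.pow 2

lemma GE.sq {c : ℚ} {x : K} (hx : V.GE c x) : V.GE (2 * c) (x ^ 2) := by
  rw [pow_two, two_mul]; exact hx.mul hx

lemma GT.sq {c : ℚ} {x : K} (hx : V.GT c x) : V.GT (2 * c) (x ^ 2) := by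
  rw [pow_two, two_mul]; exact hx.mul_ge hx.ge

lemma GE.pow {x : K} (hx : V.GE 0 x) (n : ℕ) : V.GE 0 (x ^ n) := by
  induction n with
  | zero => simpa using (EQ.one (V := V)).ge'
  | succ n ih => rw [pow_succ]; simpa using ih.mul hx

lemma GE.gt_of_not_EQ {c : ℚ} {x : K} (h : V.GE c x) (h' : ¬ V.EQ c x) : V.GT c x := by
  rcases h with h | h
  · exact Or.inl h
  · by_cases hx : x = 0
    · exact Or.inl hx
    · exact Or.inr (lt_of_le_of_ne h (fun he => h' ⟨hx, he.symm⟩))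

lemma EQ.of_sq {c : ℚ} {x : K} (h : V.EQ (2 * c) (x ^ 2)) : V.EQ c x := by
  have hx : x ≠ 0 := fun h0 => h.1 (by rw [h0]; simp)
  have := h.2
  rw [V.w_pow hx] at this
  push_cast at this
  exact ⟨hx, by linarith⟩

lemma GT.of_sq {c : ℚ} {x : K} (h : V.GT (2 * c) (x ^ 2)) : V.GT c x := by
  by_cases hx : x = 0
  · exact Or.inl hx
  · have := h.lt_w (pow_ne_zero 2 hx)
    rw [V.w_pow hx] at this
    push_cast at this
    exact Or.inr (by linarith)

/-- cancel a factor of known valuation -/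
lemma EQ.of_mul_eq {c c' : ℚ} {t u n : K} (h : t * u = n) (hu : V.EQ c u) (hn : V.EQ c' n) :
    V.EQ (c' - c) t := by
  have : t = n / u := by rw [← h, mul_div_cancel_right₀ _ hu.1]
  rw [this]; exact hn.div hu

lemma GE.of_mul_eq {c c' : ℚ} {t u n : K} (h : t * u = n) (hu : V.EQ c u) (hn : V.GE c' n) :
    V.GE (c' - c) t := by
  have : t = n / u := by rw [← h, mul_div_cancel_right₀ _ hu.1]
  rw [this]; exact hn.div hu

lemma GT.of_mul_eq {c c' : ℚ} {t u n : K} (h : t * u = n) (hu : V.EQ c u) (hn : V.GT c' n) :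
    V.GT (c' - c) t := by
  have : t = n / u := by rw [← h, mul_div_cancel_right₀ _ hu.1]
  rw [this]; exact hn.div hu

lemma GE.natCast (n : ℕ) : V.GE 0 (n : K) := by
  induction n with
  | zero => simpa using GE.zero (V := V) 0
  | succ n ih => push_cast; exact ih.add EQ.one.ge'

lemma GE.intCast (n : ℤ) : V.GE 0 (n : K) := by
  rcases Int.eq_nat_or_neg n with ⟨m, rfl | rfl⟩
  · simpa using GE.natCast (V := V) m
  · simpa using (GE.natCast (V := V) m).neg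

lemma GE.ofNat (n : ℕ) [n.AtLeastTwo] : V.GE 0 (OfNat.ofNat n : K) := by
  rw [← Nat.cast_ofNat (R := K)]; exact GE.natCast _

/-! ### Roots of quadratics: from `s = a + b`, `t = a * b` to `a`, `b`. -/

/-- If `v(ab) = 2c` and `v(a+b) ≥ c` then `v(a) = v(b) = c`. -/
lemma roots_eq {c : ℚ} {a b : K} (ht : V.EQ (2 * c) (a * b)) (hs : V.GE c (a + b)) :
    V.EQ c a ∧ V.EQ c b := by
  have ha : a ≠ 0 := left_ne_zero_of_mul ht.1
  have hb : b ≠ 0 := right_ne_zero_of_mul ht.1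
  have hsum : V.w a + V.w b = 2 * c := by rw [← V.map_mul _ _ ha hb]; exact ht.2
  rcases lt_trichotomy (V.w a) c with h | h | h
  · exfalso
    have : V.EQ (V.w a) (a + b) := (EQ.mk' ha).add_gt (Or.inr (by linarith))
    exact this.not_ge h hs
  · exact ⟨⟨ha, h⟩, ⟨hb, by linarith⟩⟩
  · exfalso
    have : V.EQ (V.w b) (a + b) := EQ.gt_add (Or.inr (by linarith)) (EQ.mk' hb)
    exact this.not_ge (by linarith) hs

/-- If `v(ab) ≥ 2c` and `v(a+b) ≥ c` then `v(a), v(b) ≥ c`. -/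
lemma roots_ge {c : ℚ} {a b : K} (ht : V.GE (2 * c) (a * b)) (hs : V.GE c (a + b)) :
    V.GE c a ∧ V.GE c b := by
  by_cases ha : a = 0
  · subst ha; exact ⟨GE.zero _, by simpa using hs⟩
  by_cases hb : b = 0
  · subst hb; exact ⟨by simpa using hs, GE.zero _⟩
  have hsum : 2 * c ≤ V.w a + V.w b := by
    rw [← V.map_mul _ _ ha hb]; exact ht.le_w (mul_ne_zero ha hb)
  by_contra hcon
  rw [not_and_or, not_GE_iff, not_GE_iff] at hcon
  rcases hcon with ⟨_, h⟩ | ⟨_, h⟩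
  · have : V.EQ (V.w a) (a + b) := (EQ.mk' ha).add_gt (Or.inr (by linarith))
    exact this.not_ge h hs
  · have : V.EQ (V.w b) (a + b) := EQ.gt_add (Or.inr (by linarith)) (EQ.mk' hb)
    exact this.not_ge h hs

/-- If `v(a+b) = c₁`, `v(ab) = c₁ + c₂` with `c₁ < c₂`, then `{v(a), v(b)} = {c₁, c₂}`. -/
lemma roots_split {c₁ c₂ : ℚ} {a b : K} (hc : c₁ < c₂) (hs : V.EQ c₁ (a + b))
    (ht : V.EQ (c₁ + c₂) (a * b)) :
    (V.EQ c₁ a ∧ V.EQ c₂ b) ∨ (V.EQ c₂ a ∧ V.EQ c₁ b) := by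
  have ha : a ≠ 0 := left_ne_zero_of_mul ht.1
  have hb : b ≠ 0 := right_ne_zero_of_mul ht.1
  have hsum : V.w a + V.w b = c₁ + c₂ := by rw [← V.map_mul _ _ ha hb]; exact ht.2
  rcases lt_trichotomy (V.w a) (V.w b) with h | h | h
  · have : V.EQ (V.w a) (a + b) := (EQ.mk' ha).add_gt (Or.inr h)
    have h1 : V.w a = c₁ := by rw [← this.2, hs.2]
    exact Or.inl ⟨⟨ha, h1⟩, ⟨hb, by linarith⟩⟩
  · exfalso
    have h1 : V.GE (V.w a) (a + b) := (EQ.mk' ha).ge'.add ((EQ.mk' hb).ge h.le)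
    have := h1.le_w hs.1
    rw [hs.2] at this
    linarith
  · have : V.EQ (V.w b) (a + b) := EQ.gt_add (Or.inr h) (EQ.mk' hb)
    have h1 : V.w b = c₁ := by rw [← this.2, hs.2]
    exact Or.inr ⟨⟨ha, by linarith⟩, ⟨hb, h1⟩⟩

/-- If `v(a+b) = c₁`, `v(ab) ≥ c₁ + c₂` with `c₁ < c₂`, then one root has valuation `c₁` and the
other one at least `c₂`. -/
lemma roots_split_ge {c₁ c₂ : ℚ} {a b : K} (hc : c₁ < c₂) (hs : V.EQ c₁ (a + b))
    (ht : V.GE (c₁ + c₂) (a * b)) :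
    (V.EQ c₁ a ∧ V.GE c₂ b) ∨ (V.GE c₂ a ∧ V.EQ c₁ b) := by
  by_cases ha : a = 0
  · subst ha; exact Or.inr ⟨GE.zero _, by simpa using hs⟩
  by_cases hb : b = 0
  · subst hb; exact Or.inl ⟨by simpa using hs, GE.zero _⟩
  have hsum : c₁ + c₂ ≤ V.w a + V.w b := by
    rw [← V.map_mul _ _ ha hb]; exact ht.le_w (mul_ne_zero ha hb)
  rcases lt_trichotomy (V.w a) (V.w b) with h | h | h
  · have : V.EQ (V.w a) (a + b) := (EQ.mk' ha).add_gt (Or.inr h)
    have h1 : V.w a = c₁ := by rw [← this.2, hs.2]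
    exact Or.inl ⟨⟨ha, h1⟩, Or.inr (by linarith)⟩
  · exfalso
    have h1 : V.GE (V.w a) (a + b) := (EQ.mk' ha).ge'.add ((EQ.mk' hb).ge h.le)
    have := h1.le_w hs.1
    rw [hs.2] at this
    linarith
  · have : V.EQ (V.w b) (a + b) := EQ.gt_add (Or.inr h) (EQ.mk' hb)
    have h1 : V.w b = c₁ := by rw [← this.2, hs.2]
    exact Or.inr ⟨Or.inr (by linarith), ⟨hb, h1⟩⟩

/-- If `v(ab) = c`, `v(a+b) ≥ c` and `c ≤ 0` then `v(a), v(b) ≤ 0`. -/
lemma roots_le_zero {c : ℚ} {a b : K} (hc : c ≤ 0) (ht : V.EQ c (a * b)) (hs : V.GE c (a + b)) :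
    V.w a ≤ 0 ∧ V.w b ≤ 0 := by
  have ha : a ≠ 0 := left_ne_zero_of_mul ht.1
  have hb : b ≠ 0 := right_ne_zero_of_mul ht.1
  have hsum : V.w a + V.w b = c := by rw [← V.map_mul _ _ ha hb]; exact ht.2
  by_contra hcon
  rw [not_and_or, not_le, not_le] at hcon
  rcases hcon with h | h
  · have : V.EQ (V.w b) (a + b) := EQ.gt_add (Or.inr (by linarith)) (EQ.mk' hb)
    exact this.not_ge (by linarith) hs
  · have : V.EQ (V.w a) (a + b) := (EQ.mk' ha).add_gt (Or.inr (by linarith))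
    exact this.not_ge (by linarith) hs

end QVal

end Fermat.Agent.S05
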