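import Fermat.Agent.S05.Kernel
import Fermat.Agent.S05.Component

/-!
# Torsion points and components
-/

set_option autoImplicit false
set_option linter.unusedSectionVars false

universe u

namespace Fermat.Agent.S05

open WeierstrassCurve WeierstrassCurve.Affine

variable {K : Type u} [Field K] [DecidableEq K] [CharZero K]

/-- The distance of the component of a point to the identity component. -/
def comp (V : QVal K) {W : Affine K} (e1 : K) (h : ℚ) : W.Point → ℚ
  | .zero => 0
  | .some x _ _ => cl h (V.w (x - e1))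

variable {V : QVal K} {W : Affine K} {e1 e2 e3 : K} {h : ℚ}

@[simp] lemma comp_zero : comp V e1 h (0 : W.Point) = 0 := rfl

lemma comp_of_ne_zero {P : W.Point} (hP : P ≠ 0) : comp V e1 h P = cl h (V.w (xi e1 P)) := by
  rcases P with _ | ⟨x, y, hxy⟩
  · exact absurd rfl hP
  · rfl

@[simp] lemma comp_neg (P : W.Point) : comp V e1 h (-P) = comp V e1 h P := by
  cases P <;> rfl

lemma comp_nonneg (P : W.Point) : 0 ≤ comp V e1 h P := by
  rcases P with _ | ⟨x, y, hxy⟩
  · exact le_rfl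
  · exact cl_nonneg _ _

lemma comp_le (hh : 0 ≤ h) (P : W.Point) : comp V e1 h P ≤ h := by
  rcases P with _ | ⟨x, y, hxy⟩
  · exact hh
  · exact cl_le hh _

/-- Points whose `x`-coordinate is a root of the two-division polynomial are two-torsion. -/
lemma add_self_eq_zero_of (hW : TwoTors W e1 e2 e3) {P : W.Point}
    (hη : xi e1 P * (xi e1 P + (e1 - e2)) * (xi e1 P + (e1 - e3)) = 0) : P + P = 0 := by
  rcases P with _ | ⟨x, y, hxy⟩
  · rfl
  simp only [xi_some] at hη
  have hsq := hW.eta_sq hxy.1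
  have h0 : (2 * y + W.a₁ * x + W.a₃) ^ 2 = 0 := by
    rw [hsq]; linear_combination 4 * hη
  have h1 : 2 * y + W.a₁ * x + W.a₃ = 0 := by simpa using h0
  exact Point.add_self_of_Y_eq (by simp only [negY]; linear_combination h1)

section order

variable {p : ℕ} {S : W.Point}

lemma nsmul_ne_zero_of_lt (hS : addOrderOf S = p) {m : ℕ} (h0 : 0 < m) (hm : m < p) :
    m • S ≠ 0 := by
  intro h
  have := addOrderOf_dvd_iff_nsmul_eq_zero.mpr h
  rw [hS] at this
  exact absurd (Nat.le_of_dvd h0 this) (not_le.mpr hm)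

lemma two_div_ne_zero_of_lt (hW : TwoTors W e1 e2 e3) (hS : addOrderOf S = p) (hp : p.Prime)
    (hp2 : p ≠ 2) {m : ℕ} (h0 : 0 < m) (hm : m < p) :
    xi e1 (m • S) * (xi e1 (m • S) + (e1 - e2)) * (xi e1 (m • S) + (e1 - e3)) ≠ 0 := by
  intro h
  have h1 := add_self_eq_zero_of hW h
  rw [← add_nsmul] at h1
  have h2 := addOrderOf_dvd_iff_nsmul_eq_zero.mpr h1
  rw [hS, ← two_mul] at h2
  rcases (Nat.Prime.dvd_mul hp).mp h2 with h3 | h3
  · exact hp2 ((Nat.prime_dvd_prime_iff_eq hp Nat.prime_two).mp h3)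
  · exact absurd (Nat.le_of_dvd h0 h3) (not_le.mpr hm)

/-- The component of `k • S` is `± k` times the component of `S`. -/
theorem comp_nsmul (hW : TwoTors W e1 e2 e3) (hh : 0 < h) (hα : V.EQ h (e1 - e2))
    (hβ : V.EQ 0 (e1 - e3)) (h2 : V.EQ 0 (2 : K))
    (hS : addOrderOf S = p) (hp : p.Prime) (hp2 : p ≠ 2) (hd : 0 < V.w (xi e1 S)) (k : ℕ)
    (hk : k < p) : Rel h (k * comp V e1 h S) (comp V e1 h (k • S)) := by
  induction k using Nat.strong_induction_on with
  | _ k ih =>
  match k, ih, hk with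
  | 0, _, _ => exact ⟨0, Or.inl (by simp)⟩
  | 1, _, _ => exact ⟨0, Or.inl (by simp)⟩
  | 2, _, hk =>
    have hS0 : S ≠ 0 := by simpa using nsmul_ne_zero_of_lt hS (m := 1) one_pos (by omega)
    have h2S : (2 : ℕ) • S ≠ 0 := nsmul_ne_zero_of_lt hS (by omega) hk
    have hη := two_div_ne_zero_of_lt (e1 := e1) hW hS hp hp2 (m := 1) one_pos (by omega)
    have hη2 := two_div_ne_zero_of_lt (e1 := e1) hW hS hp hp2 (m := 2) (by omega) hk
    rw [one_nsmul] at hη
    obtain ⟨_, hform⟩ := double_formula hW hS0 hη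
    rw [← two_nsmul] at hform
    have := comp_dup hh hα hβ h2 hform (left_ne_zero_of_mul (left_ne_zero_of_mul hη))
      (right_ne_zero_of_mul (left_ne_zero_of_mul hη))
      (left_ne_zero_of_mul (left_ne_zero_of_mul hη2)) hd
    rw [comp_of_ne_zero hS0, comp_of_ne_zero h2S]
    rcases this with h1 | h1
    · exact ⟨0, Or.inl (by rw [h1]; push_cast; ring)⟩
    · exact ⟨1, Or.inr (by rw [h1]; push_cast; ring)⟩
  | (k + 3), ih, hk =>
    have hS0 : S ≠ 0 := by simpa using nsmul_ne_zero_of_lt hS (m := 1) one_pos (by omega)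
    have n1 : (k + 1) • S ≠ 0 := nsmul_ne_zero_of_lt hS (by omega) (by omega)
    have n2 : (k + 2) • S ≠ 0 := nsmul_ne_zero_of_lt hS (by omega) (by omega)
    have n3 : (k + 3) • S ≠ 0 := nsmul_ne_zero_of_lt hS (by omega) (by omega)
    have x0 := left_ne_zero_of_mul (left_ne_zero_of_mul
      (two_div_ne_zero_of_lt (e1 := e1) hW hS hp hp2 (m := 1) one_pos (by omega)))
    rw [one_nsmul] at x0
    have x1 := left_ne_zero_of_mul (left_ne_zero_of_mul
      (two_div_ne_zero_of_lt (e1 := e1) hW hS hp hp2 (m := k + 1) (by omega) (by omega)))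
    have x2 := left_ne_zero_of_mul (left_ne_zero_of_mul
      (two_div_ne_zero_of_lt (e1 := e1) hW hS hp hp2 (m := k + 2) (by omega) (by omega)))
    have x3 := left_ne_zero_of_mul (left_ne_zero_of_mul
      (two_div_ne_zero_of_lt (e1 := e1) hW hS hp hp2 (m := k + 3) (by omega) (by omega)))
    have eadd : (k + 2) • S + S = (k + 3) • S := by rw [← succ_nsmul]
    have esub : (k + 2) • S - S = (k + 1) • S := by
      rw [show k + 2 = (k + 1) + 1 by ring, succ_nsmul]; abel
    have hx : xi e1 ((k + 2) • S) ≠ xi e1 S := by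
      intro hx
      rcases eq_or_eq_neg_of_xi_eq n2 hS0 hx with h1 | h1
      · exact n1 (by rw [← esub, h1, sub_self])
      · exact n3 (by rw [← eadd, h1, neg_add_cancel])
    obtain ⟨_, _, hprod, hsum⟩ := add_sub_formula hW n2 hS0 hx
    rw [eadd, esub] at hprod hsum
    have HK := comp_core hh hα hβ h2 hprod hsum x2 x0 x3 x1 (sub_ne_zero.mpr hx) hd
    have H1 := ih (k + 2) (by omega) (by omega)
    have H0 := ih (k + 1) (by omega) (by omega)
    have := Rel.step (d := comp V e1 h S) (u := ((k + 2 : ℕ) : ℚ) * comp V e1 h S)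
      (x0 := comp V e1 h ((k + 1) • S)) (x1 := comp V e1 h ((k + 2) • S))
      (x2 := comp V e1 h ((k + 3) • S)) hh
      ⟨comp_nonneg _, comp_le hh.le _⟩ ⟨comp_nonneg _, comp_le hh.le _⟩ H1
      (by
        have e : ((k + 2 : ℕ) : ℚ) * comp V e1 h S - comp V e1 h S
            = ((k + 1 : ℕ) : ℚ) * comp V e1 h S := by push_cast; ring
        rw [e]; exact H0)
      (by
        rw [comp_of_ne_zero n1, comp_of_ne_zero n2, comp_of_ne_zero n3, comp_of_ne_zero hS0]
        exact HK)
    have e : ((k + 2 : ℕ) : ℚ) * comp V e1 h S + comp V e1 h S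
        = ((k + 3 : ℕ) : ℚ) * comp V e1 h S := by push_cast; ring
    rw [e] at this
    exact this

/-- `p` times the component of a `p`-torsion point is a multiple of `2h`. -/
theorem exists_mul_comp_eq (hW : TwoTors W e1 e2 e3) (hh : 0 < h) (hα : V.EQ h (e1 - e2))
    (hβ : V.EQ 0 (e1 - e3)) (h2 : V.EQ 0 (2 : K))
    (hS : addOrderOf S = p) (hp : p.Prime) (hp2 : p ≠ 2) (hd : 0 < V.w (xi e1 S)) :
    ∃ J : ℤ, (p : ℚ) * comp V e1 h S = 2 * h * J := by
  have hp3 : 3 ≤ p := by
    have := hp.two_le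
    omega
  have hpS : p • S = 0 := by rw [← hS]; exact addOrderOf_nsmul_eq_zero S
  have e1' : (p - 1) • S = -S := by
    have : (p - 1) • S + S = 0 := by
      rw [← succ_nsmul, show p - 1 + 1 = p by omega, hpS]
    exact eq_neg_of_add_eq_zero_left this
  have e2' : (p - 2) • S = -((2 : ℕ) • S) := by
    have : (p - 2) • S + (2 : ℕ) • S = 0 := by
      rw [← add_nsmul, show p - 2 + 2 = p by omega, hpS]
    exact eq_neg_of_add_eq_zero_left this
  have R1 := comp_nsmul hW hh hα hβ h2 hS hp hp2 hd (p - 1) (by omega)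
  have R2 := comp_nsmul hW hh hα hβ h2 hS hp hp2 hd (p - 2) (by omega)
  have R3 := comp_nsmul hW hh hα hβ h2 hS hp hp2 hd 2 (by omega)
  rw [e1', comp_neg] at R1
  rw [e2', comp_neg] at R2
  have c1 : ((p - 1 : ℕ) : ℚ) = (p : ℚ) - 1 := by
    rw [Nat.cast_sub (by omega)]; simp
  have c2 : ((p - 2 : ℕ) : ℚ) = (p : ℚ) - 2 := by
    rw [Nat.cast_sub (by omega)]; simp
  rw [c1] at R1
  rw [c2] at R2
  set d := comp V e1 h S
  set x := comp V e1 h ((2 : ℕ) • S)
  have hx0 : 0 ≤ x := comp_nonneg _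
  have hxh : x ≤ h := comp_le hh.le _
  obtain ⟨j, hj | hj⟩ := R1
  · -- `(p - 2) d = 2 h j`
    have hx : x = 0 := by
      obtain ⟨i, hi | hi⟩ := R2
      · exact eq_zero_of_two_mul hh hx0 hxh (m := j - i) (by push_cast; linarith)
      · exact eq_zero_of_two_mul hh hx0 hxh (m := i - j) (by push_cast; linarith)
    obtain ⟨i, hi | hi⟩ := R3
    · exact ⟨j + i, by push_cast at hi ⊢; linarith⟩
    · exact ⟨j + i, by push_cast at hi ⊢; linarith⟩
  · exact ⟨j, by linarith⟩

end order

end Fermat.Agent.S05
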