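import Fermat.Agent.S05.QVal

/-!
# Rational valued valuations from valuations whose value group is torsion over `π^ℤ`
-/

set_option autoImplicit false
set_option linter.unusedSectionVars false

universe u v

namespace Fermat.Agent.S05

variable {K : Type u} [Field K] {Γ₀ : Type v} [LinearOrderedCommGroupWithZero Γ₀]

/-- `r` is the normalised additive valuation of `x`. -/
def IsW (v : Valuation K Γ₀) (π : Γ₀) (x : K) (r : ℚ) : Prop :=
  ∃ k : ℕ, 0 < k ∧ ∃ j : ℤ, v x ^ k = π ^ j ∧ r = j / k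

variable {v : Valuation K Γ₀} {π : Γ₀}

lemma IsW.unique (h0 : 0 < π) (h1 : π < 1) {x : K} {r s : ℚ} (hr : IsW v π x r)
    (hs : IsW v π x s) : r = s := by
  obtain ⟨k, hk, j, hj, rfl⟩ := hr
  obtain ⟨k', hk', j', hj', rfl⟩ := hs
  have e1 : π ^ (j * k') = π ^ (j' * k) := by
    rw [zpow_mul, zpow_mul, ← hj, ← hj', zpow_natCast, zpow_natCast, ← pow_mul, ← pow_mul,
      mul_comm]
  have e2 : j * k' = j' * k := zpow_right_injective₀ h0 h1.ne e1
  have hk0 : (k : ℚ) ≠ 0 := by exact_mod_cast hk.ne'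
  have hk0' : (k' : ℚ) ≠ 0 := by exact_mod_cast hk'.ne'
  rw [div_eq_div_iff hk0 hk0']
  exact_mod_cast e2

lemma IsW.mul (h0 : 0 < π) {x y : K} {r s : ℚ} (hr : IsW v π x r) (hs : IsW v π y s) :
    IsW v π (x * y) (r + s) := by
  obtain ⟨k, hk, j, hj, rfl⟩ := hr
  obtain ⟨k', hk', j', hj', rfl⟩ := hs
  refine ⟨k * k', Nat.mul_pos hk hk', j * k' + j' * k, ?_, ?_⟩
  · rw [map_mul, mul_pow, pow_mul, hj, mul_comm k k', pow_mul, hj', zpow_add₀ h0.ne', zpow_mul,
      zpow_mul, zpow_natCast, zpow_natCast]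
  · have hk0 : (k : ℚ) ≠ 0 := by exact_mod_cast hk.ne'
    have hk0' : (k' : ℚ) ≠ 0 := by exact_mod_cast hk'.ne'
    push_cast
    field_simp

lemma IsW.nonneg_iff (h0 : 0 < π) (h1 : π < 1) {x : K} {r : ℚ} (hr : IsW v π x r) :
    0 ≤ r ↔ v x ≤ 1 := by
  obtain ⟨k, hk, j, hj, rfl⟩ := hr
  have hk0 : (0 : ℚ) < k := by exact_mod_cast hk
  rw [← pow_le_one_iff hk.ne', hj, zpow_le_one_iff_right_of_lt_one₀ h0 h1, div_nonneg_iff]
  constructor
  · rintro (⟨h, _⟩ | ⟨_, h⟩)
    · exact_mod_cast h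
    · linarith
  · intro h
    exact Or.inl ⟨by exact_mod_cast h, hk0.le⟩

lemma IsW.pos_iff (h0 : 0 < π) (h1 : π < 1) {x : K} {r : ℚ} (hr : IsW v π x r) :
    0 < r ↔ v x < 1 := by
  obtain ⟨k, hk, j, hj, rfl⟩ := hr
  have hk0 : (0 : ℚ) < k := by exact_mod_cast hk
  rw [← pow_lt_one_iff hk.ne', hj, zpow_lt_one_iff_right_of_lt_one₀ h0 h1, div_pos_iff]
  constructor
  · rintro (⟨h, _⟩ | ⟨_, h⟩)
    · exact_mod_cast h
    · linarith
  · intro h
    exact Or.inl ⟨by exact_mod_cast h, hk0⟩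

open Classical in
/-- The rational valued valuation attached to `v`. -/
noncomputable def wOf (v : Valuation K Γ₀) (π : Γ₀) (x : K) : ℚ :=
  if h : ∃ r, IsW v π x r then h.choose else 0

lemma wOf_spec {x : K} (h : ∃ r, IsW v π x r) : IsW v π x (wOf v π x) := by
  unfold wOf
  rw [dif_pos h]
  exact h.choose_spec

/-- The `QVal` attached to a valuation whose value group is torsion over `π^ℤ`. -/
noncomputable def qvalOf (v : Valuation K Γ₀) (π : Γ₀) (h0 : 0 < π) (h1 : π < 1)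
    (H : ∀ x : K, x ≠ 0 → ∃ r, IsW v π x r) : QVal K where
  w := wOf v π
  map_mul x y hx hy :=
    (wOf_spec (H _ (mul_ne_zero hx hy))).unique h0 h1
      ((wOf_spec (H x hx)).mul h0 (wOf_spec (H y hy)))
  map_add x y hx hy hxy := by
    have key : ∀ a b : K, a ≠ 0 → b ≠ 0 → v b ≤ v a → wOf v π a ≤ wOf v π b := by
      intro a b ha hb hab
      have hc : b * a⁻¹ ≠ 0 := mul_ne_zero hb (inv_ne_zero ha)
      have e : wOf v π b = wOf v π (b * a⁻¹) + wOf v π a := by
        have := (wOf_spec (H _ hc)).mul h0 (wOf_spec (H a ha))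
        rw [inv_mul_cancel_right₀ ha] at this
        exact (wOf_spec (H b hb)).unique h0 h1 this
      have : 0 ≤ wOf v π (b * a⁻¹) := by
        rw [(wOf_spec (H _ hc)).nonneg_iff h0 h1, map_mul, map_inv₀]
        have hva : 0 < v a := zero_lt_iff.mpr ((Valuation.ne_zero_iff v).mpr ha)
        rw [← div_eq_mul_inv]
        exact (div_le_one₀ hva).mpr hab
      linarith
    rcases le_max_iff.mp (v.map_add x y) with h | h
    · exact le_trans (min_le_left _ _) (key x (x + y) hx hxy h)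
    · exact le_trans (min_le_right _ _) (key y (x + y) hy hxy h)

section props

variable (h0 : 0 < π) (h1 : π < 1) (H : ∀ x : K, x ≠ 0 → ∃ r, IsW v π x r)

lemma qvalOf_GE_iff {x : K} : (qvalOf v π h0 h1 H).GE 0 x ↔ v x ≤ 1 := by
  by_cases hx : x = 0
  · subst hx; simp [QVal.GE]
  · unfold QVal.GE
    constructor
    · intro h
      exact ((wOf_spec (H x hx)).nonneg_iff h0 h1).mp (h.resolve_left hx)
    · intro h
      exact Or.inr (((wOf_spec (H x hx)).nonneg_iff h0 h1).mpr h)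

lemma qvalOf_GT_iff {x : K} : (qvalOf v π h0 h1 H).GT 0 x ↔ v x < 1 := by
  by_cases hx : x = 0
  · subst hx; simp [QVal.GT]
  · unfold QVal.GT
    constructor
    · intro h
      exact ((wOf_spec (H x hx)).pos_iff h0 h1).mp (h.resolve_left hx)
    · intro h
      exact Or.inr (((wOf_spec (H x hx)).pos_iff h0 h1).mpr h)

lemma qvalOf_EQ_iff {x : K} : (qvalOf v π h0 h1 H).EQ 0 x ↔ v x = 1 := by
  constructor
  · intro h
    have h2 := (qvalOf_GE_iff h0 h1 H).mp h.ge'
    have h3 : ¬ v x < 1 := fun hc => h.not_gt le_rfl ((qvalOf_GT_iff h0 h1 H).mpr hc)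
    exact le_antisymm h2 (not_lt.mp h3)
  · intro h
    have hx : x ≠ 0 := by
      intro h0'
      rw [h0', map_zero] at h
      exact zero_ne_one h
    have h2 := ((qvalOf_GE_iff h0 h1 H).mpr h.le).le_w hx
    have h3 : ¬ (qvalOf v π h0 h1 H).GT 0 x := fun hc =>
      absurd ((qvalOf_GT_iff h0 h1 H).mp hc) (by rw [h]; exact lt_irrefl _)
    exact ⟨hx, le_antisymm (QVal.not_GT_iff.mp h3).2 h2⟩

/-- An automorphism preserving the valuation preserves the rational valuation. -/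
lemma qvalOf_w_eq_of {x y : K} (hx : x ≠ 0) (hxy : v x = v y) :
    (qvalOf v π h0 h1 H).w x = (qvalOf v π h0 h1 H).w y := by
  have hy : y ≠ 0 := by
    intro h
    rw [h, map_zero] at hxy
    exact hx ((Valuation.zero_iff v).mp hxy)
  obtain ⟨k, hk, j, hj, hr⟩ := wOf_spec (H x hx)
  exact (wOf_spec (H x hx)).unique h0 h1 (by
    obtain ⟨k, hk, j, hj, hr⟩ := wOf_spec (H y hy)
    exact ⟨k, hk, j, by rw [hxy]; exact hj, hr⟩)

end props

end Fermat.Agent.S05
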